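import Mathlib

/-!
# S13 (project G), slice G-L0: abstract nodal Weierstrass coordinates

`NodalData K G a₁ a₂ a₄` axiomatises an abelian group `G` that "is" the group of points of

  `y² + a₁ x y = x³ + a₂ x² + a₄ x`        (`a₃ = a₆ = 0`)

over the field `K`: coordinate functions `X Y : G → K` (junk at `0`), the chord and tangent
formulas in Mathlib's normalisation, and existence of points.  This is the characteristic-free
version of `Fermat.Agent.S05.LegData` (which is the case `a₁ = 0`): no assumption on `2`.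

The exact chord identities (`Phi1`, `Phi2`, `Phi3`, `collinear_*`, `dup`, `X_add_two_torsion`)
hold uniformly for the chord (`X P ≠ X Q`) and the tangent (`P = Q`, `2 Y + a₁ X ≠ 0`) case,
packaged in the predicate `Gen P Q`.
-/

set_option autoImplicit false
set_option linter.unusedSectionVars false

namespace Fermat.Agent.S13.Local

/-- Abstract coordinates of `y² + a₁ x y = x³ + a₂ x² + a₄ x` on an abelian group. -/
structure NodalData (K : Type*) [Field K] (G : Type*) [AddCommGroup G] (a₁ a₂ a₄ : K) where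
  X : G → K
  Y : G → K
  eqn : ∀ P, P ≠ 0 → Y P ^ 2 + a₁ * X P * Y P = X P ^ 3 + a₂ * X P ^ 2 + a₄ * X P
  ext : ∀ P Q, P ≠ 0 → Q ≠ 0 → X P = X Q → Y P = Y Q → P = Q
  X_neg : ∀ P, P ≠ 0 → X (-P) = X P
  Y_neg : ∀ P, P ≠ 0 → Y (-P) = -Y P - a₁ * X P
  add_ne : ∀ P Q, P ≠ 0 → Q ≠ 0 → X P ≠ X Q → P + Q ≠ 0
  add_X : ∀ P Q, P ≠ 0 → Q ≠ 0 → X P ≠ X Q →
    X (P + Q) = ((Y Q - Y P) / (X Q - X P)) ^ 2 + a₁ * ((Y Q - Y P) / (X Q - X P))
      - a₂ - X P - X Q
  add_Y : ∀ P Q, P ≠ 0 → Q ≠ 0 → X P ≠ X Q →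
    Y (P + Q) = -(((Y Q - Y P) / (X Q - X P)) * (X (P + Q) - X P) + Y P) - a₁ * X (P + Q)
  two_of_T : ∀ P, P ≠ 0 → 2 * Y P + a₁ * X P = 0 → P + P = 0
  dbl_ne : ∀ P, P ≠ 0 → 2 * Y P + a₁ * X P ≠ 0 → P + P ≠ 0
  dbl_X : ∀ P, P ≠ 0 → 2 * Y P + a₁ * X P ≠ 0 →
    X (P + P) = ((3 * X P ^ 2 + 2 * a₂ * X P + a₄ - a₁ * Y P) / (2 * Y P + a₁ * X P)) ^ 2
      + a₁ * ((3 * X P ^ 2 + 2 * a₂ * X P + a₄ - a₁ * Y P) / (2 * Y P + a₁ * X P))
      - a₂ - 2 * X P
  dbl_Y : ∀ P, P ≠ 0 → 2 * Y P + a₁ * X P ≠ 0 →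
    Y (P + P) = -(((3 * X P ^ 2 + 2 * a₂ * X P + a₄ - a₁ * Y P) / (2 * Y P + a₁ * X P))
      * (X (P + P) - X P) + Y P) - a₁ * X (P + P)
  exists_point : ∀ x y : K, y ^ 2 + a₁ * x * y = x ^ 3 + a₂ * x ^ 2 + a₄ * x →
    ∃ P, P ≠ 0 ∧ X P = x ∧ Y P = y

namespace NodalData

variable {K : Type*} [Field K] {G : Type*} [AddCommGroup G] {a₁ a₂ a₄ : K}
  (D : NodalData K G a₁ a₂ a₄)

/-- `T P = 2 Y P + a₁ X P`, the `y`-partial derivative; it vanishes exactly at the `2`-torsion. -/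
def T (P : G) : K := 2 * D.Y P + a₁ * D.X P

/-- `M P = 3 X² + 2 a₂ X + a₄ - a₁ Y`, minus the `x`-partial derivative. -/
def M (P : G) : K := 3 * D.X P ^ 2 + 2 * a₂ * D.X P + a₄ - a₁ * D.Y P

theorem T_neg {P : G} (hP : P ≠ 0) : D.T (-P) = -D.T P := by
  unfold T
  rw [D.X_neg P hP, D.Y_neg P hP]; ring

/-- `(Y P - Y Q) (Y P + Y Q + a₁ X) = 0` when `X P = X Q`. -/
theorem Y_eq_or_of_X_eq {P Q : G} (hP : P ≠ 0) (hQ : Q ≠ 0) (h : D.X P = D.X Q) :
    D.Y P = D.Y Q ∨ D.Y P = -D.Y Q - a₁ * D.X Q := by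
  have h1 := D.eqn P hP
  have h2 := D.eqn Q hQ
  rw [h] at h1
  have h3 : (D.Y P - D.Y Q) * (D.Y P + D.Y Q + a₁ * D.X Q) = 0 := by
    linear_combination h1 - h2
  rcases mul_eq_zero.mp h3 with h4 | h4
  · exact Or.inl (sub_eq_zero.mp h4)
  · right; linear_combination h4

/-- Same `X`-coordinate means equal or opposite. -/
theorem eq_or_eq_neg_of_X_eq {P Q : G} (hP : P ≠ 0) (hQ : Q ≠ 0) (h : D.X P = D.X Q) :
    P = Q ∨ P = -Q := by
  rcases D.Y_eq_or_of_X_eq hP hQ h with h4 | h4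
  · exact Or.inl (D.ext P Q hP hQ h h4)
  · right
    refine D.ext P (-Q) hP (neg_ne_zero.mpr hQ) ?_ ?_
    · rw [D.X_neg Q hQ, h]
    · rw [D.Y_neg Q hQ, h4]

/-- `T P = 0` iff `P` is `2`-torsion (for `P ≠ 0`). -/
theorem two_torsion_iff {P : G} (hP : P ≠ 0) : P + P = 0 ↔ D.T P = 0 := by
  constructor
  · intro h
    by_contra hT
    exact D.dbl_ne P hP hT h
  · exact D.two_of_T P hP

/-- "General position": `P + Q` is given by the secant or tangent construction. -/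
def Gen (P Q : G) : Prop :=
  P ≠ 0 ∧ Q ≠ 0 ∧ (D.X P ≠ D.X Q ∨ (P = Q ∧ D.T P ≠ 0))

theorem gen_of_X_ne {P Q : G} (hP : P ≠ 0) (hQ : Q ≠ 0) (h : D.X P ≠ D.X Q) : D.Gen P Q :=
  ⟨hP, hQ, Or.inl h⟩

theorem gen_self {P : G} (hP : P ≠ 0) (h : D.T P ≠ 0) : D.Gen P P :=
  ⟨hP, hP, Or.inr ⟨rfl, h⟩⟩

/-- Two non-zero points are in general position or add up to zero. -/
theorem gen_or_add_eq_zero {P Q : G} (hP : P ≠ 0) (hQ : Q ≠ 0) : D.Gen P Q ∨ P + Q = 0 := by
  by_cases hX : D.X P = D.X Q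
  · rcases D.eq_or_eq_neg_of_X_eq hP hQ hX with h | h
    · subst h
      by_cases hT : D.T P = 0
      · exact Or.inr (D.two_of_T P hP hT)
      · exact Or.inl (D.gen_self hP hT)
    · right; rw [h]; simp
  · exact Or.inl (D.gen_of_X_ne hP hQ hX)

theorem gen_symm {P Q : G} (h : D.Gen P Q) : D.Gen Q P := by
  obtain ⟨hP, hQ, h | ⟨rfl, hT⟩⟩ := h
  · exact ⟨hQ, hP, Or.inl (Ne.symm h)⟩
  · exact ⟨hP, hP, Or.inr ⟨rfl, hT⟩⟩

open Classical in
/-- The slope of the secant (or tangent) line. -/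
noncomputable def lam (P Q : G) : K :=
  if D.X P = D.X Q then D.M P / D.T P
  else (D.Y Q - D.Y P) / (D.X Q - D.X P)

/-- The intercept of the secant (or tangent) line: the line is `y = lam * x + nu`. -/
noncomputable def nu (P Q : G) : K := D.Y P - D.lam P Q * D.X P

theorem lam_of_X_ne {P Q : G} (h : D.X P ≠ D.X Q) :
    D.lam P Q = (D.Y Q - D.Y P) / (D.X Q - D.X P) := by
  unfold lam; rw [if_neg h]

theorem lam_self (P : G) : D.lam P P = D.M P / D.T P := by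
  unfold lam; rw [if_pos rfl]

variable {D}

theorem Gen.left_ne {P Q : G} (h : D.Gen P Q) : P ≠ 0 := h.1
theorem Gen.right_ne {P Q : G} (h : D.Gen P Q) : Q ≠ 0 := h.2.1

theorem Gen.add_ne_zero {P Q : G} (h : D.Gen P Q) : P + Q ≠ 0 := by
  obtain ⟨hP, hQ, h | ⟨rfl, hT⟩⟩ := h
  · exact D.add_ne P Q hP hQ h
  · exact D.dbl_ne P hP hT

/-- `lam * T = M` in the tangent case. -/
theorem lam_self_mul {P : G} (hT : D.T P ≠ 0) : D.lam P P * D.T P = D.M P := by
  rw [D.lam_self]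
  exact div_mul_cancel₀ _ hT

/-- `lam * (X Q - X P) = Y Q - Y P`. -/
theorem Gen.lam_mul_sub {P Q : G} (h : D.Gen P Q) :
    D.lam P Q * (D.X Q - D.X P) = D.Y Q - D.Y P := by
  obtain ⟨_, _, h | ⟨rfl, _⟩⟩ := h
  · rw [D.lam_of_X_ne h]
    exact div_mul_cancel₀ _ (sub_ne_zero.mpr (Ne.symm h))
  · simp

theorem Gen.X_add {P Q : G} (h : D.Gen P Q) :
    D.X (P + Q) = D.lam P Q ^ 2 + a₁ * D.lam P Q - a₂ - D.X P - D.X Q := by
  obtain ⟨hP, hQ, h | ⟨rfl, hT⟩⟩ := h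
  · rw [D.lam_of_X_ne h]; exact D.add_X P Q hP hQ h
  · rw [D.lam_self, D.dbl_X P hP hT]; unfold M T; ring

theorem Gen.Y_add {P Q : G} (h : D.Gen P Q) :
    D.Y (P + Q) = -(D.lam P Q * D.X (P + Q) + D.nu P Q) - a₁ * D.X (P + Q) := by
  unfold nu
  obtain ⟨hP, hQ, h | ⟨rfl, hT⟩⟩ := h
  · rw [D.lam_of_X_ne h, D.add_Y P Q hP hQ h]; ring
  · rw [D.lam_self, D.dbl_Y P hP hT]; unfold M T; ring

/-- The line passes through `P`. -/
theorem Y_eq_left (P Q : G) : D.Y P = D.lam P Q * D.X P + D.nu P Q := by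
  unfold nu; ring

/-- The line passes through `Q`. -/
theorem Gen.Y_eq_right {P Q : G} (h : D.Gen P Q) : D.Y Q = D.lam P Q * D.X Q + D.nu P Q := by
  unfold nu; linear_combination -h.lam_mul_sub

/-- **Chord identity 1**: `X(P+Q) * X P * X Q = nu²`. -/
theorem Gen.Phi1 {P Q : G} (h : D.Gen P Q) :
    D.X (P + Q) * D.X P * D.X Q = D.nu P Q ^ 2 := by
  have hX := h.X_add
  have e1 := D.eqn P h.left_ne
  have e2 := D.eqn Q h.right_ne
  have hl := h.lam_mul_sub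
  obtain ⟨hP, hQ, hne | ⟨rfl, hT⟩⟩ := h
  · have hd : D.X Q - D.X P ≠ 0 := sub_ne_zero.mpr (Ne.symm hne)
    have hy₂ : D.Y Q = D.Y P + D.lam P Q * (D.X Q - D.X P) := by linear_combination -hl
    have key : (D.X Q - D.X P) * (2 * D.Y P * D.lam P Q + D.lam P Q ^ 2 * (D.X Q - D.X P)
        + a₁ * (D.Y P + D.X Q * D.lam P Q)
        - (D.X Q ^ 2 + D.X P * D.X Q + D.X P ^ 2 + a₂ * (D.X P + D.X Q) + a₄)) = 0 := by
      rw [hy₂] at e2
      linear_combination e2 - e1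
    have key' := (mul_eq_zero.mp key).resolve_left hd
    rw [hX]; unfold nu
    linear_combination D.X P * key' - e1
  · have hl2 := lam_self_mul hT
    unfold M T at hl2
    rw [hX]; unfold nu
    linear_combination D.X P * hl2 - e1

/-- **Chord identity 2** (division-free form of `nu * (sg₁ + sg₂ + a₁) = -(X₁ X₂ - a₄)`). -/
theorem Gen.Phi2 {P Q : G} (h : D.Gen P Q) :
    D.nu P Q * (D.Y P * D.X Q + D.Y Q * D.X P + a₁ * (D.X P * D.X Q)) =
      -(D.X P * D.X Q - a₄) * (D.X P * D.X Q) := by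
  have e1 := D.eqn P h.left_ne
  have e2 := D.eqn Q h.right_ne
  have hl := h.lam_mul_sub
  obtain ⟨hP, hQ, hne | ⟨rfl, hT⟩⟩ := h
  · have hd : D.X Q - D.X P ≠ 0 := sub_ne_zero.mpr (Ne.symm hne)
    apply mul_left_cancel₀ hd
    unfold nu
    linear_combination (-(D.Y P * D.X Q + D.Y Q * D.X P + a₁ * (D.X P * D.X Q)) * D.X P) * hl
      + (D.X Q ^ 2) * e1 - (D.X P ^ 2) * e2
  · have hl2 := lam_self_mul hT
    unfold M T at hl2
    unfold nu
    linear_combination (-(D.X P) ^ 2) * hl2 + (2 * D.X P) * e1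

/-- **Chord identity 3**: `nu * (X Q - X P) = Y P * X Q - Y Q * X P`. -/
theorem Gen.Phi3 {P Q : G} (h : D.Gen P Q) :
    D.nu P Q * (D.X Q - D.X P) = D.Y P * D.X Q - D.Y Q * D.X P := by
  have hl := h.lam_mul_sub
  unfold nu
  linear_combination (-D.X P) * hl

/-- The slope from the node: `sg P = Y P / X P`. -/
noncomputable def sg (D : NodalData K G a₁ a₂ a₄) (P : G) : K := D.Y P / D.X P

theorem sg_mul_X {P : G} (hX : D.X P ≠ 0) : D.sg P * D.X P = D.Y P := by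
  unfold sg; exact div_mul_cancel₀ _ hX

/-- `sg (-P) = -sg P - a₁`: negation exchanges the two branches. -/
theorem sg_neg {P : G} (hP : P ≠ 0) (hX : D.X P ≠ 0) : D.sg (-P) = -D.sg P - a₁ := by
  unfold sg
  rw [D.X_neg P hP, D.Y_neg P hP]
  field_simp

/-- `(sg - α)(sg - β) = X + a₄ / X`, written division-free:
`sg² + a₁ sg - a₂ = X + a₄ / X`. -/
theorem sg_sq {P : G} (hP : P ≠ 0) (hX : D.X P ≠ 0) :
    D.sg P ^ 2 + a₁ * D.sg P - a₂ = D.X P + a₄ / D.X P := by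
  have h := D.eqn P hP
  unfold sg
  field_simp
  linear_combination h

/-- `2 sg + a₁ = T / X`. -/
theorem two_sg_add {P : G} (hX : D.X P ≠ 0) : 2 * D.sg P + a₁ = D.T P / D.X P := by
  unfold sg T
  field_simp

/-- `nu * (sg P + sg Q + a₁) = -(X P * X Q - a₄)`. -/
theorem nu_mul_add {P Q : G} (h : D.Gen P Q) (hP : D.X P ≠ 0) (hQ : D.X Q ≠ 0) :
    D.nu P Q * (D.sg P + D.sg Q + a₁) = -(D.X P * D.X Q - a₄) := by
  have h2 := h.Phi2
  have e : D.Y P * D.X Q + D.Y Q * D.X P + a₁ * (D.X P * D.X Q)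
      = (D.sg P + D.sg Q + a₁) * (D.X P * D.X Q) := by
    rw [← sg_mul_X hP, ← sg_mul_X hQ]; ring
  rw [e] at h2
  have hne : D.X P * D.X Q ≠ 0 := mul_ne_zero hP hQ
  apply mul_right_cancel₀ hne
  linear_combination h2

/-- `nu * (X Q - X P) = X P * X Q * (sg P - sg Q)`. -/
theorem nu_mul_sub {P Q : G} (h : D.Gen P Q) (hP : D.X P ≠ 0) (hQ : D.X Q ≠ 0) :
    D.nu P Q * (D.X Q - D.X P) = D.X P * D.X Q * (D.sg P - D.sg Q) := by
  have h3 := h.Phi3
  rw [h3, ← sg_mul_X hP, ← sg_mul_X hQ]; ring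

/-- Collinearity of `P` and `-(P+Q)`:
`(Y(P+Q) + a₁ X(P+Q)) X(P) + Y(P) X(P+Q) = nu (X(P+Q) - X(P))`. -/
theorem collinear_left {P Q : G} (h : D.Gen P Q) :
    (D.Y (P + Q) + a₁ * D.X (P + Q)) * D.X P + D.Y P * D.X (P + Q) =
      D.nu P Q * (D.X (P + Q) - D.X P) := by
  rw [h.Y_add]
  have := Y_eq_left (D := D) P Q
  linear_combination (D.X (P + Q)) * this

/-- Collinearity of `Q` and `-(P+Q)`. -/
theorem collinear_right {P Q : G} (h : D.Gen P Q) :
    (D.Y (P + Q) + a₁ * D.X (P + Q)) * D.X Q + D.Y Q * D.X (P + Q) =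
      D.nu P Q * (D.X (P + Q) - D.X Q) := by
  rw [h.Y_add]
  have := h.Y_eq_right
  linear_combination (D.X (P + Q)) * this

/-- `(sg(P+Q) + sg P + a₁) * (X P * X (P+Q)) = nu * (X (P+Q) - X P)`. -/
theorem sg_add_left {P Q : G} (h : D.Gen P Q) (hP : D.X P ≠ 0) (h3 : D.X (P + Q) ≠ 0) :
    (D.sg (P + Q) + D.sg P + a₁) * (D.X P * D.X (P + Q)) =
      D.nu P Q * (D.X (P + Q) - D.X P) := by
  rw [← collinear_left h, ← sg_mul_X hP, ← sg_mul_X h3]; ring

theorem sg_add_right {P Q : G} (h : D.Gen P Q) (hQ : D.X Q ≠ 0) (h3 : D.X (P + Q) ≠ 0) :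
    (D.sg (P + Q) + D.sg Q + a₁) * (D.X Q * D.X (P + Q)) =
      D.nu P Q * (D.X (P + Q) - D.X Q) := by
  rw [← collinear_right h, ← sg_mul_X hQ, ← sg_mul_X h3]; ring

/-- A non-zero point with `X P = 0` is the `2`-torsion point `(0, 0)`. -/
theorem Y_eq_zero_of_X_eq_zero {P : G} (hP : P ≠ 0) (hX : D.X P = 0) : D.Y P = 0 := by
  have h := D.eqn P hP
  rw [hX] at h
  have : D.Y P ^ 2 = 0 := by linear_combination h
  exact pow_eq_zero_iff (two_ne_zero) |>.mp this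

theorem T_eq_zero_of_X_eq_zero {P : G} (hP : P ≠ 0) (hX : D.X P = 0) : D.T P = 0 := by
  unfold T; rw [hX, Y_eq_zero_of_X_eq_zero hP hX]; ring

theorem X_ne_zero_of_T_ne_zero {P : G} (hP : P ≠ 0) (hT : D.T P ≠ 0) : D.X P ≠ 0 :=
  fun hX => hT (T_eq_zero_of_X_eq_zero hP hX)

/-- **Duplication**: `X (2P) * T² = (X² - a₄)²`. -/
theorem dup {P : G} (hP : P ≠ 0) (hT : D.T P ≠ 0) :
    D.X (P + P) * D.T P ^ 2 = (D.X P ^ 2 - a₄) ^ 2 := by
  have hgen : D.Gen P P := D.gen_self hP hT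
  have h1 := hgen.Phi1
  have h2 := hgen.Phi2
  have hX : D.X P ≠ 0 := X_ne_zero_of_T_ne_zero hP hT
  apply mul_right_cancel₀ (pow_ne_zero 4 hX)
  unfold T
  linear_combination ((2 * D.Y P + a₁ * D.X P) ^ 2 * D.X P ^ 2) * h1
    + (D.nu P P * (D.Y P * D.X P + D.Y P * D.X P + a₁ * (D.X P * D.X P))
      + -(D.X P * D.X P - a₄) * (D.X P * D.X P)) * h2

/-- Translation by a point `S` with `X S = 0` (the `2`-torsion point at the node):
`X (P + S) * X P = a₄`. -/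
theorem X_add_two_torsion {P S : G} (hP : P ≠ 0) (hS : S ≠ 0) (hXS : D.X S = 0)
    (hXP : D.X P ≠ 0) : D.X (P + S) * D.X P = a₄ := by
  have hgen : D.Gen P S := D.gen_of_X_ne hP hS (by rw [hXS]; exact hXP)
  have hYS : D.Y S = 0 := Y_eq_zero_of_X_eq_zero hS hXS
  have hX := hgen.X_add
  have hl := hgen.lam_mul_sub
  have e1 := D.eqn P hP
  rw [hXS, hYS] at hl
  rw [hXS] at hX
  -- `lam = Y P / X P`
  have hl' : D.lam P S * D.X P = D.Y P := by linear_combination -hl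
  apply mul_right_cancel₀ hXP
  rw [hX]
  linear_combination (D.lam P S * D.X P + D.Y P + a₁ * D.X P) * hl' + e1

/-! ### Shared vocabulary for the local analysis

`v : Valuation K Γ₀` is any valuation (for the applications `v = A.valuation` for a valuation
subring `A` of `K = ℚ̄` above `2`).  The reduction is `y² + a₁ x y = x³ + a₂ x²` with the node at
`(0, 0)` and tangent directions the roots of `t² + a₁ t - a₂`. -/

section local_defs

variable {Γ₀ : Type*} [LinearOrderedCommGroupWithZero Γ₀]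

/-- Standing hypotheses: integral model, multiplicative reduction with the node at `(0,0)`
(`a₄ ≡ 0`, `b₂ = a₁² + 4 a₂` a unit).  No hypothesis on the residue characteristic. -/
structure Hyp (v : Valuation K Γ₀) (a₁ a₂ a₄ : K) : Prop where
  a1 : v a₁ ≤ 1
  a2 : v a₂ ≤ 1
  a4 : v a₄ < 1
  b2 : v (a₁ ^ 2 + 4 * a₂) = 1

variable (D) (v : Valuation K Γ₀)

/-- The kernel of reduction: `P = 0` or `X P` is not integral. -/
def K1 (P : G) : Prop := P = 0 ∨ 1 < v (D.X P)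

/-- Points with non-singular reduction: `P = 0` or `X P` is not in the maximal ideal. -/
def E0 (P : G) : Prop := P = 0 ∨ 1 ≤ v (D.X P)

/-- The strict node region: `v a₄ < v (X P) < 1`. -/
def InN (P : G) : Prop := P ≠ 0 ∧ v a₄ < v (D.X P) ∧ v (D.X P) < 1

/-- The middle zone (the component of the `2`-torsion point `(0,0)`): `v (X P) ≤ v a₄`. -/
def InMid (P : G) : Prop := P ≠ 0 ∧ v (D.X P) ≤ v a₄

/-- Two points of the node region lie on the same branch. -/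
def Same (P Q : G) : Prop := v (D.sg P - D.sg Q) < 1

/-- Two points of the node region lie on opposite branches. -/
def Opp (P Q : G) : Prop := v (D.sg P + D.sg Q + a₁) < 1

theorem K1.e0 {P : G} (h : D.K1 v P) : D.E0 v P := h.imp id le_of_lt

theorem k1_zero : D.K1 v 0 := Or.inl rfl

theorem e0_zero : D.E0 v 0 := Or.inl rfl

/-- Trichotomy of the non-zero points: non-singular reduction, strict node region, middle zone. -/
theorem e0_or_inN_or_inMid (P : G) : D.E0 v P ∨ D.InN v P ∨ D.InMid v P := by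
  by_cases hP : P = 0
  · exact Or.inl (Or.inl hP)
  by_cases h1 : 1 ≤ v (D.X P)
  · exact Or.inl (Or.inr h1)
  by_cases h2 : v a₄ < v (D.X P)
  · exact Or.inr (Or.inl ⟨hP, h2, not_le.mp h1⟩)
  · exact Or.inr (Or.inr ⟨hP, not_lt.mp h2⟩)

theorem K1.neg {P : G} (h : D.K1 v P) : D.K1 v (-P) := by
  rcases h with rfl | h
  · simpa using D.k1_zero v
  · by_cases hP : P = 0
    · subst hP; simpa using D.k1_zero v
    · right; rwa [D.X_neg P hP]

theorem E0.neg {P : G} (h : D.E0 v P) : D.E0 v (-P) := by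
  rcases h with rfl | h
  · simpa using D.e0_zero v
  · by_cases hP : P = 0
    · subst hP; simpa using D.e0_zero v
    · right; rwa [D.X_neg P hP]

theorem InN.neg {P : G} (h : D.InN v P) : D.InN v (-P) := by
  refine ⟨neg_ne_zero.mpr h.1, ?_, ?_⟩
  · rw [D.X_neg P h.1]; exact h.2.1
  · rw [D.X_neg P h.1]; exact h.2.2

theorem InMid.neg {P : G} (h : D.InMid v P) : D.InMid v (-P) := by
  refine ⟨neg_ne_zero.mpr h.1, ?_⟩
  rw [D.X_neg P h.1]; exact h.2

end local_defs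

section inertia

variable (D) (A : ValuationSubring K)

/-- An "inertia element": a field automorphism `σ` preserving `A` and acting trivially on the
residue field, together with a compatible group endomorphism `s` of `G`
(same shape as `Fermat.Agent.S05.LegData.InertiaAct`). -/
structure InertiaAct (σ : K →+* K) (s : G →+ G) : Prop where
  mem_iff : ∀ x, σ x ∈ A ↔ x ∈ A
  sub_mem : ∀ x, x ∈ A → σ x - x ∈ A.nonunits
  inj : ∀ P, s P = 0 → P = 0
  X_map : ∀ P, P ≠ 0 → D.X (s P) = σ (D.X P)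
  Y_map : ∀ P, P ≠ 0 → D.Y (s P) = σ (D.Y P)

end inertia

end NodalData

end Fermat.Agent.S13.Local
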