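import Mathlib
import Fermat.Prelude.Def_FLTPrelim_GaloisRep
import Fermat.Agent.S13.Local.NodalDefs

/-!
# S13 (project G), slice G-L0': the `NodalData` of a Weierstrass curve with `a₃ = a₆ = 0`

For `W : WeierstrassCurve K` with `a₃ = a₆ = 0` and `Δ ≠ 0` the plain affine coordinates
`ptX`, `ptY` on Mathlib's group `W.toAffine.Point` form a
`NodalData K W.toAffine.Point W.a₁ W.a₂ W.a₄`.  No hypothesis on the characteristic.
Also: Galois equivariance of the coordinates on `(W'⁄F).Point`.
-/

set_option autoImplicit false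

noncomputable section

namespace Fermat.Agent.S13.Local.NodalInst

open WeierstrassCurve WeierstrassCurve.Affine Fermat.Agent.S13.Local

variable {K : Type*} [Field K]

/-- The affine `x`-coordinate (junk value `0` at the origin). -/
def ptX (W : WeierstrassCurve K) : W.toAffine.Point → K
  | .zero => 0
  | .some x _ _ => x

/-- The affine `y`-coordinate (junk value `0` at the origin). -/
def ptY (W : WeierstrassCurve K) : W.toAffine.Point → K
  | .zero => 0
  | .some _ y _ => y

variable {W : WeierstrassCurve K}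

@[simp] theorem ptX_zero : ptX W (0 : W.toAffine.Point) = 0 := rfl
@[simp] theorem ptY_zero : ptY W (0 : W.toAffine.Point) = 0 := rfl
@[simp] theorem ptX_some {x y : K} (h : W.toAffine.Nonsingular x y) :
    ptX W (Point.some x y h) = x := rfl
@[simp] theorem ptY_some {x y : K} (h : W.toAffine.Nonsingular x y) :
    ptY W (Point.some x y h) = y := rfl

/-- `W` is `y² + a₁ x y = x³ + a₂ x² + a₄ x` and is non-singular. -/
structure IsNodalForm (W : WeierstrassCurve K) : Prop where
  a3 : W.a₃ = 0
  a6 : W.a₆ = 0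
  disc : W.Δ ≠ 0

theorem IsNodalForm.equation_iff (hW : IsNodalForm W) {x y : K} :
    W.toAffine.Equation x y ↔ y ^ 2 + W.a₁ * x * y = x ^ 3 + W.a₂ * x ^ 2 + W.a₄ * x := by
  rw [Affine.equation_iff]
  change y ^ 2 + W.a₁ * x * y + W.a₃ * y = x ^ 3 + W.a₂ * x ^ 2 + W.a₄ * x + W.a₆ ↔ _
  rw [hW.a3, hW.a6]
  constructor <;> intro h <;> linear_combination h

theorem IsNodalForm.eqn (hW : IsNodalForm W) {P : W.toAffine.Point} (hP : P ≠ 0) :
    ptY W P ^ 2 + W.a₁ * ptX W P * ptY W P =
      ptX W P ^ 3 + W.a₂ * ptX W P ^ 2 + W.a₄ * ptX W P := by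
  cases P with
  | zero => exact absurd rfl hP
  | some x y h => exact hW.equation_iff.mp h.1

theorem pt_ext {P Q : W.toAffine.Point} (hP : P ≠ 0) (hQ : Q ≠ 0)
    (hX : ptX W P = ptX W Q) (hY : ptY W P = ptY W Q) : P = Q := by
  cases P with
  | zero => exact absurd rfl hP
  | some x y h =>
    cases Q with
    | zero => exact absurd rfl hQ
    | some x' y' h' =>
      simp only [ptX_some, ptY_some] at hX hY
      subst hX; subst hY; rfl

theorem ptX_neg (P : W.toAffine.Point) : ptX W (-P) = ptX W P := by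
  cases P with
  | zero => rfl
  | some x y h => rfl

theorem IsNodalForm.ptY_neg (hW : IsNodalForm W) (P : W.toAffine.Point) :
    ptY W (-P) = -ptY W P - W.a₁ * ptX W P := by
  cases P with
  | zero =>
    change ptY W (-(0 : W.toAffine.Point)) = -ptY W (0 : W.toAffine.Point) - W.a₁ * ptX W 0
    rw [Point.neg_zero, ptY_zero, ptX_zero]; ring
  | some x y h =>
    rw [Point.neg_some, ptY_some, ptY_some, ptX_some]
    simp only [negY, hW.a3]
    ring

section Add

variable [DecidableEq K]

theorem IsNodalForm.chord (hW : IsNodalForm W) {P Q : W.toAffine.Point}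
    (hP : P ≠ 0) (hQ : Q ≠ 0) (hX : ptX W P ≠ ptX W Q) :
    P + Q ≠ 0 ∧
    ptX W (P + Q) =
      ((ptY W Q - ptY W P) / (ptX W Q - ptX W P)) ^ 2
        + W.a₁ * ((ptY W Q - ptY W P) / (ptX W Q - ptX W P))
        - W.a₂ - ptX W P - ptX W Q ∧
    ptY W (P + Q) =
      -(((ptY W Q - ptY W P) / (ptX W Q - ptX W P)) * (ptX W (P + Q) - ptX W P) + ptY W P)
        - W.a₁ * ptX W (P + Q) := by
  cases P with
  | zero => exact absurd rfl hP
  | some x₁ y₁ h₁ =>
    cases Q with
    | zero => exact absurd rfl hQ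
    | some x₂ y₂ h₂ =>
      simp only [ptX_some, ptY_some] at hX ⊢
      have hx : x₁ ≠ x₂ := hX
      have hx' : x₁ - x₂ ≠ 0 := sub_ne_zero.mpr hx
      have hx'' : x₂ - x₁ ≠ 0 := sub_ne_zero.mpr (Ne.symm hx)
      rw [Point.add_of_X_ne hx]
      have hL : (y₂ - y₁) / (x₂ - x₁) = (y₁ - y₂) / (x₁ - x₂) := by
        field_simp
        ring
      rw [hL]
      refine ⟨Point.some_ne_zero _, ?_, ?_⟩
      · rw [ptX_some]
        simp only [addX, slope_of_X_ne hx]
      · rw [ptX_some, ptY_some]
        simp only [addY, negAddY, negY, addX, slope_of_X_ne hx, hW.a3]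
        ring

theorem IsNodalForm.add_self_eq_zero_iff (hW : IsNodalForm W)
    {P : W.toAffine.Point} (hP : P ≠ 0) :
    P + P = 0 ↔ 2 * ptY W P + W.a₁ * ptX W P = 0 := by
  cases P with
  | zero => exact absurd rfl hP
  | some x y h =>
    rw [ptY_some, ptX_some]
    constructor
    · intro h0
      by_contra hne
      have hy : y ≠ W.toAffine.negY x y := by
        intro hy
        apply hne
        simp only [negY, hW.a3] at hy
        linear_combination hy
      rw [Point.add_self_of_Y_ne hy] at h0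
      exact Point.some_ne_zero _ h0
    · intro h0
      apply Point.add_self_of_Y_eq
      simp only [negY, hW.a3]
      linear_combination h0

theorem IsNodalForm.tangent (hW : IsNodalForm W) {P : W.toAffine.Point}
    (hP : P ≠ 0) (hT : 2 * ptY W P + W.a₁ * ptX W P ≠ 0) :
    P + P ≠ 0 ∧
    ptX W (P + P) =
      ((3 * ptX W P ^ 2 + 2 * W.a₂ * ptX W P + W.a₄ - W.a₁ * ptY W P)
          / (2 * ptY W P + W.a₁ * ptX W P)) ^ 2
        + W.a₁ * ((3 * ptX W P ^ 2 + 2 * W.a₂ * ptX W P + W.a₄ - W.a₁ * ptY W P)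
          / (2 * ptY W P + W.a₁ * ptX W P))
        - W.a₂ - 2 * ptX W P ∧
    ptY W (P + P) =
      -(((3 * ptX W P ^ 2 + 2 * W.a₂ * ptX W P + W.a₄ - W.a₁ * ptY W P)
          / (2 * ptY W P + W.a₁ * ptX W P)) * (ptX W (P + P) - ptX W P) + ptY W P)
        - W.a₁ * ptX W (P + P) := by
  cases P with
  | zero => exact absurd rfl hP
  | some x y h =>
    simp only [ptX_some, ptY_some] at hT ⊢
    have hy : y ≠ W.toAffine.negY x y := by
      intro hy
      apply hT
      simp only [negY, hW.a3] at hy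
      linear_combination hy
    rw [Point.add_self_of_Y_ne hy]
    have hd : y - W.toAffine.negY x y = 2 * y + W.a₁ * x := by
      simp only [negY, hW.a3]; ring
    refine ⟨Point.some_ne_zero _, ?_, ?_⟩
    · rw [ptX_some]
      simp only [addX, slope_of_Y_ne rfl hy, hd]
      ring
    · rw [ptX_some, ptY_some]
      simp only [addY, negAddY, addX, slope_of_Y_ne rfl hy, hd]
      simp only [negY, hW.a3]
      ring

end Add

theorem IsNodalForm.exists_point_of_eq (hW : IsNodalForm W) {x y : K}
    (h : y ^ 2 + W.a₁ * x * y = x ^ 3 + W.a₂ * x ^ 2 + W.a₄ * x) :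
    ∃ P : W.toAffine.Point, P ≠ 0 ∧ ptX W P = x ∧ ptY W P = y := by
  have heq : W.toAffine.Equation x y := hW.equation_iff.mpr h
  have hns : W.toAffine.Nonsingular x y :=
    (Affine.equation_iff_nonsingular_of_Δ_ne_zero hW.disc).mp heq
  exact ⟨Point.some x y hns, Point.some_ne_zero _, rfl, rfl⟩

section Packaging

variable [DecidableEq K]

/-- The abstract nodal data of `W` in the plain affine coordinates. -/
def nodalData (hW : IsNodalForm W) : NodalData K W.toAffine.Point W.a₁ W.a₂ W.a₄ where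
  X := ptX W
  Y := ptY W
  eqn := fun _ hP => hW.eqn hP
  ext := fun _ _ hP hQ hX hY => pt_ext hP hQ hX hY
  X_neg := fun P _ => ptX_neg P
  Y_neg := fun P _ => hW.ptY_neg P
  add_ne := fun _ _ hP hQ hX => (hW.chord hP hQ hX).1
  add_X := fun _ _ hP hQ hX => (hW.chord hP hQ hX).2.1
  add_Y := fun _ _ hP hQ hX => (hW.chord hP hQ hX).2.2
  two_of_T := fun _ hP hT => (hW.add_self_eq_zero_iff hP).mpr hT
  dbl_ne := fun _ hP hT => (hW.tangent hP hT).1
  dbl_X := fun _ hP hT => (hW.tangent hP hT).2.1
  dbl_Y := fun _ hP hT => (hW.tangent hP hT).2.2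
  exists_point := fun _ _ h => hW.exists_point_of_eq h

@[simp] theorem nodalData_X (hW : IsNodalForm W) : (nodalData hW).X = ptX W := rfl
@[simp] theorem nodalData_Y (hW : IsNodalForm W) : (nodalData hW).Y = ptY W := rfl

end Packaging

section Galois

open WeierstrassCurve.Affine.Point

universe r s v

variable {R : Type r} {S : Type s} {F : Type v} [CommRing R] [CommRing S] [Field F]
  [DecidableEq F] {W' : Affine R} [Algebra R S] [Algebra R F] [Algebra S F]
  [IsScalarTower R S F]

theorem smul_zero_point (σ : F ≃ₐ[S] F) : σ • (0 : (W'⁄F).Point) = 0 := rfl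

theorem smul_ne_zero_point (σ : F ≃ₐ[S] F) {P : (W'⁄F).Point} (hP : P ≠ 0) : σ • P ≠ 0 := by
  cases P with
  | zero => exact absurd rfl hP
  | some x y h => exact Point.some_ne_zero _

/-- The `x`-coordinate is Galois-equivariant. -/
theorem ptX_smul (σ : F ≃ₐ[S] F) (P : (W'⁄F).Point) :
    ptX (W'⁄F) (σ • P) = σ (ptX (W'⁄F) P) := by
  cases P with
  | zero =>
    show (0 : F) = σ 0
    rw [_root_.map_zero]
  | some x y h => rfl

/-- The `y`-coordinate is Galois-equivariant. -/
theorem ptY_smul (σ : F ≃ₐ[S] F) (P : (W'⁄F).Point) :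
    ptY (W'⁄F) (σ • P) = σ (ptY (W'⁄F) P) := by
  cases P with
  | zero =>
    show (0 : F) = σ 0
    rw [_root_.map_zero]
  | some x y h => rfl

end Galois

end Fermat.Agent.S13.Local.NodalInst
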