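import Fermat.Agent.S13.Local.NodalInst

/-!
# PROJECT G (S13): Galois-fixed points have rational coordinates

For a Weierstrass curve `W'` over `ℚ` and a point `P` of `W'` over `ℚ̄ = AlgebraicClosure ℚ` fixed by
every `σ ∈ Gal(ℚ̄/ℚ)`, the coordinates of `P` (and of all its multiples) are rational.  The same for
elements of the torsion modules `Submodule.torsionBy ℤ (W'⁄ℚ̄).Point n` with the prelude's action.
-/

set_option autoImplicit false

namespace Fermat.Agent.S13.Local.RationalCoords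

open WeierstrassCurve WeierstrassCurve.Affine WeierstrassCurve.Affine.Point
open Fermat.Agent.S13.Local.NodalInst

local notation "Qbar" => AlgebraicClosure ℚ
local notation "GQ" => (AlgebraicClosure ℚ ≃ₐ[ℚ] AlgebraicClosure ℚ)

/-- An element of `ℚ̄` fixed by the whole Galois group is rational. -/
theorem exists_rat_of_fixed {x : Qbar} (h : ∀ σ : GQ, σ x = x) :
    ∃ r : ℚ, algebraMap ℚ Qbar r = x := by
  have h1 : Algebra.IsAlgebraic ℚ Qbar := AlgebraicClosure.isAlgebraic ℚ
  have h2 : IsAlgClosure ℚ Qbar := ⟨inferInstance, h1⟩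
  have h3 : IsGalois ℚ Qbar :=
    { to_isSeparable := inferInstance
      to_normal := IsAlgClosure.normal ℚ Qbar }
  exact (InfiniteGalois.mem_range_algebraMap_iff_fixed x).mpr h

variable {W' : Affine ℚ}

/-- A Galois-fixed point has a rational `x`-coordinate. -/
theorem exists_rat_ptX {P : (W'⁄Qbar).Point} (h : ∀ σ : GQ, σ • P = P) :
    ∃ r : ℚ, algebraMap ℚ Qbar r = ptX (W'⁄Qbar) P :=
  exists_rat_of_fixed fun σ => by rw [← ptX_smul, h σ]

/-- A Galois-fixed point has a rational `y`-coordinate. -/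
theorem exists_rat_ptY {P : (W'⁄Qbar).Point} (h : ∀ σ : GQ, σ • P = P) :
    ∃ r : ℚ, algebraMap ℚ Qbar r = ptY (W'⁄Qbar) P :=
  exists_rat_of_fixed fun σ => by rw [← ptY_smul, h σ]

/-- Multiples of a Galois-fixed point are Galois-fixed. -/
theorem smul_nsmul_of_fixed {P : (W'⁄Qbar).Point} (h : ∀ σ : GQ, σ • P = P) (j : ℕ) (σ : GQ) :
    σ • (j • P) = j • P := by
  rw [← natCast_zsmul, algEquiv_smul_zsmul, h σ]

/-- All multiples of a Galois-fixed point have rational coordinates. -/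
theorem exists_rat_nsmul {P : (W'⁄Qbar).Point} (h : ∀ σ : GQ, σ • P = P) (j : ℕ) :
    (∃ r : ℚ, algebraMap ℚ Qbar r = ptX (W'⁄Qbar) (j • P)) ∧
      ∃ r : ℚ, algebraMap ℚ Qbar r = ptY (W'⁄Qbar) (j • P) :=
  ⟨exists_rat_ptX (smul_nsmul_of_fixed h j), exists_rat_ptY (smul_nsmul_of_fixed h j)⟩

/-- A Galois-fixed element of the torsion module has a Galois-fixed underlying point. -/
theorem point_fixed_of_tors_fixed {n : ℕ} {x : Submodule.torsionBy ℤ (W'⁄Qbar).Point n}
    (h : ∀ σ : GQ, σ • x = x) (σ : GQ) : σ • (x : (W'⁄Qbar).Point) = x :=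
  congrArg Subtype.val (h σ)

/-- The underlying point of a torsion element is killed by `n`. -/
theorem nsmul_coe_eq_zero {n : ℕ} (x : Submodule.torsionBy ℤ (W'⁄Qbar).Point n) :
    n • (x : (W'⁄Qbar).Point) = 0 := by
  have h := x.property
  rw [Submodule.mem_torsionBy_iff] at h
  rw [← natCast_zsmul]
  exact h

/-- A nonzero torsion element has a nonzero underlying point. -/
theorem coe_ne_zero {n : ℕ} {x : Submodule.torsionBy ℤ (W'⁄Qbar).Point n} (hx : x ≠ 0) :
    (x : (W'⁄Qbar).Point) ≠ 0 := fun h => hx (Subtype.ext h)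

/-- **Rational point from a pointwise fixed line.**  If `N ≠ ⊥` is fixed pointwise by the whole
Galois group, there is a nonzero point `P` with `n • P = 0` all of whose multiples have rational
coordinates. -/
theorem exists_rational_point {n : ℕ}
    {N : Submodule (ZMod n) (Submodule.torsionBy ℤ (W'⁄Qbar).Point n)} (hbot : N ≠ ⊥)
    (hfix : ∀ σ : GQ, ∀ x ∈ N, σ • x = x) :
    ∃ P : (W'⁄Qbar).Point, P ≠ 0 ∧ n • P = 0 ∧ (∀ σ : GQ, σ • P = P) ∧
      ∀ j : ℕ, (∃ r : ℚ, algebraMap ℚ Qbar r = ptX (W'⁄Qbar) (j • P)) ∧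
        ∃ r : ℚ, algebraMap ℚ Qbar r = ptY (W'⁄Qbar) (j • P) := by
  obtain ⟨x, hxN, hx0⟩ := (Submodule.ne_bot_iff N).mp hbot
  have hfx : ∀ σ : GQ, σ • (x : (W'⁄Qbar).Point) = x :=
    point_fixed_of_tors_fixed fun σ => hfix σ x hxN
  exact ⟨x, coe_ne_zero hx0, nsmul_coe_eq_zero x, hfx, fun j => exists_rat_nsmul hfx j⟩

end Fermat.Agent.S13.Local.RationalCoords
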