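import Fermat.Agent.S13.Local.NodalInst
import Fermat.Agent.S13.Global
import Fermat.Agent.S05.FreyLeg
import Fermat.Agent.S05.LocalVal
import Fermat.Agent.S05.LocalFrey

/-!
# PROJECT G (S13), slice G-L6b: Galois plumbing for the nodal data of a curve over `ℚ`

Generic in a Weierstrass curve `W'` over `ℚ` whose base change to `ℚ̄ = AlgebraicClosure ℚ` is in
nodal form (`NodalInst.IsNodalForm`), a valuation subring `A` of `ℚ̄` and elements `s`, `t` of
`Gal(ℚ̄/ℚ)`.

* `(G2)` `inertiaAct`      : an element of the inertia group of `A` gives a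
                             `NodalData.InertiaAct` on `NodalInst.nodalData hW`, with the group part
                             `FreyLeg.pointHom s` (`= s • ·`);
* `(G3)` `hval`            : elements of the inertia group preserve the valuation of `A`;
* `(G4)` glue              : the action on `Global.Tors W' n` is the action on the underlying
                             points; `ℕ`-multiples; transfer of fixed points and of differences.
-/

set_option autoImplicit false

namespace Fermat.Agent.S13.Local.FreyTwoGalois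

open WeierstrassCurve WeierstrassCurve.Affine WeierstrassCurve.Affine.Point
open Fermat.Agent.S13.Local Fermat.Agent.S13.Local.NodalInst Fermat.Agent.S13.Global
open Fermat.Agent.S05.FreyLeg

local notation "Qbar" => AlgebraicClosure ℚ
local notation "GQ" => (AlgebraicClosure ℚ ≃ₐ[ℚ] AlgebraicClosure ℚ)

variable {W' : Affine ℚ}

/-! ### (G2) the inertia action on the nodal data -/

section G2

variable (hW : IsNodalForm (W'⁄Qbar)) {A : ValuationSubring Qbar} {s t : GQ}

/-- The group part of the action: `pointHom s` is `s • ·`. -/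
theorem pointHom_eq_smul (s : GQ) (P : (W'⁄Qbar).Point) : pointHom (W' := W') s P = s • P := rfl

/-- `pointHom` is multiplicative in the Galois element. -/
theorem pointHom_mul (s t : GQ) (P : (W'⁄Qbar).Point) :
    pointHom (W' := W') (s * t) P = pointHom (W' := W') s (pointHom (W' := W') t P) := by
  rw [pointHom_eq_smul, pointHom_eq_smul, pointHom_eq_smul, mul_smul]

/-- `pointHom s` is injective. -/
theorem pointHom_eq_zero {s : GQ} {P : (W'⁄Qbar).Point} (h : pointHom (W' := W') s P = 0) :
    P = 0 := by
  by_contra hne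
  exact NodalInst.smul_ne_zero_point s hne h

/-- **(G2), general form.** An automorphism preserving `A` and trivial on its residue field gives an
`InertiaAct` on the nodal data. -/
theorem inertiaAct_of (A : ValuationSubring Qbar) (s : GQ)
    (hmem : ∀ x, s x ∈ A ↔ x ∈ A) (hsub : ∀ x, x ∈ A → s x - x ∈ A.nonunits) :
    (nodalData hW).InertiaAct A (s : Qbar →+* Qbar) (pointHom (W' := W') s) where
  mem_iff := hmem
  sub_mem := hsub
  inj := fun _ hP => pointHom_eq_zero hP
  X_map := fun P _ => ptX_smul s P
  Y_map := fun P _ => ptY_smul s P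

/-- **(G2).** An element of the inertia group of `A` gives an `InertiaAct` on the nodal data. -/
theorem inertiaAct (hs : s ∈ A.inertiaSubgroupIn ℚ) :
    (nodalData hW).InertiaAct A (s : Qbar →+* Qbar) (pointHom (W' := W') s) :=
  inertiaAct_of hW A s (Fermat.Agent.S05.LocalFrey.inertia_mem_iff hs)
    (Fermat.Agent.S05.LocalFrey.inertia_sub_mem hs)

/-- **(G2), two elements.** Both elements, and their product, act as `InertiaAct`s. -/
theorem inertiaAct_pair (hs : s ∈ A.inertiaSubgroupIn ℚ) (ht : t ∈ A.inertiaSubgroupIn ℚ) :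
    (nodalData hW).InertiaAct A (s : Qbar →+* Qbar) (pointHom (W' := W') s) ∧
      (nodalData hW).InertiaAct A (t : Qbar →+* Qbar) (pointHom (W' := W') t) ∧
      (nodalData hW).InertiaAct A ((s * t : GQ) : Qbar →+* Qbar) (pointHom (W' := W') (s * t)) :=
  ⟨inertiaAct hW hs, inertiaAct hW ht, inertiaAct hW (mul_mem hs ht)⟩

end G2

/-! ### (G3) invariance of the valuation -/

section G3

variable {A : ValuationSubring Qbar} {s : GQ}

/-- **(G3).** Elements of the inertia group preserve the valuation. -/
theorem hval (hs : s ∈ A.inertiaSubgroupIn ℚ) (x : Qbar) :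
    A.valuation (s x) = A.valuation x :=
  Fermat.Agent.S05.LocalVal.valuation_map_eq_of_mem_inertia (K := ℚ) hs x

/-- (G3) in the coercion form used by `NodalData.InertiaAct`. -/
theorem hval' (hs : s ∈ A.inertiaSubgroupIn ℚ) (x : Qbar) :
    A.valuation ((s : Qbar →+* Qbar) x) = A.valuation x :=
  hval hs x

/-- The `x`-coordinate of `s • P` has the valuation of the `x`-coordinate of `P`. -/
theorem valuation_ptX_smul (hs : s ∈ A.inertiaSubgroupIn ℚ) (P : (W'⁄Qbar).Point) :
    A.valuation (ptX (W'⁄Qbar) (s • P)) = A.valuation (ptX (W'⁄Qbar) P) := by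
  rw [ptX_smul, hval hs]

/-- The `y`-coordinate of `s • P` has the valuation of the `y`-coordinate of `P`. -/
theorem valuation_ptY_smul (hs : s ∈ A.inertiaSubgroupIn ℚ) (P : (W'⁄Qbar).Point) :
    A.valuation (ptY (W'⁄Qbar) (s • P)) = A.valuation (ptY (W'⁄Qbar) P) := by
  rw [ptY_smul, hval hs]

end G3

/-! ### (G4) glue between `Global.Tors` and points -/

section G4

variable {n : ℕ}

/-- **(G4).** The action on the torsion module is the action on the underlying points. -/
theorem coe_smul (s : GQ) (x : Tors W' n) :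
    ((s • x : Tors W' n) : (W'⁄Qbar).Point) = pointHom (W' := W') s (x : (W'⁄Qbar).Point) := rfl

/-- (G4) in `•` form. -/
theorem coe_smul' (s : GQ) (x : Tors W' n) :
    ((s • x : Tors W' n) : (W'⁄Qbar).Point) = s • (x : (W'⁄Qbar).Point) := rfl

/-- **(G4).** The underlying point of a torsion element is killed by `n` (as an `ℕ`-multiple). -/
theorem nsmul_coe (x : Tors W' n) : n • (x : (W'⁄Qbar).Point) = 0 := by
  have h := x.property
  rw [Submodule.mem_torsionBy_iff] at h
  rw [← natCast_zsmul]
  exact h

/-- A point killed by `n` is a torsion element. -/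
noncomputable def torsOf (P : (W'⁄Qbar).Point) (h : n • P = 0) : Tors W' n :=
  ⟨P, by
    rw [Submodule.mem_torsionBy_iff, natCast_zsmul]
    exact h⟩

@[simp] theorem coe_torsOf (P : (W'⁄Qbar).Point) (h : n • P = 0) :
    ((torsOf P h : Tors W' n) : (W'⁄Qbar).Point) = P := rfl

/-- A torsion element is zero iff its underlying point is. -/
theorem coe_eq_zero_iff (x : Tors W' n) : (x : (W'⁄Qbar).Point) = 0 ↔ x = 0 :=
  Submodule.coe_eq_zero

theorem coe_ne_zero_of_ne {x : Tors W' n} (hx : x ≠ 0) : (x : (W'⁄Qbar).Point) ≠ 0 :=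
  fun h => hx ((coe_eq_zero_iff x).mp h)

/-- If `s` fixes the underlying point then it fixes the torsion element. -/
theorem smul_eq_of_pointHom_eq (s : GQ) (x : Tors W' n)
    (h : pointHom (W' := W') s (x : (W'⁄Qbar).Point) = x) : s • x = x :=
  Subtype.ext h

/-- `s` fixes the torsion element iff it fixes the underlying point. -/
theorem smul_eq_iff (s : GQ) (x : Tors W' n) :
    s • x = x ↔ pointHom (W' := W') s (x : (W'⁄Qbar).Point) = x :=
  ⟨fun h => congrArg Subtype.val h, smul_eq_of_pointHom_eq s x⟩

/-- The underlying point of `s • x - x`. -/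
theorem coe_smul_sub (s : GQ) (x : Tors W' n) :
    ((s • x - x : Tors W' n) : (W'⁄Qbar).Point) =
      pointHom (W' := W') s (x : (W'⁄Qbar).Point) - x := rfl

/-- The underlying point of `t • (s • x - x)`. -/
theorem coe_smul_smul_sub (s t : GQ) (x : Tors W' n) :
    ((t • (s • x - x) : Tors W' n) : (W'⁄Qbar).Point) =
      pointHom (W' := W') t (pointHom (W' := W') s (x : (W'⁄Qbar).Point) - x) := rfl

/-- The unipotence relation on points gives it on the torsion module. -/
theorem smul_smul_sub_eq_of_point (s t : GQ) (x : Tors W' n)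
    (h : pointHom (W' := W') t (pointHom (W' := W') s (x : (W'⁄Qbar).Point) - x) =
      pointHom (W' := W') s (x : (W'⁄Qbar).Point) - x) :
    t • (s • x - x) = s • x - x :=
  Subtype.ext h

/-- Multiples: the underlying point of `j • x`. -/
theorem coe_nsmul (j : ℕ) (x : Tors W' n) :
    ((j • x : Tors W' n) : (W'⁄Qbar).Point) = j • (x : (W'⁄Qbar).Point) := by
  simp

/-- `pointHom s` commutes with `ℕ`-multiples. -/
theorem pointHom_nsmul (s : GQ) (j : ℕ) (P : (W'⁄Qbar).Point) :
    pointHom (W' := W') s (j • P) = j • pointHom (W' := W') s P :=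
  map_nsmul _ _ _

/-- `pointHom s` preserves `n`-torsion. -/
theorem nsmul_pointHom_eq_zero (s : GQ) {P : (W'⁄Qbar).Point} (h : n • P = 0) :
    n • pointHom (W' := W') s P = 0 := by
  rw [← pointHom_nsmul, h, _root_.map_zero]

/-- `pointHom s P - P` is killed by `n` if `P` is. -/
theorem nsmul_pointHom_sub_eq_zero (s : GQ) {P : (W'⁄Qbar).Point} (h : n • P = 0) :
    n • (pointHom (W' := W') s P - P) = 0 := by
  rw [smul_sub, nsmul_pointHom_eq_zero s h, h, sub_zero]

end G4

/-! ### Adapters to the end shapes of `RGlue.result_of_filtrations` -/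

section Adapters

variable {n : ℕ}

/-- The elements of the torsion module fixed by the whole inertia group of `A`. -/
noncomputable def inertiaFixed (A : ValuationSubring Qbar) (W' : Affine ℚ) (n : ℕ) :
    AddSubgroup (Tors W' n) where
  carrier := {x | ∀ t ∈ A.inertiaSubgroupIn ℚ, t • x = x}
  zero_mem' := fun t _ => smul_zero t
  add_mem' := fun {x y} hx hy t ht => by rw [smul_add, hx t ht, hy t ht]
  neg_mem' := fun {x} hx t ht => by rw [smul_neg, hx t ht]

theorem mem_inertiaFixed {A : ValuationSubring Qbar} {x : Tors W' n} :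
    x ∈ inertiaFixed A W' n ↔ ∀ t ∈ A.inertiaSubgroupIn ℚ, t • x = x := Iff.rfl

/-- **The `h2` shape of `RGlue.result_of_filtrations`** from the two-element unipotence relation on
points killed by `n`: `t (s P - P) = s P - P` for `s`, `t` in the inertia group of `A`. -/
theorem exists_filtration_of_point_unipotent (A : ValuationSubring Qbar)
    (h : ∀ s ∈ A.inertiaSubgroupIn ℚ, ∀ t ∈ A.inertiaSubgroupIn ℚ, ∀ P : (W'⁄Qbar).Point,
      n • P = 0 → pointHom (W' := W') t (pointHom (W' := W') s P - P) =
        pointHom (W' := W') s P - P) :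
    ∃ V₀ : AddSubgroup (Tors W' n),
      (∀ σ ∈ A.inertiaSubgroupIn ℚ, ∀ x, σ • x - x ∈ V₀) ∧
      (∀ σ ∈ A.inertiaSubgroupIn ℚ, ∀ x ∈ V₀, σ • x = x) :=
  ⟨inertiaFixed A W' n,
    fun s hs x t ht => smul_smul_sub_eq_of_point s t x (h s hs t ht _ (nsmul_coe x)),
    fun σ hσ _ hx => hx σ hσ⟩

/-- A point with rational coordinates is fixed by the Galois group. -/
theorem smul_some_rat (σ : GQ) (a b : ℚ)
    (hab : (W'⁄Qbar).Nonsingular (algebraMap ℚ Qbar a) (algebraMap ℚ Qbar b)) :
    σ • (Point.some _ _ hab : (W'⁄Qbar).Point) = Point.some _ _ hab := by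
  rw [algEquiv_smul_def, Point.map_some, Point.some.injEq]
  exact ⟨σ.commutes a, σ.commutes b⟩

/-- The rationality predicate on `ℚ̄`. -/
def IsRat (x : Qbar) : Prop := ∃ r : ℚ, algebraMap ℚ Qbar r = x

theorem isRat_of_fixed {x : Qbar} (h : ∀ σ : GQ, σ x = x) : IsRat x := by
  have h1 : Algebra.IsAlgebraic ℚ Qbar := AlgebraicClosure.isAlgebraic ℚ
  have h2 : IsAlgClosure ℚ Qbar := ⟨inferInstance, h1⟩
  have h3 : IsGalois ℚ Qbar :=
    { to_isSeparable := inferInstance
      to_normal := IsAlgClosure.normal ℚ Qbar }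
  exact (InfiniteGalois.mem_range_algebraMap_iff_fixed x).mpr h

theorem IsRat.map {x : Qbar} (h : IsRat x) (σ : GQ) : σ x = x := by
  obtain ⟨r, rfl⟩ := h
  exact σ.commutes r

/-- All multiples of a Galois-fixed point have rational coordinates. -/
theorem isRat_nsmul_of_fixed {P : (W'⁄Qbar).Point} (h : ∀ σ : GQ, σ • P = P) (j : ℕ) :
    IsRat (ptX (W'⁄Qbar) (j • P)) ∧ IsRat (ptY (W'⁄Qbar) (j • P)) := by
  have hj : ∀ σ : GQ, σ • (j • P) = j • P := fun σ => by
    rw [← natCast_zsmul, algEquiv_smul_zsmul, h σ]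
  exact ⟨isRat_of_fixed fun σ => by rw [← ptX_smul, hj σ],
    isRat_of_fixed fun σ => by rw [← ptY_smul, hj σ]⟩

/-- **The `hNoRat` shape of `RGlue.result_of_filtrations`** from the non-existence of a non-zero
point killed by `n` all of whose multiples have rational coordinates. -/
theorem hNoRat_of (h : ∀ P : (W'⁄Qbar).Point, P ≠ 0 → n • P = 0 →
      (∀ j : ℕ, IsRat (ptX (W'⁄Qbar) (j • P)) ∧ IsRat (ptY (W'⁄Qbar) (j • P))) → False)
    (a b : ℚ) (hab : (W'⁄Qbar).Nonsingular (algebraMap ℚ Qbar a) (algebraMap ℚ Qbar b)) :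
    (n : ℤ) • (Point.some _ _ hab : (W'⁄Qbar).Point) ≠ 0 := by
  intro h0
  rw [natCast_zsmul] at h0
  exact h _ (Point.some_ne_zero _) h0
    (isRat_nsmul_of_fixed (fun σ => smul_some_rat σ a b hab))

end Adapters

end Fermat.Agent.S13.Local.FreyTwoGalois
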