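import Mathlib
import Fermat.Agent.S13.Local.NodalDefs

/-!
# S13 (project G), slice G-L4: reduction of the nodal model

`D : NodalData K G a₁ a₂ a₄` (the curve `y² + a₁ x y = x³ + a₂ x² + a₄ x`), `v` any valuation
of `K` with `Hyp v a₁ a₂ a₄` (integral model, `v a₄ < 1`, `b₂ = a₁² + 4 a₂` a unit); no
hypothesis on the residue characteristic.  Port of `S05/Core.nonsing`, `S05/Inertia` and
`S05/Core.sub_mem_K1` to this setting.

* `val_Y_le_one`, `val_Y_sq_le`: integrality of `Y`.
* `nonsing`: if `X P` is a unit, one of the partial derivatives `T P`, `M P` is a unit.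
* `Gen.lam_mul_add`: the second expression of the slope, uniform in chord and tangent case.
* `add_mem_K1` / `sub_mem_K1`: points with equal non-singular reduction differ by an element of
  the kernel of reduction `K1`.
* `e0_add`, `e0_sub`, `e0_nsmul`, `e0_zsmul`, `E0sub`, `e0_of_nsmul`: the points with non-singular
  reduction form a subgroup.
* `inertia_sub_mem_K1`, `inertia_sub_mem_E0`, `inertia_fix`: an inertia element acts trivially
  on `E0 / K1`; `eq_of_reduction_eq`: injectivity of reduction on `p`-torsion.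
-/

set_option autoImplicit false
set_option linter.unusedSectionVars false
set_option linter.unusedVariables false

namespace Fermat.Agent.S13.Local.NodalRed

open Fermat.Agent.S13.Local Fermat.Agent.S13.Local.NodalData

variable {K : Type*} [Field K] {G : Type*} [AddCommGroup G] {a₁ a₂ a₄ : K}
  (D : NodalData K G a₁ a₂ a₄)
  {Γ₀ : Type*} [LinearOrderedCommGroupWithZero Γ₀] (v : Valuation K Γ₀)

/-! ### Valuation helpers -/

section helpers

variable {v}

theorem val_add_lt_one {a b : K} (ha : v a < 1) (hb : v b < 1) : v (a + b) < 1 :=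
  lt_of_le_of_lt (v.map_add a b) (max_lt ha hb)

theorem val_sub_lt_one {a b : K} (ha : v a < 1) (hb : v b < 1) : v (a - b) < 1 :=
  lt_of_le_of_lt (v.map_sub a b) (max_lt ha hb)

theorem val_add_le_one {a b : K} (ha : v a ≤ 1) (hb : v b ≤ 1) : v (a + b) ≤ 1 :=
  v.map_add_le ha hb

theorem val_sub_le_one {a b : K} (ha : v a ≤ 1) (hb : v b ≤ 1) : v (a - b) ≤ 1 :=
  v.map_sub_le ha hb

theorem val_mul_le_one {a b : K} (ha : v a ≤ 1) (hb : v b ≤ 1) : v (a * b) ≤ 1 := by
  rw [map_mul]; exact mul_le_one' ha hb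

theorem val_mul_lt_one_left {a b : K} (ha : v a < 1) (hb : v b ≤ 1) : v (a * b) < 1 := by
  rw [map_mul]
  calc v a * v b ≤ v a * 1 := mul_le_mul' le_rfl hb
    _ = v a := mul_one _
    _ < 1 := ha

theorem val_mul_lt_one_right {a b : K} (ha : v a ≤ 1) (hb : v b < 1) : v (a * b) < 1 := by
  rw [mul_comm]; exact val_mul_lt_one_left hb ha

theorem val_pow_le_one {a : K} (ha : v a ≤ 1) (n : ℕ) : v (a ^ n) ≤ 1 := by
  rw [map_pow]; exact pow_le_one' ha n

theorem val_add_eq_one_left {a b : K} (ha : v a = 1) (hb : v b < 1) : v (a + b) = 1 := by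
  rw [Valuation.map_add_eq_of_lt_left _ (by rw [ha]; exact hb), ha]

theorem val_natCast_le_one (n : ℕ) : v (n : K) ≤ 1 := by
  induction n with
  | zero => simp
  | succ n ih => rw [Nat.cast_succ]; exact val_add_le_one ih (le_of_eq v.map_one)

theorem val_ofNat_le_one (n : ℕ) [n.AtLeastTwo] : v (OfNat.ofNat n : K) ≤ 1 := by
  have := val_natCast_le_one (v := v) (OfNat.ofNat n)
  rwa [Nat.cast_ofNat] at this

end helpers

/-! ### Algebraic identities -/

/-- `T² = 4 X³ + b₂ X² + 4 a₄ X`. -/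
theorem T_sq {P : G} (hP : P ≠ 0) :
    D.T P ^ 2 = 4 * D.X P ^ 3 + (a₁ ^ 2 + 4 * a₂) * D.X P ^ 2 + 4 * a₄ * D.X P := by
  have h := D.eqn P hP
  unfold T
  linear_combination 4 * h

/-- `2 M + a₁ T = 6 X² + b₂ X + 2 a₄`. -/
theorem two_M_add (P : G) :
    2 * D.M P + a₁ * D.T P = 6 * D.X P ^ 2 + (a₁ ^ 2 + 4 * a₂) * D.X P + 2 * a₄ := by
  unfold M T; ring

variable {D}

/-- The second expression of the slope, uniform in the chord and the tangent case:
`lam * (Y P + Y Q + a₁ X P) = X P² + X P X Q + X Q² + a₂ (X P + X Q) + a₄ - a₁ Y Q`. -/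
theorem Gen.lam_mul_add {P Q : G} (h : D.Gen P Q) :
    D.lam P Q * (D.Y P + D.Y Q + a₁ * D.X P) =
      D.X P ^ 2 + D.X P * D.X Q + D.X Q ^ 2 + a₂ * (D.X P + D.X Q) + a₄ - a₁ * D.Y Q := by
  have e1 := D.eqn P h.left_ne
  have e2 := D.eqn Q h.right_ne
  have hl := h.lam_mul_sub
  obtain ⟨hP, hQ, hne | ⟨rfl, hT⟩⟩ := h
  · have hd : D.X Q - D.X P ≠ 0 := sub_ne_zero.mpr (Ne.symm hne)
    apply mul_left_cancel₀ hd
    linear_combination (D.Y P + D.Y Q + a₁ * D.X P) * hl + e2 - e1
  · have hl2 := lam_self_mul hT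
    unfold M T at hl2
    linear_combination hl2


variable (D)

/-! ### Integrality of `Y` -/

/-- For a point with `1 ≤ v (X P)` (or any point, in fact): `v (Y P)² ≤ max 1 (v (X P))³`;
here in the form needed: if `v (X P) ≤ c` with `1 ≤ c`, then `v (Y P) ^ 2 ≤ c ^ 3`. -/
theorem val_Y_sq_le (H : Hyp v a₁ a₂ a₄) {P : G} (hP : P ≠ 0) {c : Γ₀} (hc : 1 ≤ c)
    (hX : v (D.X P) ≤ c) : v (D.Y P) ^ 2 ≤ c ^ 3 := by
  by_contra hY
  rw [not_le] at hY
  have hc0 : 0 < c := lt_of_lt_of_le zero_lt_one hc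
  have hcc : c ^ 2 ≤ c ^ 3 := pow_le_pow_right₀ hc (by norm_num)
  -- `c < v Y`
  have hcY : c < v (D.Y P) := by
    by_contra hle
    rw [not_lt] at hle
    have : v (D.Y P) ^ 2 ≤ c ^ 2 := pow_le_pow_left₀ zero_le hle 2
    exact absurd (lt_of_lt_of_le hY (le_trans this hcc)) (lt_irrefl _)
  have hY0 : 0 < v (D.Y P) := lt_trans hc0 hcY
  have h := D.eqn P hP
  -- `v (a₁ X Y) < v (Y²)`
  have h1 : v (a₁ * D.X P * D.Y P) < v (D.Y P ^ 2) := by
    rw [map_mul, map_mul, map_pow, sq]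
    have h2 : v a₁ * v (D.X P) ≤ c := by
      calc v a₁ * v (D.X P) ≤ 1 * c := mul_le_mul' H.a1 hX
        _ = c := one_mul _
    calc v a₁ * v (D.X P) * v (D.Y P) ≤ c * v (D.Y P) := mul_le_mul' h2 le_rfl
      _ < v (D.Y P) * v (D.Y P) := mul_lt_mul_of_pos_right hcY hY0
  have h3 : v (D.Y P ^ 2 + a₁ * D.X P * D.Y P) = v (D.Y P) ^ 2 := by
    rw [Valuation.map_add_eq_of_lt_left _ h1, map_pow]
  -- the right-hand side has valuation `≤ c³`
  have h4 : v (D.X P ^ 3 + a₂ * D.X P ^ 2 + a₄ * D.X P) ≤ c ^ 3 := by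
    refine le_trans (v.map_add _ _) (max_le (le_trans (v.map_add _ _) (max_le ?_ ?_)) ?_)
    · rw [map_pow]; exact pow_le_pow_left₀ zero_le hX 3
    · rw [map_mul, map_pow]
      calc v a₂ * v (D.X P) ^ 2 ≤ 1 * c ^ 2 := mul_le_mul' H.a2 (pow_le_pow_left₀ zero_le hX 2)
        _ = c ^ 2 := one_mul _
        _ ≤ c ^ 3 := hcc
    · rw [map_mul]
      calc v a₄ * v (D.X P) ≤ 1 * c := mul_le_mul' (le_of_lt H.a4) hX
        _ = c := one_mul _
        _ = c ^ 1 := (pow_one c).symm
        _ ≤ c ^ 3 := pow_le_pow_right₀ hc (by norm_num)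
  rw [h, ] at h3
  rw [h3] at h4
  exact absurd (lt_of_lt_of_le hY h4) (lt_irrefl _)

/-- The `Y`-coordinate of a point with integral `X`-coordinate is integral. -/
theorem val_Y_le_one (H : Hyp v a₁ a₂ a₄) {P : G} (hP : P ≠ 0) (hX : v (D.X P) ≤ 1) :
    v (D.Y P) ≤ 1 := by
  have h := val_Y_sq_le D v H hP le_rfl hX
  rw [one_pow] at h
  exact (pow_le_one_iff two_ne_zero).mp h

theorem val_T_le_one (H : Hyp v a₁ a₂ a₄) {P : G} (hP : P ≠ 0) (hX : v (D.X P) ≤ 1) :
    v (D.T P) ≤ 1 := by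
  unfold T
  exact val_add_le_one (val_mul_le_one (val_ofNat_le_one 2) (val_Y_le_one D v H hP hX))
    (val_mul_le_one H.a1 hX)

/-! ### Non-singular reduction -/

/-- A point whose `X`-coordinate is a unit has non-singular reduction: one of the two partial
derivatives `T = 2 Y + a₁ X`, `M = 3 X² + 2 a₂ X + a₄ - a₁ Y` is a unit. -/
theorem nonsing (H : Hyp v a₁ a₂ a₄) {P : G} (hP : P ≠ 0) (hX : v (D.X P) = 1) :
    v (D.T P) = 1 ∨ v (D.M P) = 1 := by
  have hXle : v (D.X P) ≤ 1 := le_of_eq hX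
  have hY : v (D.Y P) ≤ 1 := val_Y_le_one D v H hP hXle
  have hTle : v (D.T P) ≤ 1 := val_T_le_one D v H hP hXle
  have h2 : v (2 : K) ≤ 1 := val_ofNat_le_one 2
  have h3 : v (3 : K) ≤ 1 := val_ofNat_le_one 3
  have h4 : v (4 : K) ≤ 1 := val_ofNat_le_one 4
  have hMle : v (D.M P) ≤ 1 := by
    unfold M
    refine val_sub_le_one (val_add_le_one (val_add_le_one ?_ ?_) (le_of_lt H.a4))
      (val_mul_le_one H.a1 hY)
    · exact val_mul_le_one h3 (val_pow_le_one hXle 2)
    · exact val_mul_le_one (val_mul_le_one h2 H.a2) hXle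
  by_contra hcon
  rw [not_or] at hcon
  have hT : v (D.T P) < 1 := lt_of_le_of_ne hTle hcon.1
  have hM : v (D.M P) < 1 := lt_of_le_of_ne hMle hcon.2
  have hTsq := T_sq D hP
  have hMT := two_M_add D P
  -- `v 2 < 1`
  have hX2 : v (D.X P ^ 2 - a₄) = 1 := by
    rw [sub_eq_add_neg]
    apply val_add_eq_one_left
    · rw [map_pow, hX, one_pow]
    · rw [Valuation.map_neg]; exact H.a4
  have e1 : 2 * (D.X P * (D.X P ^ 2 - a₄)) = D.X P * (2 * D.M P + a₁ * D.T P) - D.T P ^ 2 := by
    rw [hMT, hTsq]; ring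
  have h2lt : v (2 : K) < 1 := by
    have h5 : v (2 * (D.X P * (D.X P ^ 2 - a₄))) < 1 := by
      rw [e1]
      apply val_sub_lt_one
      · apply val_mul_lt_one_right hXle
        exact val_add_lt_one (val_mul_lt_one_right h2 hM) (val_mul_lt_one_right H.a1 hT)
      · rw [sq]; exact val_mul_lt_one_left hT hTle
    rwa [map_mul, map_mul, hX, hX2, mul_one, mul_one] at h5
  have h4lt : v (4 : K) < 1 := by
    have : (4 : K) = 2 * 2 := by norm_num
    rw [this]; exact val_mul_lt_one_left h2lt h2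
  -- `b₂ X² = T² - 4 X³ - 4 a₄ X` is a non-unit
  have e2 : (a₁ ^ 2 + 4 * a₂) * D.X P ^ 2 = D.T P ^ 2 - 4 * D.X P ^ 3 - 4 * a₄ * D.X P := by
    rw [hTsq]; ring
  have h6 : v ((a₁ ^ 2 + 4 * a₂) * D.X P ^ 2) < 1 := by
    rw [e2]
    apply val_sub_lt_one (val_sub_lt_one ?_ ?_) ?_
    · rw [sq]; exact val_mul_lt_one_left hT hTle
    · exact val_mul_lt_one_left h4lt (val_pow_le_one hXle 3)
    · exact val_mul_lt_one_left (val_mul_lt_one_left h4lt (le_of_lt H.a4)) hXle
  rw [map_mul, map_pow, H.b2, hX, one_pow, one_mul] at h6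
  exact lt_irrefl _ h6


/-! ### Opposite reductions add up to the kernel of reduction -/

/-- If `P` has non-singular reduction and `S ≡ -P` modulo the maximal ideal
(`X S ≡ X P`, `Y S ≡ -Y P - a₁ X P`), then the slope of the line through `P` and `S` is not
integral. -/
theorem one_lt_val_lam (H : Hyp v a₁ a₂ a₄) {P S : G} (hgen : D.Gen P S)
    (hX : v (D.X P) = 1) (hx : v (D.X S - D.X P) < 1)
    (hy : v (D.Y P + D.Y S + a₁ * D.X P) < 1) : 1 < v (D.lam P S) := by
  have hP := hgen.left_ne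
  have hS := hgen.right_ne
  have hXle : v (D.X P) ≤ 1 := le_of_eq hX
  have hXS : v (D.X S) ≤ 1 := by
    have : D.X S = (D.X S - D.X P) + D.X P := by ring
    rw [this]; exact val_add_le_one (le_of_lt hx) hXle
  have hYP : v (D.Y P) ≤ 1 := val_Y_le_one D v H hP hXle
  have hYS : v (D.Y S) ≤ 1 := val_Y_le_one D v H hS hXS
  have hTle : v (D.T P) ≤ 1 := val_T_le_one D v H hP hXle
  have h2 : v (2 : K) ≤ 1 := val_ofNat_le_one 2
  have hl1 := hgen.lam_mul_sub
  have hl2 := Gen.lam_mul_add hgen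
  by_contra hlam
  rw [not_lt] at hlam
  rcases nonsing D v H hP hX with hT | hM
  · -- `T P` is a unit: `Y S - Y P = d₂ - T P` is a unit
    have e : D.Y S - D.Y P = -(D.T P) + (D.Y P + D.Y S + a₁ * D.X P) := by unfold T; ring
    have h1 : v (D.Y S - D.Y P) = 1 := by
      rw [e]; exact val_add_eq_one_left (by rw [Valuation.map_neg]; exact hT) hy
    have h3 : v (D.lam P S * (D.X S - D.X P)) < 1 := val_mul_lt_one_right hlam hx
    rw [hl1, h1] at h3
    exact lt_irrefl _ h3
  · -- `T P` is a non-unit and `M P` is a unit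
    by_cases hT : v (D.T P) = 1
    · have e : D.Y S - D.Y P = -(D.T P) + (D.Y P + D.Y S + a₁ * D.X P) := by unfold T; ring
      have h1 : v (D.Y S - D.Y P) = 1 := by
        rw [e]; exact val_add_eq_one_left (by rw [Valuation.map_neg]; exact hT) hy
      have h3 : v (D.lam P S * (D.X S - D.X P)) < 1 := val_mul_lt_one_right hlam hx
      rw [hl1, h1] at h3
      exact lt_irrefl _ h3
    have hTlt : v (D.T P) < 1 := lt_of_le_of_ne hTle hT
    have e : D.X P ^ 2 + D.X P * D.X S + D.X S ^ 2 + a₂ * (D.X P + D.X S) + a₄ - a₁ * D.Y S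
        = D.M P + (a₁ * D.T P + (D.X S - D.X P) * (D.X S + 2 * D.X P + a₂)
          - a₁ * (D.Y P + D.Y S + a₁ * D.X P)) := by
      unfold M T; ring
    have h1 : v (D.X P ^ 2 + D.X P * D.X S + D.X S ^ 2 + a₂ * (D.X P + D.X S) + a₄
        - a₁ * D.Y S) = 1 := by
      rw [e]
      apply val_add_eq_one_left hM
      apply val_sub_lt_one (val_add_lt_one ?_ ?_) ?_
      · exact val_mul_lt_one_right H.a1 hTlt
      · apply val_mul_lt_one_left hx
        exact val_add_le_one (val_add_le_one hXS (val_mul_le_one h2 hXle)) H.a2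
      · exact val_mul_lt_one_right H.a1 hy
    have h3 : v (D.lam P S * (D.Y P + D.Y S + a₁ * D.X P)) < 1 := val_mul_lt_one_right hlam hy
    rw [hl2, h1] at h3
    exact lt_irrefl _ h3

/-- If the slope is not integral and `X P`, `X Q` are, then `P + Q` lies in the kernel of
reduction. -/
theorem one_lt_val_X_add (H : Hyp v a₁ a₂ a₄) {P Q : G} (hgen : D.Gen P Q)
    (hXP : v (D.X P) ≤ 1) (hXQ : v (D.X Q) ≤ 1) (hlam : 1 < v (D.lam P Q)) :
    1 < v (D.X (P + Q)) := by
  rw [hgen.X_add]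
  set L := D.lam P Q with hL
  have hL0 : 0 < v L := lt_trans zero_lt_one hlam
  have h1 : 1 < v (L ^ 2) := by rw [map_pow]; exact one_lt_pow₀ hlam two_ne_zero
  have h2 : v (a₁ * L) < v (L ^ 2) := by
    rw [map_mul, map_pow, sq]
    calc v a₁ * v L ≤ 1 * v L := mul_le_mul' H.a1 le_rfl
      _ < v L * v L := mul_lt_mul_of_pos_right hlam hL0
  have e : L ^ 2 + a₁ * L - a₂ - D.X P - D.X Q = L ^ 2 + (a₁ * L + (-a₂ - D.X P - D.X Q)) := by
    ring
  rw [e, Valuation.map_add_eq_of_lt_left]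
  · exact h1
  · refine lt_of_le_of_lt (v.map_add _ _) (max_lt h2 (lt_of_le_of_lt ?_ h1))
    refine val_sub_le_one (val_sub_le_one ?_ hXP) hXQ
    rw [Valuation.map_neg]; exact H.a2

/-- **Opposite reductions.**  If `P` has non-singular reduction (`X P` a unit) and `S ≡ -P`
modulo the maximal ideal, then `P + S` lies in the kernel of reduction. -/
theorem add_mem_K1 (H : Hyp v a₁ a₂ a₄) {P S : G} (hP : P ≠ 0) (hS : S ≠ 0)
    (hX : v (D.X P) = 1) (hx : v (D.X S - D.X P) < 1)
    (hy : v (D.Y P + D.Y S + a₁ * D.X P) < 1) : D.K1 v (P + S) := by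
  rcases D.gen_or_add_eq_zero hP hS with hgen | h0
  · right
    have hXS : v (D.X S) ≤ 1 := by
      have : D.X S = (D.X S - D.X P) + D.X P := by ring
      rw [this]; exact val_add_le_one (le_of_lt hx) (le_of_eq hX)
    exact one_lt_val_X_add D v H hgen (le_of_eq hX) hXS (one_lt_val_lam D v H hgen hX hx hy)
  · exact Or.inl h0

/-- **Equal reductions.**  If `P` has non-singular reduction (`X P` a unit) and `Q ≡ P`
modulo the maximal ideal (in both coordinates), then `P - Q` lies in the kernel of reduction. -/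
theorem sub_mem_K1 (H : Hyp v a₁ a₂ a₄) {P Q : G} (hP : P ≠ 0) (hQ : Q ≠ 0)
    (hX : v (D.X P) = 1) (hx : v (D.X P - D.X Q) < 1) (hy : v (D.Y P - D.Y Q) < 1) :
    D.K1 v (P - Q) := by
  rw [sub_eq_add_neg]
  apply add_mem_K1 D v H hP (neg_ne_zero.mpr hQ) hX
  · rw [D.X_neg Q hQ, Valuation.map_sub_swap]; exact hx
  · rw [D.Y_neg Q hQ]
    have e : D.Y P + (-D.Y Q - a₁ * D.X Q) + a₁ * D.X P
        = (D.Y P - D.Y Q) + a₁ * (D.X P - D.X Q) := by ring
    rw [e]
    exact val_add_lt_one hy (val_mul_lt_one_right H.a1 hx)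


/-! ### `E0` is a subgroup -/

theorem sq_le_of_add {B : Γ₀} {x y : K} (hx : v x ^ 2 ≤ B) (hy : v y ^ 2 ≤ B) :
    v (x + y) ^ 2 ≤ B := by
  rcases le_max_iff.mp (v.map_add x y) with h | h
  · exact le_trans (pow_le_pow_left₀ zero_le h 2) hx
  · exact le_trans (pow_le_pow_left₀ zero_le h 2) hy

/-- The points with non-singular reduction are closed under addition. -/
theorem e0_add (H : Hyp v a₁ a₂ a₄) {P Q : G} (hP : D.E0 v P) (hQ : D.E0 v Q) :
    D.E0 v (P + Q) := by
  by_cases hP0 : P = 0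
  · subst hP0; rw [zero_add]; exact hQ
  by_cases hQ0 : Q = 0
  · subst hQ0; rw [add_zero]; exact hP
  replace hP : 1 ≤ v (D.X P) := hP.resolve_left hP0
  replace hQ : 1 ≤ v (D.X Q) := hQ.resolve_left hQ0
  rcases D.gen_or_add_eq_zero hP0 hQ0 with hgen | h0
  swap
  · exact Or.inl h0
  right
  by_contra hc
  rw [not_le] at hc
  set a := v (D.X P) with ha
  set b := v (D.X Q) with hb
  set c := v (D.X (P + Q)) with hcdef
  set n := v (D.nu P Q) with hn
  set m := v (D.Y P * D.X Q + D.Y Q * D.X P + a₁ * (D.X P * D.X Q)) with hm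
  have ha0 : 0 < a := lt_of_lt_of_le zero_lt_one hP
  have hb0 : 0 < b := lt_of_lt_of_le zero_lt_one hQ
  have hab0 : 0 < a * b := mul_pos ha0 hb0
  have hab1 : 1 ≤ a * b := one_le_mul_of_one_le_of_one_le hP hQ
  -- (1) `c a b = n²`
  have h1 : c * a * b = n ^ 2 := by
    have := congrArg v hgen.Phi1
    rwa [map_mul, map_mul, map_pow] at this
  -- (2) `n m = (a b)²`
  have h2 : n * m = (a * b) * (a * b) := by
    have := congrArg v hgen.Phi2
    rw [map_mul, map_mul, Valuation.map_neg] at this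
    rw [this]
    have h3 : v (D.X P * D.X Q - a₄) = a * b := by
      rw [sub_eq_add_neg, Valuation.map_add_eq_of_lt_left, map_mul]
      rw [Valuation.map_neg, map_mul]
      exact lt_of_lt_of_le H.a4 hab1
    rw [h3, map_mul]
  have hm0 : 0 < m := by
    rcases eq_or_lt_of_le (zero_le (a := m)) with h | h
    · rw [← h, mul_zero] at h2
      exact absurd h2.symm (ne_of_gt (mul_pos hab0 hab0))
    · exact h
  -- (3) `m² ≤ (a b)² max a b`
  set B := (a * b) ^ 2 * max a b with hB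
  have hmax1 : 1 ≤ max a b := le_trans hP (le_max_left _ _)
  have hYP : v (D.Y P) ^ 2 ≤ a ^ 3 := val_Y_sq_le D v H hP0 hP le_rfl
  have hYQ : v (D.Y Q) ^ 2 ≤ b ^ 3 := val_Y_sq_le D v H hQ0 hQ le_rfl
  have h3 : m ^ 2 ≤ B := by
    apply sq_le_of_add v (sq_le_of_add v ?_ ?_) ?_
    · rw [map_mul, mul_pow]
      calc v (D.Y P) ^ 2 * b ^ 2 ≤ a ^ 3 * b ^ 2 := mul_le_mul' hYP le_rfl
        _ = (a * b) ^ 2 * a := by simp only [pow_succ, pow_zero, one_mul]; ac_rfl
        _ ≤ B := mul_le_mul' le_rfl (le_max_left _ _)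
    · rw [map_mul, mul_pow]
      calc v (D.Y Q) ^ 2 * a ^ 2 ≤ b ^ 3 * a ^ 2 := mul_le_mul' hYQ le_rfl
        _ = (a * b) ^ 2 * b := by simp only [pow_succ, pow_zero, one_mul]; ac_rfl
        _ ≤ B := mul_le_mul' le_rfl (le_max_right _ _)
    · rw [map_mul, map_mul, mul_pow]
      calc v a₁ ^ 2 * (a * b) ^ 2 ≤ 1 * (a * b) ^ 2 :=
            mul_le_mul' (pow_le_one' H.a1 2) le_rfl
        _ = (a * b) ^ 2 * 1 := by rw [one_mul, mul_one]
        _ ≤ B := mul_le_mul' le_rfl hmax1
  -- combine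
  have h4 : (a * b) * (c * m ^ 2) = (a * b) * (a * b) ^ 3 := by
    calc (a * b) * (c * m ^ 2) = (c * a * b) * m ^ 2 := by simp only [pow_succ, pow_zero, one_mul]; ac_rfl
      _ = n ^ 2 * m ^ 2 := by rw [h1]
      _ = (n * m) ^ 2 := by simp only [pow_succ, pow_zero, one_mul]; ac_rfl
      _ = (a * b) * (a * b) ^ 3 := by
          rw [h2]; simp only [pow_succ, pow_zero, one_mul]; ac_rfl
  have h5 : c * m ^ 2 = (a * b) ^ 3 := mul_left_cancel₀ (ne_of_gt hab0) h4
  have hm2 : 0 < m ^ 2 := pow_pos hm0 2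
  have h6 : (a * b) ^ 3 < B := by
    calc (a * b) ^ 3 = c * m ^ 2 := h5.symm
      _ < 1 * m ^ 2 := mul_lt_mul_of_pos_right hc hm2
      _ = m ^ 2 := one_mul _
      _ ≤ B := h3
  have h7 : (a * b) ^ 2 * (a * b) < (a * b) ^ 2 * max a b := by
    calc (a * b) ^ 2 * (a * b) = (a * b) ^ 3 := by
          simp only [pow_succ, pow_zero, one_mul]
      _ < B := h6
  have h8 : a * b < max a b := lt_of_mul_lt_mul_left h7 zero_le
  have h9 : max a b ≤ a * b := by
    apply max_le
    · calc a = a * 1 := (mul_one a).symm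
        _ ≤ a * b := mul_le_mul' le_rfl hQ
    · calc b = 1 * b := (one_mul b).symm
        _ ≤ a * b := mul_le_mul' hP le_rfl
  exact absurd (lt_of_lt_of_le h8 h9) (lt_irrefl _)

theorem e0_sub (H : Hyp v a₁ a₂ a₄) {P Q : G} (hP : D.E0 v P) (hQ : D.E0 v Q) :
    D.E0 v (P - Q) := by
  rw [sub_eq_add_neg]; exact e0_add D v H hP (E0.neg D v hQ)

theorem e0_nsmul (H : Hyp v a₁ a₂ a₄) {P : G} (hP : D.E0 v P) (n : ℕ) : D.E0 v (n • P) := by
  induction n with
  | zero => simpa using D.e0_zero v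
  | succ n ih => rw [succ_nsmul]; exact e0_add D v H ih hP

theorem e0_zsmul (H : Hyp v a₁ a₂ a₄) {P : G} (hP : D.E0 v P) (n : ℤ) : D.E0 v (n • P) := by
  rcases n with n | n
  · simpa using e0_nsmul D v H hP n
  · rw [negSucc_zsmul]; exact E0.neg D v (e0_nsmul D v H hP (n + 1))

/-- The subgroup of points with non-singular reduction. -/
def E0sub (H : Hyp v a₁ a₂ a₄) : AddSubgroup G where
  carrier := {P | D.E0 v P}
  zero_mem' := D.e0_zero v
  add_mem' := fun hP hQ => e0_add D v H hP hQ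
  neg_mem' := fun hP => E0.neg D v hP

theorem mem_E0sub (H : Hyp v a₁ a₂ a₄) {P : G} : P ∈ E0sub D v H ↔ D.E0 v P := Iff.rfl

/-- For a point of prime order, if some non-trivial multiple has non-singular reduction then so
does the point itself. -/
theorem e0_of_nsmul (H : Hyp v a₁ a₂ a₄) {p : ℕ} (hp : p.Prime) {P : G} (hpP : p • P = 0)
    {j : ℕ} (hj : ¬ p ∣ j) (hjP : D.E0 v (j • P)) : D.E0 v P := by
  have hcop : Nat.Coprime j p := (Nat.Coprime.symm ((Nat.Prime.coprime_iff_not_dvd hp).mpr hj))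
  -- `j * k ≡ 1 mod p`
  obtain ⟨k, -, hk⟩ := Nat.exists_mul_mod_eq_one_of_coprime hcop hp.one_lt
  have h1 : (j * k) • P = P := by
    have h2 : j * k = p * (j * k / p) + 1 := by
      have := Nat.div_add_mod (j * k) p
      omega
    rw [h2, add_nsmul, mul_nsmul, hpP, smul_zero, zero_add, one_nsmul]
  have h3 : D.E0 v ((j * k) • P) := by
    rw [mul_nsmul]; exact e0_nsmul D v H hjP k
  rwa [h1] at h3


/-! ### Inertia acts trivially on the non-singular part modulo the kernel of reduction -/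

section inertia

variable (A : ValuationSubring K) {σ : K →+* K} {s : G →+ G}

theorem val_map_eq_one (h : D.InertiaAct A σ s) {x : K} (hx : A.valuation x = 1) :
    A.valuation (σ x) = 1 := by
  have hxA : x ∈ A := (A.valuation_le_one_iff x).mp (le_of_eq hx)
  have h1 : A.valuation (σ x - x) < 1 := A.mem_nonunits_iff.mp (h.sub_mem x hxA)
  have e : σ x = x + (σ x - x) := by ring
  rw [e]; exact val_add_eq_one_left hx h1

theorem one_lt_val_map (h : D.InertiaAct A σ s) {x : K} (hx : 1 < A.valuation x) :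
    1 < A.valuation (σ x) := by
  rw [← not_le, A.valuation_le_one_iff] at hx ⊢
  rwa [h.mem_iff]

theorem one_le_val_map (h : D.InertiaAct A σ s) {x : K} (hx : 1 ≤ A.valuation x) :
    1 ≤ A.valuation (σ x) := by
  rcases eq_or_lt_of_le hx with h1 | h1
  · exact le_of_eq (val_map_eq_one D A h h1.symm).symm
  · exact le_of_lt (one_lt_val_map D A h h1)

theorem map_ne_zero (h : D.InertiaAct A σ s) {P : G} (hP : P ≠ 0) : s P ≠ 0 :=
  fun h0 => hP (h.inj P h0)

theorem k1_map (h : D.InertiaAct A σ s) {P : G} (hP : D.K1 A.valuation P) :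
    D.K1 A.valuation (s P) := by
  by_cases hP0 : P = 0
  · left; rw [hP0, map_zero]
  · right; rw [h.X_map P hP0]; exact one_lt_val_map D A h (hP.resolve_left hP0)

theorem e0_map (h : D.InertiaAct A σ s) {P : G} (hP : D.E0 A.valuation P) :
    D.E0 A.valuation (s P) := by
  by_cases hP0 : P = 0
  · left; rw [hP0, map_zero]
  · right; rw [h.X_map P hP0]; exact one_le_val_map D A h (hP.resolve_left hP0)

/-- For a point with unit `X`-coordinate (non-singular reduction, not in the kernel),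
`s P - P` lies in the kernel of reduction. -/
theorem inertia_sub_mem_K1_of_unit (H : Hyp A.valuation a₁ a₂ a₄) (h : D.InertiaAct A σ s)
    {P : G} (hP : P ≠ 0) (hX : A.valuation (D.X P) = 1) : D.K1 A.valuation (s P - P) := by
  have hXA : D.X P ∈ A := (A.valuation_le_one_iff _).mp (le_of_eq hX)
  have hYA : D.Y P ∈ A :=
    (A.valuation_le_one_iff _).mp (val_Y_le_one D A.valuation H hP (le_of_eq hX))
  apply sub_mem_K1 D A.valuation H (map_ne_zero D A h hP) hP
  · rw [h.X_map P hP]; exact val_map_eq_one D A h hX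
  · rw [h.X_map P hP]; exact A.mem_nonunits_iff.mp (h.sub_mem _ hXA)
  · rw [h.Y_map P hP]; exact A.mem_nonunits_iff.mp (h.sub_mem _ hYA)

/-- **(K)**: for every point `P` with non-singular reduction, `s P - P` lies in the kernel of
reduction (`hadd`: the kernel of reduction is closed under addition). -/
theorem inertia_sub_mem_K1 (H : Hyp A.valuation a₁ a₂ a₄) (h : D.InertiaAct A σ s)
    (hadd : ∀ P Q, D.K1 A.valuation P → D.K1 A.valuation Q → D.K1 A.valuation (P + Q))
    {P : G} (hP : D.E0 A.valuation P) : D.K1 A.valuation (s P - P) := by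
  by_cases hP0 : P = 0
  · left; rw [hP0, map_zero, sub_zero]
  have hX : 1 ≤ A.valuation (D.X P) := hP.resolve_left hP0
  rcases eq_or_lt_of_le hX with h1 | h1
  · exact inertia_sub_mem_K1_of_unit D A H h hP0 h1.symm
  · have hK : D.K1 A.valuation P := Or.inr h1
    rw [sub_eq_add_neg]
    exact hadd _ _ (k1_map D A h hK) (K1.neg D A.valuation hK)

/-- For every point `P` with non-singular reduction, `s P - P` has non-singular reduction. -/
theorem inertia_sub_mem_E0 (H : Hyp A.valuation a₁ a₂ a₄) (h : D.InertiaAct A σ s)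
    {P : G} (hP : D.E0 A.valuation P) : D.E0 A.valuation (s P - P) :=
  e0_sub D A.valuation H (e0_map D A h hP) hP

/-- If the kernel of reduction has no `p`-torsion, an inertia element fixes every `p`-torsion
point with non-singular reduction. -/
theorem inertia_fix (H : Hyp A.valuation a₁ a₂ a₄) (h : D.InertiaAct A σ s)
    (hadd : ∀ P Q, D.K1 A.valuation P → D.K1 A.valuation Q → D.K1 A.valuation (P + Q))
    {p : ℕ} (htors : ∀ P, D.K1 A.valuation P → p • P = 0 → P = 0)
    {P : G} (hP : D.E0 A.valuation P) (hpP : p • P = 0) : s P = P := by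
  have hK := inertia_sub_mem_K1 D A H h hadd hP
  have h1 : p • (s P - P) = 0 := by
    rw [smul_sub, ← map_nsmul, hpP, map_zero, sub_zero]
  exact sub_eq_zero.mp (htors _ hK h1)

end inertia

/-- Injectivity of the reduction map on `p`-torsion: two `p`-torsion points with the same
non-singular reduction are equal, if the kernel of reduction has no `p`-torsion. -/
theorem eq_of_reduction_eq (H : Hyp v a₁ a₂ a₄) {p : ℕ}
    (htors : ∀ P, D.K1 v P → p • P = 0 → P = 0) {P Q : G} (hP : P ≠ 0) (hQ : Q ≠ 0)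
    (hX : v (D.X P) = 1) (hx : v (D.X P - D.X Q) < 1) (hy : v (D.Y P - D.Y Q) < 1)
    (hpP : p • P = 0) (hpQ : p • Q = 0) : P = Q := by
  have hK := sub_mem_K1 D v H hP hQ hX hx hy
  have h1 : p • (P - Q) = 0 := by rw [smul_sub, hpP, hpQ, sub_zero]
  exact sub_eq_zero.mp (htors _ hK h1)

end Fermat.Agent.S13.Local.NodalRed
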