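import Mathlib
import Fermat.Agent.S13.Local.NodalDefs
import Fermat.Agent.S05.Phase

/-!
# S13 (project G), slice G-L5: the phase argument and (C) for the nodal model

Setting of `NodalDefs`: `D : NodalData K G a₁ a₂ a₄` (`y² + a₁ x y = x³ + a₂ x² + a₄ x`), `v` a
valuation with `Hyp v a₁ a₂ a₄` (node at `(0,0)`, `b₂` a unit; no hypothesis on `2`).

* `NodeRules D v`: the interface consumed by the phase argument (mirror of
  `Fermat.Agent.S05.Phase.NodeRules` with `e₁` replaced by `a₄`); to be produced from the node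
  rules of `NodalNode` / `NodalOpp`.
* branch calculus: `same_or_opp`, `not_same_and_opp`, `InN.v_two_sg_add`, `InN.v_sg_le`, ...
* `phase`: a point `P` of odd prime order `p` all of whose non-zero multiples reduce to the node
  satisfies `v (X P) ^ p = v a₄ ^ (2 i)` for some `0 < i < p`.
* `sub_mem_E0`: **(C)** for an inertia element `(σ, s)`, `s P - P ∈ E0` for every `P`, from rule
  (b2) and the case `P ∈ E0`.
-/

set_option autoImplicit false
set_option linter.unusedSectionVars false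

namespace Fermat.Agent.S13.Local.NodalPhase

open Fermat.Agent.S13.Local Fermat.Agent.S13.Local.NodalData

variable {K : Type*} [Field K] {G : Type*} [AddCommGroup G] {a₁ a₂ a₄ : K}
  {D : NodalData K G a₁ a₂ a₄}
  {Γ₀ : Type*} [LinearOrderedCommGroupWithZero Γ₀] {v : Valuation K Γ₀}

/-- The node rules consumed by the phase argument (to be produced by `NodalNode`/`NodalOpp`). -/
structure NodeRules (D : NodalData K G a₁ a₂ a₄) (v : Valuation K Γ₀) : Prop where
  same : ∀ P Q, D.InN v P → D.InN v Q → D.InN v (P + Q) → D.Same v P Q →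
    (D.Same v (P + Q) P ∧ v (D.X (P + Q)) = v (D.X P) * v (D.X Q)) ∨
    (D.Opp v (P + Q) P ∧ v (D.X (P + Q)) * (v (D.X P) * v (D.X Q)) = v a₄ ^ 2)
  opp : ∀ P Q, D.InN v P → D.InN v Q → D.InN v (P + Q) → D.Opp v P Q →
    (D.Same v (P + Q) Q ∧ v (D.X (P + Q)) * v (D.X P) = v (D.X Q)) ∨
    (D.Same v (P + Q) P ∧ v (D.X (P + Q)) * v (D.X Q) = v (D.X P))
  dbl_mid : ∀ P, P ≠ 0 → v (D.X P) < 1 → v (D.X P) ≤ v a₄ →
    P + P = 0 ∨ 1 ≤ v (D.X (P + P))

/-! ### Branch calculus -/

theorem InN.X_ne_zero {P : G} (h : D.InN v P) : D.X P ≠ 0 := by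
  intro h0
  have := h.2.1
  rw [h0, map_zero] at this
  exact not_lt_zero this

theorem InN.vX_ne_zero {P : G} (h : D.InN v P) : v (D.X P) ≠ 0 :=
  (Valuation.ne_zero_iff _).mpr (InN.X_ne_zero h)

/-- In the node region, `sg² + a₁ sg - a₂ ≡ 0` modulo the maximal ideal. -/
theorem InN.v_sg_sq_lt {P : G} (h : D.InN v P) : v (D.sg P ^ 2 + a₁ * D.sg P - a₂) < 1 := by
  rw [sg_sq h.1 (InN.X_ne_zero h)]
  have h3 : v (a₄ / D.X P) < 1 := by
    rw [map_div₀, div_lt_one₀ (zero_lt_iff.mpr (InN.vX_ne_zero h))]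
    exact h.2.1
  exact Valuation.map_add_lt _ h.2.2 h3

theorem same_refl (P : G) : D.Same v P P := by
  unfold NodalData.Same
  rw [sub_self, map_zero]
  exact zero_lt_one

theorem Same.symm {P Q : G} (h : D.Same v P Q) : D.Same v Q P := by
  unfold NodalData.Same at *
  rwa [Valuation.map_sub_swap]

theorem Same.trans {P Q R : G} (h1 : D.Same v P Q) (h2 : D.Same v Q R) : D.Same v P R := by
  unfold NodalData.Same at *
  have : D.sg P - D.sg R = (D.sg P - D.sg Q) + (D.sg Q - D.sg R) := by ring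
  rw [this]
  exact Valuation.map_add_lt _ h1 h2

theorem Same.opp {P Q R : G} (h1 : D.Same v P Q) (h2 : D.Opp v Q R) : D.Opp v P R := by
  unfold NodalData.Same NodalData.Opp at *
  have : D.sg P + D.sg R + a₁ = (D.sg P - D.sg Q) + (D.sg Q + D.sg R + a₁) := by ring
  rw [this]
  exact Valuation.map_add_lt _ h1 h2

theorem Opp.same {P Q R : G} (h1 : D.Opp v P Q) (h2 : D.Same v Q R) : D.Opp v P R := by
  unfold NodalData.Same NodalData.Opp at *
  have : D.sg P + D.sg R + a₁ = (D.sg P + D.sg Q + a₁) - (D.sg Q - D.sg R) := by ring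
  rw [this]
  exact Valuation.map_sub_lt _ h1 h2

theorem Opp.symm {P Q : G} (h : D.Opp v P Q) : D.Opp v Q P := by
  unfold NodalData.Opp at *
  have : D.sg Q + D.sg P + a₁ = D.sg P + D.sg Q + a₁ := by ring
  rwa [this]

theorem opp_neg {P : G} (hP : P ≠ 0) (hX : D.X P ≠ 0) : D.Opp v (-P) P := by
  unfold NodalData.Opp
  rw [sg_neg hP hX]
  have : -D.sg P - a₁ + D.sg P + a₁ = 0 := by ring
  rw [this, map_zero]
  exact zero_lt_one

/-- Two points of the node region lie on the same branch or on opposite branches. -/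
theorem same_or_opp {P Q : G} (hP : D.InN v P) (hQ : D.InN v Q) :
    D.Same v P Q ∨ D.Opp v P Q := by
  have h1 := InN.v_sg_sq_lt hP
  have h2 := InN.v_sg_sq_lt hQ
  have h3 : v ((D.sg P - D.sg Q) * (D.sg P + D.sg Q + a₁)) < 1 := by
    have : (D.sg P - D.sg Q) * (D.sg P + D.sg Q + a₁)
        = (D.sg P ^ 2 + a₁ * D.sg P - a₂) - (D.sg Q ^ 2 + a₁ * D.sg Q - a₂) := by ring
    rw [this]
    exact Valuation.map_sub_lt _ h1 h2
  rw [map_mul] at h3
  unfold NodalData.Same NodalData.Opp
  by_contra hcon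
  rw [not_or, not_lt, not_lt] at hcon
  obtain ⟨ha, hb⟩ := hcon
  have : (1 : Γ₀) ≤ v (D.sg P - D.sg Q) * v (D.sg P + D.sg Q + a₁) := by
    calc (1 : Γ₀) = 1 * 1 := (mul_one 1).symm
      _ ≤ _ := mul_le_mul' ha hb
  exact absurd h3 (not_lt.mpr this)

theorem v_natCast_le_one (n : ℕ) : v (n : K) ≤ 1 := by
  induction n with
  | zero => simp
  | succ n ih =>
    rw [Nat.cast_succ]
    exact le_trans (v.map_add _ _) (max_le ih (by rw [map_one]))

/-- In the node region `2 sg + a₁` is a unit. -/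
theorem InN.v_two_sg_add (H : Hyp v a₁ a₂ a₄) {P : G} (hP : D.InN v P) :
    v (2 * D.sg P + a₁) = 1 := by
  have h1 := InN.v_sg_sq_lt hP
  have h4 : v (4 * (D.sg P ^ 2 + a₁ * D.sg P - a₂)) < 1 := by
    rw [map_mul]
    have h5 : v (4 : K) ≤ 1 := by
      have := v_natCast_le_one (v := v) 4
      simpa using this
    calc v (4 : K) * v (D.sg P ^ 2 + a₁ * D.sg P - a₂)
        ≤ 1 * v (D.sg P ^ 2 + a₁ * D.sg P - a₂) := mul_le_mul_left h5 _
      _ = v (D.sg P ^ 2 + a₁ * D.sg P - a₂) := one_mul _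
      _ < 1 := h1
  have h6 : (2 * D.sg P + a₁) ^ 2 =
      (a₁ ^ 2 + 4 * a₂) + 4 * (D.sg P ^ 2 + a₁ * D.sg P - a₂) := by ring
  have h7 : v ((2 * D.sg P + a₁) ^ 2) = 1 := by
    rw [h6, Valuation.map_add_eq_of_lt_left v (by rw [H.b2]; exact h4), H.b2]
  rw [map_pow] at h7
  exact (pow_eq_one_iff_of_nonneg zero_le two_ne_zero).mp h7

/-- A point of the node region is not on the same and on the opposite branch of another one. -/
theorem not_same_and_opp (H : Hyp v a₁ a₂ a₄) {P Q : G} (hP : D.InN v P)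
    (hs : D.Same v P Q) (ho : D.Opp v P Q) : False := by
  unfold NodalData.Same at hs
  unfold NodalData.Opp at ho
  have h1 : v (2 * D.sg P + a₁) < 1 := by
    have : 2 * D.sg P + a₁ = (D.sg P - D.sg Q) + (D.sg P + D.sg Q + a₁) := by ring
    rw [this]
    exact Valuation.map_add_lt _ hs ho
  rw [InN.v_two_sg_add H hP] at h1
  exact lt_irrefl _ h1

/-! ### The phase theorem -/

/-- If all non-zero multiples of a point of odd prime order `p` reduce into the maximal ideal,
then they all lie in the strict node region. -/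
theorem inN_of_all (R : NodeRules D v)
    {p : ℕ} (hp : p.Prime) {P : G} (hP : P ≠ 0) (hpP : p • P = 0) (hp2 : p ≠ 2)
    (hall : ∀ j, 0 < j → j < p → v (D.X (j • P)) < 1)
    {j : ℕ} (hj0 : 0 < j) (hjp : j < p) : D.InN v (j • P) := by
  have : Fact p.Prime := ⟨hp⟩
  have ho : addOrderOf P = p := addOrderOf_eq_prime hpP hP
  have hne := Fermat.Agent.S05.Phase.nsmul_ne_zero_of_lt hp hP hpP hj0 hjp
  have hlt := hall j hj0 hjp
  by_contra hN
  have hle : v (D.X (j • P)) ≤ v a₄ := by
    by_contra hcon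
    rw [not_le] at hcon
    exact hN ⟨hne, hcon, hlt⟩
  have h2j : j • P + j • P = ((2 * j) % p) • P := by
    rw [← ho, mod_addOrderOf_nsmul, two_mul, add_nsmul]
  have hmod0 : 0 < (2 * j) % p := by
    rw [Nat.pos_iff_ne_zero]
    intro h
    have hdvd : p ∣ 2 * j := Nat.dvd_of_mod_eq_zero h
    rcases (Nat.Prime.dvd_mul hp).mp hdvd with h' | h'
    · have := Nat.le_of_dvd (by norm_num) h'
      have h5 := hp.two_le
      omega
    · exact absurd (Nat.le_of_dvd hj0 h') (not_le.mpr hjp)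
  have hmodp : (2 * j) % p < p := Nat.mod_lt _ hp.pos
  rcases R.dbl_mid (j • P) hne hlt hle with h | h
  · rw [h2j] at h
    exact Fermat.Agent.S05.Phase.nsmul_ne_zero_of_lt hp hP hpP hmod0 hmodp h
  · rw [h2j] at h
    exact absurd (hall _ hmod0 hmodp) (not_lt.mpr h)

/-- **The phase theorem (nodal model).** If `P` has odd prime order `p` and all its non-zero
multiples reduce to the node, then `v (X P) ^ p = v a₄ ^ (2 i)` for some `0 < i < p`. -/
theorem phase (H : Hyp v a₁ a₂ a₄) (R : NodeRules D v)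
    {p : ℕ} (hp : p.Prime) (hp2 : p ≠ 2) {P : G} (hP : P ≠ 0) (hpP : p • P = 0)
    (hall : ∀ j, 0 < j → j < p → v (D.X (j • P)) < 1) :
    ∃ i, 0 < i ∧ i < p ∧ v (D.X P) ^ p = v a₄ ^ (2 * i) := by
  have hN : ∀ j, 0 < j → j < p → D.InN v (j • P) :=
    fun j hj0 hjp => inN_of_all R hp hP hpP hp2 hall hj0 hjp
  have hp3 : 3 ≤ p := by
    have := hp.two_le
    omega
  have hNP : D.InN v P := by
    have := hN 1 one_pos (by omega)
    rwa [one_nsmul] at this
  have key := Fermat.Agent.S05.Phase.phase_abstract (v a₄) p hp.two_le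
    (fun j => v (D.X (j • P))) (fun j => D.Same v (j • P) P) ?_ ?_ ?_ ?_ ?_
  · simpa only [one_nsmul] using key
  · show D.Same v (1 • P) P
    rw [one_nsmul]
    exact same_refl P
  · intro j hj hjp hβ
    have hNj := hN j (by omega) (by omega)
    have hNj1 := hN (j + 1) (by omega) hjp
    have hsucc : (j + 1) • P = j • P + P := succ_nsmul P j
    show (D.Same v ((j + 1) • P) P ∧ v (D.X ((j + 1) • P)) = v (D.X (j • P)) * v (D.X (1 • P))) ∨
      (¬ D.Same v ((j + 1) • P) P ∧
        v (D.X ((j + 1) • P)) * (v (D.X (j • P)) * v (D.X (1 • P))) = v a₄ ^ 2)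
    rw [one_nsmul, hsucc]
    rw [hsucc] at hNj1
    rcases R.same (j • P) P hNj hNP hNj1 hβ with ⟨hb, hx⟩ | ⟨hb, hx⟩
    · exact Or.inl ⟨Same.trans hb hβ, hx⟩
    · refine Or.inr ⟨fun hs => ?_, hx⟩
      exact not_same_and_opp H hNj1 hs (Opp.same hb hβ)
  · intro j hj hjp hβ
    have hNj := hN j (by omega) (by omega)
    have hNj1 := hN (j + 1) (by omega) hjp
    have hsucc : (j + 1) • P = j • P + P := succ_nsmul P j
    have hopp : D.Opp v (j • P) P := (same_or_opp hNj hNP).resolve_left hβ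
    show (¬ D.Same v ((j + 1) • P) P ∧ v (D.X ((j + 1) • P)) * v (D.X (1 • P)) = v (D.X (j • P))) ∨
      (D.Same v ((j + 1) • P) P ∧ v (D.X ((j + 1) • P)) * v (D.X (j • P)) = v (D.X (1 • P)))
    rw [one_nsmul, hsucc]
    rw [hsucc] at hNj1
    rcases R.opp (j • P) P hNj hNP hNj1 hopp with ⟨hb, hx⟩ | ⟨hb, hx⟩
    · exact Or.inr ⟨hb, hx⟩
    · refine Or.inl ⟨fun hs => ?_, hx⟩
      exact not_same_and_opp H hNj1 hs (Same.opp hb hopp)
  · have hlast : (p - 1) • P = -P := by
      have h1 : (p - 1) • P + P = 0 := by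
        rw [← succ_nsmul, Nat.sub_add_cancel hp.one_le, hpP]
      exact eq_neg_of_add_eq_zero_left h1
    show ¬ D.Same v ((p - 1) • P) P
    rw [hlast]
    intro hs
    have hNneg : D.InN v (-P) := by
      have := hN (p - 1) (by omega) (by omega)
      rwa [hlast] at this
    exact not_same_and_opp H hNneg hs (opp_neg hP (InN.X_ne_zero hNP))
  · have hlast : (p - 1) • P = -P := by
      have h1 : (p - 1) • P + P = 0 := by
        rw [← succ_nsmul, Nat.sub_add_cancel hp.one_le, hpP]
      exact eq_neg_of_add_eq_zero_left h1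
    show v (D.X ((p - 1) • P)) = v (D.X (1 • P))
    rw [hlast, one_nsmul, D.X_neg P hP]

/-- The point itself lies in the strict node region. -/
theorem inN_of_phase_hyp (R : NodeRules D v)
    {p : ℕ} (hp : p.Prime) (hp2 : p ≠ 2) {P : G} (hP : P ≠ 0) (hpP : p • P = 0)
    (hall : ∀ j, 0 < j → j < p → v (D.X (j • P)) < 1) : D.InN v P := by
  have := inN_of_all R hp hP hpP hp2 hall one_pos hp.one_lt
  rwa [one_nsmul] at this

/-! ### (C): inertia moves every point inside a coset of `E0` -/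

/-- In the node region the slope `sg` is integral. -/
theorem InN.v_sg_le (H : Hyp v a₁ a₂ a₄) {P : G} (hP : D.InN v P) : v (D.sg P) ≤ 1 := by
  by_contra hcon
  rw [not_le] at hcon
  have h1 := InN.v_sg_sq_lt hP
  have hsq : v (D.sg P) < v (D.sg P ^ 2) := by
    rw [map_pow, sq]
    calc v (D.sg P) = v (D.sg P) * 1 := (mul_one _).symm
      _ < v (D.sg P) * v (D.sg P) :=
        mul_lt_mul_of_pos_left hcon (lt_trans zero_lt_one hcon)
  have h2 : v (a₁ * D.sg P) < v (D.sg P ^ 2) := by
    rw [map_mul]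
    calc v a₁ * v (D.sg P) ≤ 1 * v (D.sg P) := mul_le_mul_left H.a1 _
      _ = v (D.sg P) := one_mul _
      _ < _ := hsq
  have h3 : v a₂ < v (D.sg P ^ 2) := lt_of_le_of_lt H.a2 (lt_trans hcon hsq)
  have h4 : v (D.sg P ^ 2 + a₁ * D.sg P - a₂) = v (D.sg P ^ 2) := by
    rw [Valuation.map_sub_eq_of_lt_left v
      (by rw [Valuation.map_add_eq_of_lt_left v h2]; exact h3),
      Valuation.map_add_eq_of_lt_left v h2]
  rw [h4] at h1
  exact absurd (lt_trans hcon hsq) (not_lt.mpr h1.le)

section inertia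

variable {A : ValuationSubring K} {σ : K →+* K} {s : G →+ G}

/-- **(C)**: for an inertia element `(σ, s)`, `s P - P` has non-singular reduction for every
point `P`.  Inputs: rule (b2) of the node calculus (`hb2`, from `NodalNode`) and the case of
points with non-singular reduction (`hE0`, from `NodalRed`). -/
theorem sub_mem_E0 (H : Hyp A.valuation a₁ a₂ a₄) (h : D.InertiaAct A σ s)
    (hval : ∀ x, A.valuation (σ x) = A.valuation x)
    (hb2 : ∀ P Q, D.Gen P Q → D.InN A.valuation P → D.InN A.valuation Q →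
      D.Opp A.valuation P Q → A.valuation (D.X P) = A.valuation (D.X Q) →
      1 ≤ A.valuation (D.X (P + Q)))
    (hE0 : ∀ P, D.E0 A.valuation P → D.E0 A.valuation (s P - P)) (P : G) :
    D.E0 A.valuation (s P - P) := by
  rcases D.e0_or_inN_or_inMid A.valuation P with h0 | hN | hM
  · exact hE0 P h0
  · -- strict node region
    have hP0 : P ≠ 0 := hN.1
    have hXP : D.X P ≠ 0 := InN.X_ne_zero hN
    have hsP0 : s P ≠ 0 := fun h' => hP0 (h.inj P h')
    have hXs : D.X (s P) = σ (D.X P) := h.X_map P hP0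
    have hYs : D.Y (s P) = σ (D.Y P) := h.Y_map P hP0
    have hvX : A.valuation (D.X (s P)) = A.valuation (D.X P) := by rw [hXs, hval]
    have hNs : D.InN A.valuation (s P) := ⟨hsP0, by rw [hvX]; exact hN.2.1, by rw [hvX]; exact hN.2.2⟩
    have hsg : D.sg (s P) = σ (D.sg P) := by
      unfold NodalData.sg
      rw [hXs, hYs, map_div₀]
    have hsgA : D.sg P ∈ A := (A.valuation_le_one_iff _).mp (InN.v_sg_le H hN)
    have hsame : D.Same A.valuation (s P) P := by
      unfold NodalData.Same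
      rw [hsg]
      exact A.mem_nonunits_iff.mp (h.sub_mem _ hsgA)
    have hopp : D.Opp A.valuation (s P) (-P) := Same.opp hsame (Opp.symm (opp_neg hP0 hXP))
    have hNneg : D.InN A.valuation (-P) := InN.neg D A.valuation hN
    have hveq : A.valuation (D.X (s P)) = A.valuation (D.X (-P)) := by
      rw [hvX, D.X_neg P hP0]
    rw [sub_eq_add_neg]
    rcases D.gen_or_add_eq_zero hsP0 hNneg.1 with hgen | hzero
    · exact Or.inr (hb2 (s P) (-P) hgen hNs hNneg hopp hveq)
    · exact Or.inl hzero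
  · -- middle zone: translate by the `2`-torsion point `(0, 0)`
    have hP0 : P ≠ 0 := hM.1
    obtain ⟨S, hS0, hXS, hYS⟩ := D.exists_point 0 0 (by ring)
    have hsS : s S = S := by
      have hsS0 : s S ≠ 0 := fun h' => hS0 (h.inj S h')
      refine D.ext (s S) S hsS0 hS0 ?_ ?_
      · rw [h.X_map S hS0, hXS, map_zero]
      · rw [h.Y_map S hS0, hYS, map_zero]
    by_cases hXP : D.X P = 0
    · have hPS : P = S := by
        refine D.ext P S hP0 hS0 ?_ ?_
        · rw [hXP, hXS]
        · rw [Y_eq_zero_of_X_eq_zero hP0 hXP, hYS]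
      rw [hPS, hsS, sub_self]
      exact D.e0_zero _
    · have hprod := X_add_two_torsion hP0 hS0 hXS hXP
      have hvprod : A.valuation (D.X (P + S)) * A.valuation (D.X P) = A.valuation a₄ := by
        rw [← map_mul, hprod]
      have hvXpos : 0 < A.valuation (D.X P) := zero_lt_iff.mpr ((Valuation.ne_zero_iff _).mpr hXP)
      have h1 : 1 ≤ A.valuation (D.X (P + S)) := by
        have h2 : 1 * A.valuation (D.X P) ≤ A.valuation (D.X (P + S)) * A.valuation (D.X P) := by
          rw [one_mul, hvprod]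
          exact hM.2
        exact le_of_mul_le_mul_right h2 hvXpos
      have h3 := hE0 (P + S) (Or.inr h1)
      have h4 : s (P + S) - (P + S) = s P - P := by
        rw [map_add, hsS]; abel
      rwa [h4] at h3

end inertia

end Fermat.Agent.S13.Local.NodalPhase
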