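import Fermat.Agent.S13.Local.NodalPhase

/-!
# S13 (project G), slice G-L6R: no rational `p`-torsion at a nodal prime with residue field `𝔽₂`

Abstract form of step (R) of the blueprint, and the abstract unipotence statement (L2).
All inputs from `NodalKernel` (no `p`-torsion in `K1`), `NodalRed` (equal non-singular
reductions, `E0` subgroup) and `NodalNode`/`NodalOpp` (`NodeRules`) enter as hypotheses.
-/

set_option autoImplicit false
set_option linter.unusedSectionVars false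

namespace Fermat.Agent.S13.Local.NodalRational

open Fermat.Agent.S13.Local Fermat.Agent.S13.Local.NodalData Fermat.Agent.S13.Local.NodalPhase

variable {K : Type*} [Field K] {G : Type*} [AddCommGroup G] {a₁ a₂ a₄ : K}
  {D : NodalData K G a₁ a₂ a₄}
  {Γ₀ : Type*} [LinearOrderedCommGroupWithZero Γ₀] {v : Valuation K Γ₀}

/-- If `X P` is integral then so is `Y P`. -/
theorem v_Y_le_one (H : Hyp v a₁ a₂ a₄) {P : G} (hP : P ≠ 0) (hX : v (D.X P) ≤ 1) :
    v (D.Y P) ≤ 1 := by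
  by_contra hcon
  rw [not_le] at hcon
  have heq := D.eqn P hP
  have hpos : 0 < v (D.Y P) := lt_trans zero_lt_one hcon
  have hsq : v (D.Y P) < v (D.Y P ^ 2) := by
    rw [map_pow, sq]
    calc v (D.Y P) = v (D.Y P) * 1 := (mul_one _).symm
      _ < v (D.Y P) * v (D.Y P) := mul_lt_mul_of_pos_left hcon hpos
  have h2 : v (a₁ * D.X P * D.Y P) < v (D.Y P ^ 2) := by
    rw [map_mul, map_mul]
    have : v a₁ * v (D.X P) ≤ 1 := by
      calc v a₁ * v (D.X P) ≤ 1 * 1 := mul_le_mul' H.a1 hX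
        _ = 1 := one_mul 1
    calc v a₁ * v (D.X P) * v (D.Y P) ≤ 1 * v (D.Y P) := mul_le_mul_left this _
      _ = v (D.Y P) := one_mul _
      _ < _ := hsq
  have hlhs : v (D.Y P ^ 2 + a₁ * D.X P * D.Y P) = v (D.Y P ^ 2) :=
    Valuation.map_add_eq_of_lt_left v h2
  have hX3 : v (D.X P ^ 3) ≤ 1 := by
    rw [map_pow]; exact pow_le_one' hX 3
  have hX2 : v (a₂ * D.X P ^ 2) ≤ 1 := by
    rw [map_mul, map_pow]
    calc v a₂ * v (D.X P) ^ 2 ≤ 1 * 1 := mul_le_mul' H.a2 (pow_le_one' hX 2)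
      _ = 1 := one_mul 1
  have hX1 : v (a₄ * D.X P) ≤ 1 := by
    rw [map_mul]
    calc v a₄ * v (D.X P) ≤ 1 * 1 := mul_le_mul' H.a4.le hX
      _ = 1 := one_mul 1
  have hrhs : v (D.X P ^ 3 + a₂ * D.X P ^ 2 + a₄ * D.X P) ≤ 1 :=
    le_trans (v.map_add _ _) (max_le (le_trans (v.map_add _ _) (max_le hX3 hX2)) hX1)
  rw [← heq, hlhs] at hrhs
  exact absurd (lt_trans hcon hsq) (not_lt.mpr hrhs)

/-- Two rational integral elements in the same residue class (residue field `𝔽₂`) are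
congruent. -/
theorem v_sub_lt_of_class {Rat : K → Prop}
    (res2 : ∀ x, Rat x → v x ≤ 1 → v x < 1 ∨ v (x - 1) < 1)
    {y y' : K} (hy : Rat y) (hy' : Rat y') (h1 : v y ≤ 1) (h1' : v y' ≤ 1)
    (hc : (v y < 1) ↔ (v y' < 1)) : v (y - y') < 1 := by
  by_cases h : v y < 1
  · exact Valuation.map_sub_lt _ h (hc.mp h)
  · have h' : ¬ v y' < 1 := fun h'' => h (hc.mpr h'')
    have e1 := (res2 y hy h1).resolve_left h
    have e2 := (res2 y' hy' h1').resolve_left h'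
    have : y - y' = (y - 1) - (y' - 1) := by ring
    rw [this]
    exact Valuation.map_sub_lt _ e1 e2

/-- Two distinct rational `p`-torsion points of `E0` with `Y`-coordinates in the same residue
class give a non-zero `p`-torsion point of `K1`: contradiction. -/
theorem pair_contra (H : Hyp v a₁ a₂ a₄) {Rat : K → Prop}
    (res2 : ∀ x, Rat x → v x ≤ 1 → v x < 1 ∨ v (x - 1) < 1) {p : ℕ}
    (hK4 : ∀ Q, D.K1 v Q → Q ≠ 0 → p • Q = 0 → False)
    (hR1 : ∀ Q Q', Q ≠ 0 → Q' ≠ 0 → v (D.X Q) = 1 → v (D.X Q') = 1 →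
      v (D.X Q - D.X Q') < 1 → v (D.Y Q - D.Y Q') < 1 → D.K1 v (Q - Q'))
    {T T' : G} (hT : T ≠ 0) (hT' : T' ≠ 0) (hpT : p • T = 0) (hpT' : p • T' = 0)
    (hE : D.E0 v T) (hE' : D.E0 v T')
    (hrX : Rat (D.X T)) (hrY : Rat (D.Y T)) (hrX' : Rat (D.X T')) (hrY' : Rat (D.Y T'))
    (hne : T - T' ≠ 0)
    (hc : (v (D.Y T) < 1) ↔ (v (D.Y T') < 1)) : False := by
  have hvX : ∀ U : G, U ≠ 0 → p • U = 0 → D.E0 v U → v (D.X U) = 1 := by
    intro U hU hpU hEU
    have h1 : 1 ≤ v (D.X U) := hEU.resolve_left hU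
    refine le_antisymm ?_ h1
    by_contra hcon
    rw [not_le] at hcon
    exact hK4 U (Or.inr hcon) hU hpU
  have hX1 := hvX T hT hpT hE
  have hX1' := hvX T' hT' hpT' hE'
  have hXc : v (D.X T - D.X T') < 1 := by
    refine v_sub_lt_of_class res2 hrX hrX' hX1.le hX1'.le ?_
    rw [hX1, hX1']
  have hYc : v (D.Y T - D.Y T') < 1 :=
    v_sub_lt_of_class res2 hrY hrY' (v_Y_le_one H hT hX1.le) (v_Y_le_one H hT' hX1'.le) hc
  have hK := hR1 T T' hT hT' hX1 hX1' hXc hYc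
  exact hK4 (T - T') hK hne (by rw [smul_sub, hpT, hpT', sub_zero])

/-- **(R), abstract form.** A nodal Weierstrass model with residue field `𝔽₂` on the rational
elements has no rational point of prime order `p ≥ 5`, provided the phase relation
`v x ^ p = v a₄ ^ (2 i)` is impossible for rational `x`. -/
theorem no_rational_torsion (H : Hyp v a₁ a₂ a₄) (R : NodeRules D v) (Rat : K → Prop)
    {p : ℕ} (hp : p.Prime) (hp5 : 5 ≤ p) {P : G} (hP : P ≠ 0) (hpP : p • P = 0)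
    (hrat : ∀ j, 0 < j → j < p → Rat (D.X (j • P)) ∧ Rat (D.Y (j • P)))
    (res2 : ∀ x, Rat x → v x ≤ 1 → v x < 1 ∨ v (x - 1) < 1)
    (hval : ∀ x, Rat x → ∀ i, 0 < i → i < p → v x ^ p ≠ v a₄ ^ (2 * i))
    (hK4 : ∀ Q, D.K1 v Q → Q ≠ 0 → p • Q = 0 → False)
    (hR1 : ∀ Q Q', Q ≠ 0 → Q' ≠ 0 → v (D.X Q) = 1 → v (D.X Q') = 1 →
      v (D.X Q - D.X Q') < 1 → v (D.Y Q - D.Y Q') < 1 → D.K1 v (Q - Q'))
    (hE0 : ∀ Q, D.E0 v Q → ∀ n : ℕ, D.E0 v (n • Q)) : False := by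
  have : Fact p.Prime := ⟨hp⟩
  have ho : addOrderOf P = p := addOrderOf_eq_prime hpP hP
  by_cases hall : ∀ j, 0 < j → j < p → v (D.X (j • P)) < 1
  · obtain ⟨i, hi0, hip, hi⟩ := phase H R hp (by omega) hP hpP hall
    have h1 := (hrat 1 one_pos (by omega)).1
    rw [one_nsmul] at h1
    exact hval _ h1 i hi0 hip hi
  · simp only [not_forall, not_lt] at hall
    obtain ⟨j, hj0, hjp, hj⟩ := hall
    set Q := j • P with hQdef
    have hQ : Q ≠ 0 := Fermat.Agent.S05.Phase.nsmul_ne_zero_of_lt hp hP hpP hj0 hjp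
    have hpQ : p • Q = 0 := by rw [hQdef, smul_comm, hpP, smul_zero]
    have hEQ : D.E0 v Q := Or.inr hj
    -- facts about the multiples of `Q`
    have hmult : ∀ i, 0 < i → i < p → i • Q ≠ 0 ∧ p • (i • Q) = 0 ∧ D.E0 v (i • Q) ∧
        Rat (D.X (i • Q)) ∧ Rat (D.Y (i • Q)) := by
      intro i hi0 hip
      refine ⟨Fermat.Agent.S05.Phase.nsmul_ne_zero_of_lt hp hQ hpQ hi0 hip, ?_, hE0 Q hEQ i, ?_⟩
      · rw [smul_comm, hpQ, smul_zero]
      · have hmod0 : 0 < (i * j) % p := by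
          rw [Nat.pos_iff_ne_zero]
          intro h
          have hdvd : p ∣ i * j := Nat.dvd_of_mod_eq_zero h
          rcases (Nat.Prime.dvd_mul hp).mp hdvd with h' | h'
          · exact absurd (Nat.le_of_dvd hi0 h') (not_le.mpr hip)
          · exact absurd (Nat.le_of_dvd hj0 h') (not_le.mpr hjp)
        have hmodp : (i * j) % p < p := Nat.mod_lt _ hp.pos
        have heq : i • Q = ((i * j) % p) • P := by
          rw [hQdef, ← mul_nsmul', ← ho, mod_addOrderOf_nsmul]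
        rw [heq]
        exact hrat _ hmod0 hmodp
    obtain ⟨h1n, h1p, h1E, h1X, h1Y⟩ := hmult 1 one_pos (by omega)
    obtain ⟨h2n, h2p, h2E, h2X, h2Y⟩ := hmult 2 (by omega) (by omega)
    obtain ⟨h3n, h3p, h3E, h3X, h3Y⟩ := hmult 3 (by omega) (by omega)
    have hd21 : 2 • Q - 1 • Q ≠ 0 := by
      have : 2 • Q - 1 • Q = 1 • Q := by abel
      rw [this]; exact h1n
    have hd31 : 3 • Q - 1 • Q ≠ 0 := by
      have : 3 • Q - 1 • Q = 2 • Q := by abel
      rw [this]; exact h2n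
    have hd32 : 3 • Q - 2 • Q ≠ 0 := by
      have : 3 • Q - 2 • Q = 1 • Q := by abel
      rw [this]; exact h1n
    by_cases c21 : (v (D.Y (2 • Q)) < 1) ↔ (v (D.Y (1 • Q)) < 1)
    · exact pair_contra H res2 hK4 hR1 h2n h1n h2p h1p h2E h1E h2X h2Y h1X h1Y hd21 c21
    by_cases c31 : (v (D.Y (3 • Q)) < 1) ↔ (v (D.Y (1 • Q)) < 1)
    · exact pair_contra H res2 hK4 hR1 h3n h1n h3p h1p h3E h1E h3X h3Y h1X h1Y hd31 c31
    have c32 : (v (D.Y (3 • Q)) < 1) ↔ (v (D.Y (2 • Q)) < 1) := by tauto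
    exact pair_contra H res2 hK4 hR1 h3n h2n h3p h2p h3E h2E h3X h3Y h2X h2Y hd32 c32

/-- **(L2), abstract form**: from (C) `s x - x ∈ E0`, (R2) `s y - y ∈ K1` for `y ∈ E0`, and the
absence of `p`-torsion in `K1`, every additive endomorphism `s` is unipotent on the `p`-torsion:
`s (s x - x) = s x - x`. -/
theorem unipotent_of {s : G →+ G} {p : ℕ}
    (hC : ∀ P, D.E0 v (s P - P)) (hR2 : ∀ P, D.E0 v P → D.K1 v (s P - P))
    (hK4 : ∀ Q, D.K1 v Q → Q ≠ 0 → p • Q = 0 → False) {x : G} (hx : p • x = 0) :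
    s (s x - x) = s x - x := by
  have hy : p • (s x - x) = 0 := by
    rw [smul_sub, ← map_nsmul, hx, map_zero, sub_zero]
  have hz : p • (s (s x - x) - (s x - x)) = 0 := by
    rw [smul_sub, ← map_nsmul, hy, map_zero, sub_zero]
  by_contra hne
  exact hK4 _ (hR2 _ (hC x)) (sub_ne_zero.mpr hne) hz

end Fermat.Agent.S13.Local.NodalRational
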