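import Fermat.Agent.S13.Local.NodalNode
import Fermat.Agent.S13.Local.NodalPhase
import Fermat.Agent.S13.Local.NodalRational

/-!
# S13 (project G): the node rules of `NodalNode` feed `NodalPhase` and `NodalRational`

`nodeRules H : NodalPhase.NodeRules D v` from the packaged rules of `NodalNode`, and the
resulting hypothesis-free forms of the phase theorem, of (C) and of the abstract (R).
-/

set_option autoImplicit false
set_option linter.unusedSectionVars false

namespace Fermat.Agent.S13.Local.NodalRules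

open Fermat.Agent.S13.Local Fermat.Agent.S13.Local.NodalData

variable {K : Type*} [Field K] {G : Type*} [AddCommGroup G] {a₁ a₂ a₄ : K}
  {D : NodalData K G a₁ a₂ a₄}
  {Γ₀ : Type*} [LinearOrderedCommGroupWithZero Γ₀] {v : Valuation K Γ₀}

/-- The node rules consumed by the phase argument. -/
theorem nodeRules (H : Hyp v a₁ a₂ a₄) : NodalPhase.NodeRules D v where
  same := fun _ _ hP hQ hPQ hs => NodalNode.same_rule H hP hQ hPQ hs
  opp := fun _ _ hP hQ hPQ ho => NodalNode.opp_rule H hP hQ hPQ ho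
  dbl_mid := fun _ hP _ hle => NodalNode.dbl_mid_rule H ⟨hP, hle⟩

/-- **The phase theorem (nodal model)**, with the node rules discharged. -/
theorem phase (H : Hyp v a₁ a₂ a₄) {p : ℕ} (hp : p.Prime) (hp2 : p ≠ 2) {P : G} (hP : P ≠ 0)
    (hpP : p • P = 0) (hall : ∀ j, 0 < j → j < p → v (D.X (j • P)) < 1) :
    ∃ i, 0 < i ∧ i < p ∧ v (D.X P) ^ p = v a₄ ^ (2 * i) :=
  NodalPhase.phase H (nodeRules H) hp hp2 hP hpP hall

/-- **(C)** with rule (b2) discharged: only the case of points with non-singular reduction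
(`NodalRed`) remains as an input. -/
theorem sub_mem_E0 {A : ValuationSubring K} {σ : K →+* K} {s : G →+ G}
    (H : Hyp A.valuation a₁ a₂ a₄) (h : D.InertiaAct A σ s)
    (hval : ∀ x, A.valuation (σ x) = A.valuation x)
    (hE0 : ∀ P, D.E0 A.valuation P → D.E0 A.valuation (s P - P)) (P : G) :
    D.E0 A.valuation (s P - P) :=
  NodalPhase.sub_mem_E0 H h hval
    (fun _ _ hgen hP hQ ho heq => NodalNode.rule_b2 H hgen hP hQ ho heq) hE0 P

/-- **(R), abstract form**, with the node rules discharged. -/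
theorem no_rational_torsion (H : Hyp v a₁ a₂ a₄) (Rat : K → Prop)
    {p : ℕ} (hp : p.Prime) (hp5 : 5 ≤ p) {P : G} (hP : P ≠ 0) (hpP : p • P = 0)
    (hrat : ∀ j, 0 < j → j < p → Rat (D.X (j • P)) ∧ Rat (D.Y (j • P)))
    (res2 : ∀ x, Rat x → v x ≤ 1 → v x < 1 ∨ v (x - 1) < 1)
    (hval : ∀ x, Rat x → ∀ i, 0 < i → i < p → v x ^ p ≠ v a₄ ^ (2 * i))
    (hK4 : ∀ Q, D.K1 v Q → Q ≠ 0 → p • Q = 0 → False)
    (hR1 : ∀ Q Q', Q ≠ 0 → Q' ≠ 0 → v (D.X Q) = 1 → v (D.X Q') = 1 →
      v (D.X Q - D.X Q') < 1 → v (D.Y Q - D.Y Q') < 1 → D.K1 v (Q - Q'))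
    (hE0 : ∀ Q, D.E0 v Q → ∀ n : ℕ, D.E0 v (n • Q)) : False :=
  NodalRational.no_rational_torsion H (nodeRules H) Rat hp hp5 hP hpP hrat res2 hval hK4 hR1 hE0

end Fermat.Agent.S13.Local.NodalRules
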