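import Mathlib
import Fermat.Agent.S13.Local.NodalDefs

/-!
# S13 (project G), slice G-L3: the kernel of reduction of a nodal Weierstrass model

`D : NodalData K G a₁ a₂ a₄` (`y² + a₁ x y = x³ + a₂ x² + a₄ x`), `v` a valuation of `K` with
`v a₁, v a₂, v a₄ ≤ 1` (no node hypothesis and no hypothesis on the residue characteristic).
With Silverman's parameter `zc P = -X P / Y P` (`zc 0 = 0`) on the kernel of reduction
`K1 = {0} ∪ {1 < v (X P)}` we prove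

* `k1_add` : `K1` is closed under addition (with `NodalData.K1.neg`: a subgroup);
* `v_zc_add_sub_le` : `v (zc (P + Q) - zc P - zc Q) ≤ max (v (zc P)) (v (zc Q)) ^ 2`;
* `v_zc_nsmul_sub_le` : `v (zc (n • P) - n * zc P) ≤ v (zc P) ^ 2`;
* `nsmul_ne_zero_of_k1` : no `n`-torsion in `K1` when `v n = 1`.

The proof works in the coordinates `(z, w) = (-x/y, -1/y)`, where the curve is
`w = z³ + a₁ z w + a₂ z² w + a₄ z w²` and the line `y = L x + ν` becomes `w = l z + n` with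
`l = -L/ν`, `n = -1/ν`.  The divided difference of the `(z, w)`-equation gives `l U = N` with `U`
a unit and `N` small, uniformly for chords and tangents, and Vieta's formulas for the cubic in
`x` give the sum of the `z`-coordinates of the three collinear points.
-/

set_option autoImplicit false
set_option linter.unusedSectionVars false

namespace Fermat.Agent.S13.Local.NodalKernel

section Algebra

variable {K : Type*} [Field K] {Γ₀ : Type*} [LinearOrderedCommGroupWithZero Γ₀]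
  (v : Valuation K Γ₀)

/-! ### Valuation helpers -/

theorem v_mul_le {a x : K} {r : Γ₀} (ha : v a ≤ 1) (hx : v x ≤ r) : v (a * x) ≤ r := by
  rw [map_mul]
  calc v a * v x ≤ 1 * r := mul_le_mul' ha hx
    _ = r := one_mul r

theorem v_mul_le_mul {x y : K} {r s : Γ₀} (hx : v x ≤ r) (hy : v y ≤ s) :
    v (x * y) ≤ r * s := by
  rw [map_mul]; exact mul_le_mul' hx hy

theorem v_pow_le {x : K} {r : Γ₀} (hx : v x ≤ r) (n : ℕ) : v (x ^ n) ≤ r ^ n := by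
  rw [map_pow]; exact pow_le_pow_left' hx n

theorem pow_le_pow_of_le_one_G {m : Γ₀} (hm : m ≤ 1) {a b : ℕ} (hab : a ≤ b) : m ^ b ≤ m ^ a :=
  pow_le_pow_right_of_le_one' hm hab

theorem v_two_le : v (2 : K) ≤ 1 := by
  have : (2 : K) = 1 + 1 := by norm_num
  rw [this]; exact v.map_add_le (by rw [map_one]) (by rw [map_one])

/-- the unit `U = 1 - a₁ z - a₂ z² - a₄ z w` -/
theorem v_U {a1 a2 a4 z1 w : K} (h1 : v a1 ≤ 1) (h2 : v a2 ≤ 1) (h4 : v a4 ≤ 1)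
    (hz : v z1 < 1) (hw : v w ≤ 1) :
    v (1 - a1 * z1 - a2 * z1 ^ 2 - a4 * z1 * w) = 1 := by
  have : 1 - a1 * z1 - a2 * z1 ^ 2 - a4 * z1 * w = 1 - z1 * (a1 + a2 * z1 + a4 * w) := by ring
  rw [this]
  apply v.map_one_sub_of_lt
  rw [map_mul]
  have hb : v (a1 + a2 * z1 + a4 * w) ≤ 1 := by
    refine v.map_add_le (v.map_add_le h1 ?_) ?_
    · exact v_mul_le v h2 hz.le
    · exact v_mul_le v h4 hw
  calc v z1 * v (a1 + a2 * z1 + a4 * w) ≤ v z1 * 1 := mul_le_mul' le_rfl hb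
    _ = v z1 := mul_one _
    _ < 1 := hz

/-! ### A single point of the kernel of reduction -/

/-- For a point with `1 < v x`: `v x < v y`. -/
theorem v_x_lt_v_y {a1 a2 a4 x y : K} (h1 : v a1 ≤ 1) (h2 : v a2 ≤ 1) (h4 : v a4 ≤ 1)
    (hx : 1 < v x) (hc : y ^ 2 + a1 * x * y = x ^ 3 + a2 * x ^ 2 + a4 * x) : v x < v y := by
  by_contra hle
  rw [not_lt] at hle
  have hx0 : (0 : Γ₀) < v x := lt_trans zero_lt_one hx
  have hsq : v x ^ 2 < v x ^ 3 := by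
    calc v x ^ 2 = v x ^ 2 * 1 := (mul_one _).symm
      _ < v x ^ 2 * v x := mul_lt_mul_of_pos_left hx (pow_pos hx0 2)
      _ = v x ^ 3 := (pow_succ (v x) 2).symm
  have hR : v (x ^ 3 + a2 * x ^ 2 + a4 * x) = v x ^ 3 := by
    rw [add_assoc]
    have : v (a2 * x ^ 2 + a4 * x) < v (x ^ 3) := by
      rw [map_pow]
      refine lt_of_le_of_lt (v.map_add_le (g := v x ^ 2) ?_ ?_) hsq
      · exact v_mul_le v h2 (by rw [map_pow])
      · refine v_mul_le v h4 ?_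
        calc v x = v x * 1 := (mul_one _).symm
          _ ≤ v x * v x := mul_le_mul' le_rfl hx.le
          _ = v x ^ 2 := (pow_two (v x)).symm
    rw [v.map_add_eq_of_lt_left this, map_pow]
  have hL : v (y ^ 2 + a1 * x * y) ≤ v x ^ 2 := by
    refine v.map_add_le ?_ ?_
    · rw [map_pow]; exact pow_le_pow_left₀ zero_le hle 2
    · rw [mul_assoc]
      refine v_mul_le v h1 ?_
      rw [map_mul, pow_two]
      exact mul_le_mul' le_rfl hle
  rw [hc, hR] at hL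
  exact absurd hL (not_le.mpr hsq)

/-- A point of the `(z, w)`-curve near the origin has `v w = v z ^ 3`. -/
theorem zw_val {a1 a2 a4 z w : K} (h1 : v a1 ≤ 1) (h2 : v a2 ≤ 1) (h4 : v a4 ≤ 1)
    (hz : v z < 1) (hw : v w ≤ 1)
    (e : w = z ^ 3 + a1 * z * w + a2 * z ^ 2 * w + a4 * z * w ^ 2) : v w = v z ^ 3 := by
  have h : w * (1 - a1 * z - a2 * z ^ 2 - a4 * z * w) = z ^ 3 := by linear_combination e
  have := congrArg v h
  rwa [map_mul, v_U v h1 h2 h4 hz hw, mul_one, map_pow] at this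

/-- The `(z, w) = (-x/y, -1/y)` coordinates of a point in the kernel of reduction. -/
theorem point_zw {a1 a2 a4 x y : K} (h1 : v a1 ≤ 1) (h2 : v a2 ≤ 1) (h4 : v a4 ≤ 1)
    (hx : 1 < v x) (hc : y ^ 2 + a1 * x * y = x ^ 3 + a2 * x ^ 2 + a4 * x) :
    x ≠ 0 ∧ y ≠ 0 ∧ v (-x / y) < 1 ∧ v (-1 / y) = v (-x / y) ^ 3 ∧
      -1 / y = (-x / y) ^ 3 + a1 * (-x / y) * (-1 / y) + a2 * (-x / y) ^ 2 * (-1 / y)
        + a4 * (-x / y) * (-1 / y) ^ 2 := by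
  have hxy := v_x_lt_v_y v h1 h2 h4 hx hc
  have hx0 : x ≠ 0 := by
    rintro rfl
    rw [map_zero] at hx
    exact absurd hx (not_lt.mpr zero_le_one)
  have hy1 : 1 < v y := lt_trans hx hxy
  have hy0 : y ≠ 0 := by
    rintro rfl
    rw [map_zero] at hy1
    exact absurd hy1 (not_lt.mpr zero_le_one)
  have hz : v (-x / y) < 1 := by
    rw [map_div₀, Valuation.map_neg]
    exact (div_lt_one₀ (lt_trans zero_lt_one hy1)).mpr hxy
  have hw : v (-1 / y) ≤ 1 := by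
    rw [map_div₀, Valuation.map_neg, map_one]
    exact ((div_lt_one₀ (lt_trans zero_lt_one hy1)).mpr hy1).le
  have e : -1 / y = (-x / y) ^ 3 + a1 * (-x / y) * (-1 / y) + a2 * (-x / y) ^ 2 * (-1 / y)
        + a4 * (-x / y) * (-1 / y) ^ 2 := by
    field_simp
    linear_combination -hc
  exact ⟨hx0, hy0, hz, zw_val v h1 h2 h4 hz hw e, e⟩

/-! ### Two points: the divided difference and the line in the `(z, w)`-plane -/

/-- The divided difference of the `(z, w)`-equation. -/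
theorem divided_difference {a1 a2 a4 z1 w1 z2 w2 : K}
    (e1 : w1 = z1 ^ 3 + a1 * z1 * w1 + a2 * z1 ^ 2 * w1 + a4 * z1 * w1 ^ 2)
    (e2 : w2 = z2 ^ 3 + a1 * z2 * w2 + a2 * z2 ^ 2 * w2 + a4 * z2 * w2 ^ 2) :
    (w2 - w1) * (1 - a1 * z1 - a2 * z1 ^ 2 - a4 * z1 * (w1 + w2)) =
      (z2 - z1) * (z2 ^ 2 + z1 * z2 + z1 ^ 2 + a1 * w2 + a2 * (z1 + z2) * w2 + a4 * w2 ^ 2) := by
  linear_combination e2 - e1

/-- **Valuation estimates for the line through two points of the `(z, w)`-curve near the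
origin.** -/
theorem zw_slope {a1 a2 a4 z1 w1 z2 w2 l n : K} {m : Γ₀}
    (h1 : v a1 ≤ 1) (h2 : v a2 ≤ 1) (h4 : v a4 ≤ 1) (hm : m < 1)
    (hz1 : v z1 ≤ m) (hz2 : v z2 ≤ m) (hw1 : v w1 ≤ m ^ 3) (hw2 : v w2 ≤ m ^ 3)
    (hl1 : w1 = l * z1 + n)
    (hlUN : l * (1 - a1 * z1 - a2 * z1 ^ 2 - a4 * z1 * (w1 + w2)) =
      z2 ^ 2 + z1 * z2 + z1 ^ 2 + a1 * w2 + a2 * (z1 + z2) * w2 + a4 * w2 ^ 2) :
    v l ≤ m ^ 2 ∧ v n ≤ m ^ 3 ∧ v (1 + a2 * l + a4 * l ^ 2) = 1 ∧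
      v (a1 * l + a2 * n + 2 * a4 * l * n) ≤ m ^ 2 := by
  have hm1 : m ≤ 1 := hm.le
  have hm32 : m ^ 3 ≤ m ^ 2 := pow_le_pow_of_le_one_G hm1 (by norm_num)
  have hm21 : m ^ 2 ≤ m := by
    calc m ^ 2 ≤ m ^ 1 := pow_le_pow_of_le_one_G hm1 (by norm_num)
      _ = m := pow_one m
  have hm2lt : m ^ 2 < 1 := lt_of_le_of_lt hm21 hm
  have hz1' : v z1 < 1 := lt_of_le_of_lt hz1 hm
  have hw1' : v w1 ≤ 1 := hw1.trans ((hm32.trans hm21).trans hm1)
  have hw2' : v w2 ≤ 1 := hw2.trans ((hm32.trans hm21).trans hm1)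
  have hU : v (1 - a1 * z1 - a2 * z1 ^ 2 - a4 * z1 * (w1 + w2)) = 1 :=
    v_U v h1 h2 h4 hz1' (v.map_add_le hw1' hw2')
  have hN : v (z2 ^ 2 + z1 * z2 + z1 ^ 2 + a1 * w2 + a2 * (z1 + z2) * w2 + a4 * w2 ^ 2)
      ≤ m ^ 2 := by
    refine v.map_add_le (v.map_add_le (v.map_add_le (v.map_add_le (v.map_add_le ?_ ?_) ?_) ?_) ?_) ?_
    · exact v_pow_le v hz2 2
    · rw [pow_two]; exact v_mul_le_mul v hz1 hz2
    · exact v_pow_le v hz1 2
    · exact v_mul_le v h1 (hw2.trans hm32)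
    · rw [mul_assoc]
      refine v_mul_le v h2 ?_
      exact v_mul_le v ((v.map_add_le hz1 hz2).trans hm1) (hw2.trans hm32)
    · refine v_mul_le v h4 ?_
      rw [pow_two]
      exact v_mul_le v hw2' (hw2.trans hm32)
  have hl : v l ≤ m ^ 2 := by
    have := congrArg v hlUN
    rw [map_mul, hU, mul_one] at this
    rw [this]; exact hN
  have hn : v n ≤ m ^ 3 := by
    have : n = w1 - l * z1 := by rw [hl1]; ring
    rw [this]
    refine v.map_sub_le hw1 ?_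
    calc v (l * z1) ≤ m ^ 2 * m := v_mul_le_mul v hl hz1
      _ = m ^ 3 := (pow_succ m 2).symm
  have hl1' : v l < 1 := lt_of_le_of_lt hl hm2lt
  have hc3 : v (1 + a2 * l + a4 * l ^ 2) = 1 := by
    have : 1 + a2 * l + a4 * l ^ 2 = 1 + l * (a2 + a4 * l) := by ring
    rw [this]
    apply v.map_one_add_of_lt
    rw [map_mul]
    have hb : v (a2 + a4 * l) ≤ 1 := v.map_add_le h2 (v_mul_le v h4 hl1'.le)
    calc v l * v (a2 + a4 * l) ≤ v l * 1 := mul_le_mul' le_rfl hb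
      _ = v l := mul_one _
      _ < 1 := hl1'
  have hc2 : v (a1 * l + a2 * n + 2 * a4 * l * n) ≤ m ^ 2 := by
    refine v.map_add_le (v.map_add_le ?_ ?_) ?_
    · exact v_mul_le v h1 hl
    · exact v_mul_le v h2 (hn.trans hm32)
    · rw [mul_assoc, mul_assoc]
      refine v_mul_le v (v_two_le v) (v_mul_le v h4 ?_)
      rw [mul_comm]
      exact v_mul_le v (hn.trans ((hm32.trans hm21).trans hm1)) hl
  exact ⟨hl, hn, hc3, hc2⟩

/-- **The third point of the line.** -/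
theorem zw_third {a1 a2 a4 z1 z2 z3 w3 l n : K} {m : Γ₀} (hm : m < 1)
    (hz1 : v z1 ≤ m) (hz2 : v z2 ≤ m) (hl : v l ≤ m ^ 2) (hn : v n ≤ m ^ 3)
    (hc3 : v (1 + a2 * l + a4 * l ^ 2) = 1)
    (hc2 : v (a1 * l + a2 * n + 2 * a4 * l * n) ≤ m ^ 2)
    (hl3 : w3 = l * z3 + n)
    (hsum : (z1 + z2 + z3) * (1 + a2 * l + a4 * l ^ 2) = -(a1 * l + a2 * n + 2 * a4 * l * n)) :
    v (z1 + z2 + z3) ≤ m ^ 2 ∧ v z3 ≤ m ∧ v w3 ≤ m ^ 3 := by
  have hm1 : m ≤ 1 := hm.le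
  have hm21 : m ^ 2 ≤ m := by
    calc m ^ 2 ≤ m ^ 1 := pow_le_pow_of_le_one_G hm1 (by norm_num)
      _ = m := pow_one m
  have hs : v (z1 + z2 + z3) ≤ m ^ 2 := by
    have := congrArg v hsum
    rw [map_mul, hc3, mul_one, Valuation.map_neg] at this
    rw [this]; exact hc2
  have hz3 : v z3 ≤ m := by
    have : z3 = (z1 + z2 + z3) - z1 - z2 := by ring
    rw [this]
    exact v.map_sub_le (v.map_sub_le (hs.trans hm21) hz1) hz2
  refine ⟨hs, hz3, ?_⟩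
  rw [hl3]
  refine v.map_add_le ?_ hn
  calc v (l * z3) ≤ m ^ 2 * m := v_mul_le_mul v hl hz3
    _ = m ^ 3 := (pow_succ m 2).symm

/-! ### Vieta's formulas for the cubic in `x` -/

/-- the second symmetric function of the three `x`-coordinates -/
theorem vieta_e2 {a1 a2 a4 x1 x2 x3 L ν : K} (hx1 : x1 ≠ 0)
    (hc1 : (L * x1 + ν) ^ 2 + a1 * x1 * (L * x1 + ν) = x1 ^ 3 + a2 * x1 ^ 2 + a4 * x1)
    (hV1 : x1 + x2 + x3 = L ^ 2 + a1 * L - a2) (hV3 : x1 * x2 * x3 = ν ^ 2) :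
    x1 * x2 + x1 * x3 + x2 * x3 = a4 - 2 * L * ν - a1 * ν := by
  apply mul_left_cancel₀ hx1
  linear_combination hc1 + x1 ^ 2 * hV1 + hV3

theorem vieta_prod_y {a2 a4 x1 x2 x3 L ν a1 : K}
    (hV1 : x1 + x2 + x3 = L ^ 2 + a1 * L - a2)
    (hV2 : x1 * x2 + x1 * x3 + x2 * x3 = a4 - 2 * L * ν - a1 * ν)
    (hV3 : x1 * x2 * x3 = ν ^ 2) :
    (L * x1 + ν) * (L * x2 + ν) * (L * x3 + ν) = ν * (ν ^ 2 - a2 * L * ν + a4 * L ^ 2) := by
  linear_combination L ^ 3 * hV3 + L ^ 2 * ν * hV2 + L * ν ^ 2 * hV1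

theorem vieta_sum_xyy {a2 a4 x1 x2 x3 L ν a1 : K}
    (hV1 : x1 + x2 + x3 = L ^ 2 + a1 * L - a2)
    (hV2 : x1 * x2 + x1 * x3 + x2 * x3 = a4 - 2 * L * ν - a1 * ν)
    (hV3 : x1 * x2 * x3 = ν ^ 2) :
    x1 * (L * x2 + ν) * (L * x3 + ν) + x2 * (L * x1 + ν) * (L * x3 + ν)
      + x3 * (L * x1 + ν) * (L * x2 + ν) = 2 * a4 * L * ν - a1 * L * ν ^ 2 - a2 * ν ^ 2 := by
  linear_combination 3 * L ^ 2 * hV3 + 2 * L * ν * hV2 + ν ^ 2 * hV1

/-- the third point of the line lies on the curve -/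
theorem vieta_third {a2 a4 x1 x2 x3 L ν a1 : K}
    (hV1 : x1 + x2 + x3 = L ^ 2 + a1 * L - a2)
    (hV2 : x1 * x2 + x1 * x3 + x2 * x3 = a4 - 2 * L * ν - a1 * ν)
    (hV3 : x1 * x2 * x3 = ν ^ 2) :
    (L * x3 + ν) ^ 2 + a1 * x3 * (L * x3 + ν) = x3 ^ 3 + a2 * x3 ^ 2 + a4 * x3 := by
  linear_combination -x3 ^ 2 * hV1 + x3 * hV2 - hV3

/-! ### The sum of the `z`-coordinates and the core lemma -/

/-- the sum of the `z`-coordinates of three collinear points -/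
theorem sum_formula {a1 a2 a4 x1 x2 x3 y1 y2 y3 L ν : K} (hy1 : y1 ≠ 0) (hy2 : y2 ≠ 0)
    (hy3 : y3 ≠ 0) (hν : ν ≠ 0) (hD : ν ^ 2 - a2 * L * ν + a4 * L ^ 2 ≠ 0)
    (hprod : y1 * y2 * y3 = ν * (ν ^ 2 - a2 * L * ν + a4 * L ^ 2))
    (hsumxyy : x1 * y2 * y3 + x2 * y1 * y3 + x3 * y1 * y2
      = 2 * a4 * L * ν - a1 * L * ν ^ 2 - a2 * ν ^ 2) :
    (-x1 / y1 + -x2 / y2 + -x3 / y3) * (1 + a2 * (-L / ν) + a4 * (-L / ν) ^ 2)
      = -(a1 * (-L / ν) + a2 * (-1 / ν) + 2 * a4 * (-L / ν) * (-1 / ν)) := by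
  have h : -x1 / y1 + -x2 / y2 + -x3 / y3
      = -(x1 * y2 * y3 + x2 * y1 * y3 + x3 * y1 * y2) / (y1 * y2 * y3) := by
    field_simp
    ring
  have hc3 : 1 + a2 * (-L / ν) + a4 * (-L / ν) ^ 2
      = (ν ^ 2 - a2 * L * ν + a4 * L ^ 2) / ν ^ 2 := by
    field_simp
    ring
  rw [h, hsumxyy, hprod, hc3]
  generalize ν ^ 2 - a2 * L * ν + a4 * L ^ 2 = Dn at hD
  field_simp
  ring

/-- **Core lemma** (free variables): the third point of the line through two points of the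
kernel of reduction. -/
theorem core_xy {a1 a2 a4 x1 y1 x2 y2 x3 L ν : K}
    (h1 : v a1 ≤ 1) (h2 : v a2 ≤ 1) (h4 : v a4 ≤ 1)
    (hx1 : 1 < v x1) (hx2 : 1 < v x2)
    (hc1 : y1 ^ 2 + a1 * x1 * y1 = x1 ^ 3 + a2 * x1 ^ 2 + a4 * x1)
    (hc2 : y2 ^ 2 + a1 * x2 * y2 = x2 ^ 3 + a2 * x2 ^ 2 + a4 * x2)
    (hl1 : y1 = L * x1 + ν) (hl2 : y2 = L * x2 + ν)
    (hLUN : L * (1 - a1 * (-x1 / y1) - a2 * (-x1 / y1) ^ 2
        - a4 * (-x1 / y1) * (-1 / y1 + -1 / y2))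
      + ν * ((-x2 / y2) ^ 2 + (-x1 / y1) * (-x2 / y2) + (-x1 / y1) ^ 2 + a1 * (-1 / y2)
        + a2 * (-x1 / y1 + -x2 / y2) * (-1 / y2) + a4 * (-1 / y2) ^ 2) = 0)
    (hV1 : x1 + x2 + x3 = L ^ 2 + a1 * L - a2) (hV3 : x1 * x2 * x3 = ν ^ 2) :
    ∃ y3 z3 : K, y3 = L * x3 + ν ∧ y3 ≠ 0 ∧ z3 = -x3 / y3 ∧ z3 ≠ 0 ∧
      v z3 ≤ max (v (-x1 / y1)) (v (-x2 / y2)) ∧
      v (-x1 / y1 + -x2 / y2 + z3) ≤ max (v (-x1 / y1)) (v (-x2 / y2)) ^ 2 ∧
      v x3 * v z3 ^ 2 = 1 := by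
  obtain ⟨hx10, hy10, hz1, hw1, e1⟩ := point_zw v h1 h2 h4 hx1 hc1
  obtain ⟨hx20, hy20, hz2, hw2, e2⟩ := point_zw v h1 h2 h4 hx2 hc2
  generalize hz1d : -x1 / y1 = z1 at *
  generalize hw1d : -1 / y1 = w1 at *
  generalize hz2d : -x2 / y2 = z2 at *
  generalize hw2d : -1 / y2 = w2 at *
  set m := max (v z1) (v z2) with hm
  have hmlt : m < 1 := max_lt hz1 hz2
  have hm1 : m ≤ 1 := hmlt.le
  have hz1m : v z1 ≤ m := le_max_left _ _
  have hz2m : v z2 ≤ m := le_max_right _ _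
  have hw1m : v w1 ≤ m ^ 3 := by rw [hw1]; exact pow_le_pow_left' hz1m 3
  have hw2m : v w2 ≤ m ^ 3 := by rw [hw2]; exact pow_le_pow_left' hz2m 3
  have hm31 : m ^ 3 ≤ 1 := pow_le_one' hm1 3
  have hU : v (1 - a1 * z1 - a2 * z1 ^ 2 - a4 * z1 * (w1 + w2)) = 1 :=
    v_U v h1 h2 h4 hz1 (v.map_add_le (hw1m.trans hm31) (hw2m.trans hm31))
  have hU0 : 1 - a1 * z1 - a2 * z1 ^ 2 - a4 * z1 * (w1 + w2) ≠ 0 := by
    intro h
    rw [h, map_zero] at hU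
    exact zero_ne_one hU
  have hν : ν ≠ 0 := by
    rintro rfl
    rw [zero_mul, add_zero] at hLUN
    have hL0 : L = 0 := (mul_eq_zero.mp hLUN).resolve_right hU0
    apply hy10
    rw [hl1, hL0]; ring
  have hl1' : w1 = -L / ν * z1 + -1 / ν := by
    rw [← hw1d, ← hz1d]
    field_simp
    linear_combination hl1
  have hlUN : -L / ν * (1 - a1 * z1 - a2 * z1 ^ 2 - a4 * z1 * (w1 + w2)) =
      z2 ^ 2 + z1 * z2 + z1 ^ 2 + a1 * w2 + a2 * (z1 + z2) * w2 + a4 * w2 ^ 2 := by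
    field_simp
    linear_combination -hLUN
  obtain ⟨hl, hn, hc3, hc2⟩ := zw_slope v h1 h2 h4 hmlt hz1m hz2m hw1m hw2m hl1' hlUN
  have hV2 := vieta_e2 hx10 (by rw [← hl1]; exact hc1) hV1 hV3
  have hprod := vieta_prod_y hV1 hV2 hV3
  have hsumxyy := vieta_sum_xyy hV1 hV2 hV3
  have hthird := vieta_third hV1 hV2 hV3
  have hDn : ν ^ 2 - a2 * L * ν + a4 * L ^ 2 = ν ^ 2 * (1 + a2 * (-L / ν) + a4 * (-L / ν) ^ 2) := by
    field_simp
    ring
  have hc30 : 1 + a2 * (-L / ν) + a4 * (-L / ν) ^ 2 ≠ 0 := by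
    intro h
    rw [h, map_zero] at hc3
    exact zero_ne_one hc3
  have hDn0 : ν ^ 2 - a2 * L * ν + a4 * L ^ 2 ≠ 0 := by
    rw [hDn]; exact mul_ne_zero (pow_ne_zero 2 hν) hc30
  have hy30 : L * x3 + ν ≠ 0 := by
    intro h
    rw [h, mul_zero] at hprod
    exact (mul_ne_zero hν hDn0) hprod.symm
  refine ⟨L * x3 + ν, -x3 / (L * x3 + ν), rfl, hy30, rfl, ?_⟩
  have hl3 : -1 / (L * x3 + ν) = -L / ν * (-x3 / (L * x3 + ν)) + -1 / ν := by
    field_simp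
    ring
  have hsum : (z1 + z2 + -x3 / (L * x3 + ν)) * (1 + a2 * (-L / ν) + a4 * (-L / ν) ^ 2)
      = -(a1 * (-L / ν) + a2 * (-1 / ν) + 2 * a4 * (-L / ν) * (-1 / ν)) := by
    rw [← hz1d, ← hz2d]
    refine sum_formula hy10 hy20 hy30 hν hDn0 ?_ ?_
    · rw [hl1, hl2]; exact hprod
    · rw [hl1, hl2]; linear_combination hsumxyy
  obtain ⟨hs, hz3, hw3⟩ := zw_third v hmlt hz1m hz2m hl hn hc3 hc2 hl3 hsum
  have e3 : -1 / (L * x3 + ν) = (-x3 / (L * x3 + ν)) ^ 3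
      + a1 * (-x3 / (L * x3 + ν)) * (-1 / (L * x3 + ν))
      + a2 * (-x3 / (L * x3 + ν)) ^ 2 * (-1 / (L * x3 + ν))
      + a4 * (-x3 / (L * x3 + ν)) * (-1 / (L * x3 + ν)) ^ 2 := by
    field_simp
    linear_combination -hthird
  have hz3lt : v (-x3 / (L * x3 + ν)) < 1 := lt_of_le_of_lt hz3 hmlt
  have hw3v := zw_val v h1 h2 h4 hz3lt (hw3.trans hm31) e3
  have hw30 : -1 / (L * x3 + ν) ≠ 0 := div_ne_zero (neg_ne_zero.mpr one_ne_zero) hy30
  have hz30 : -x3 / (L * x3 + ν) ≠ 0 := by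
    intro h
    rw [h, map_zero, zero_pow (by norm_num)] at hw3v
    exact hw30 ((v.zero_iff).mp hw3v)
  refine ⟨hz30, hz3, hs, ?_⟩
  have hvz0 : v (-x3 / (L * x3 + ν)) ≠ 0 := (v.ne_zero_iff).mpr hz30
  have hx3 : v x3 = v (-x3 / (L * x3 + ν)) / v (-1 / (L * x3 + ν)) := by
    rw [← map_div₀, div_div_div_cancel_right₀ hy30, neg_div_neg_eq, div_one]
  rw [hx3, hw3v, div_mul_eq_mul_div, div_eq_one_iff_eq (pow_ne_zero 3 hvz0), ← pow_succ']

/-! ### The relation `L U + ν N = 0` and the final estimate -/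

/-- `L U + ν N = 0`, tangent case. -/
theorem lun_tangent {a1 a2 a4 x y L : K} (hy : y ≠ 0)
    (hc : y ^ 2 + a1 * x * y = x ^ 3 + a2 * x ^ 2 + a4 * x)
    (hL : L * (2 * y + a1 * x) = 3 * x ^ 2 + 2 * a2 * x + a4 - a1 * y) :
    L * (1 - a1 * (-x / y) - a2 * (-x / y) ^ 2 - a4 * (-x / y) * (-1 / y + -1 / y))
      + (y - L * x) * ((-x / y) ^ 2 + (-x / y) * (-x / y) + (-x / y) ^ 2 + a1 * (-1 / y)
        + a2 * (-x / y + -x / y) * (-1 / y) + a4 * (-1 / y) ^ 2) = 0 := by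
  field_simp
  linear_combination (-y) * hL + 3 * L * hc

/-- `L U + ν N = 0`, chord case. -/
theorem lun_chord {a1 a2 a4 z1 w1 z2 w2 L ν : K}
    (e1 : w1 = z1 ^ 3 + a1 * z1 * w1 + a2 * z1 ^ 2 * w1 + a4 * z1 * w1 ^ 2)
    (e2 : w2 = z2 ^ 3 + a1 * z2 * w2 + a2 * z2 ^ 2 * w2 + a4 * z2 * w2 ^ 2)
    (hl1 : L * z1 + ν * w1 = -1) (hl2 : L * z2 + ν * w2 = -1) (hne : z1 ≠ z2) :
    L * (1 - a1 * z1 - a2 * z1 ^ 2 - a4 * z1 * (w1 + w2))
      + ν * (z2 ^ 2 + z1 * z2 + z1 ^ 2 + a1 * w2 + a2 * (z1 + z2) * w2 + a4 * w2 ^ 2) = 0 := by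
  have hdd := divided_difference e1 e2
  have hne' : z2 - z1 ≠ 0 := sub_ne_zero.mpr (Ne.symm hne)
  apply mul_left_cancel₀ hne'
  linear_combination (1 - a1 * z1 - a2 * z1 ^ 2 - a4 * z1 * (w1 + w2)) * (hl2 - hl1) - ν * hdd

/-- the final estimate: `z(P + Q) - z P - z Q` -/
theorem final_estimate {a1 z1 z2 z3 : K} {m : Γ₀} (h1 : v a1 ≤ 1) (hm : m < 1)
    (hz1 : v z1 ≤ m) (hz2 : v z2 ≤ m) (hz3 : v z3 ≤ m) (hs : v (z1 + z2 + z3) ≤ m ^ 2) :
    v (1 - a1 * z3) = 1 ∧ v (-z3 / (1 - a1 * z3) - z1 - z2) ≤ m ^ 2 := by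
  have hu : v (1 - a1 * z3) = 1 := by
    apply v.map_one_sub_of_lt
    exact lt_of_le_of_lt (v_mul_le v h1 hz3) hm
  have hu0 : 1 - a1 * z3 ≠ 0 := by
    intro h
    rw [h, map_zero] at hu
    exact zero_ne_one hu
  refine ⟨hu, ?_⟩
  have : -z3 / (1 - a1 * z3) - z1 - z2
      = (-(z1 + z2 + z3) + a1 * (z3 * (z1 + z2))) / (1 - a1 * z3) := by
    rw [eq_div_iff hu0, sub_mul, sub_mul, div_mul_cancel₀ _ hu0]
    ring
  rw [this, map_div₀, hu, div_one]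
  refine v.map_add_le ?_ ?_
  · rw [Valuation.map_neg]; exact hs
  · refine v_mul_le v h1 ?_
    rw [pow_two]
    exact v_mul_le_mul v hz3 (v.map_add_le hz1 hz2)

end Algebra

/-! ### Points of the nodal curve -/

section Data

variable {K : Type*} [Field K] {Γ₀ : Type*} [LinearOrderedCommGroupWithZero Γ₀]
  {G : Type*} [AddCommGroup G] {a₁ a₂ a₄ : K} (D : NodalData K G a₁ a₂ a₄) (v : Valuation K Γ₀)

open Classical in
/-- Silverman's parameter `z = -x/y` (`0` at the origin). -/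
noncomputable def zc (P : G) : K := if P = 0 then 0 else -D.X P / D.Y P

theorem zc_zero : zc D 0 = 0 := if_pos rfl

theorem zc_of_ne {P : G} (hP : P ≠ 0) : zc D P = -D.X P / D.Y P := if_neg hP

/-- **Point facts** for a non-zero point of the kernel of reduction. -/
theorem k1_point_facts (h1 : v a₁ ≤ 1) (h2 : v a₂ ≤ 1) (h4 : v a₄ ≤ 1) {P : G} (hP : P ≠ 0)
    (hX : 1 < v (D.X P)) :
    D.X P ≠ 0 ∧ D.Y P ≠ 0 ∧ v (zc D P) < 1 ∧ zc D P ≠ 0 ∧
      v (D.X P) * v (zc D P) ^ 2 = 1 ∧ v (D.Y P) * v (zc D P) ^ 3 = 1 := by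
  obtain ⟨hx0, hy0, hz, hw, -⟩ := point_zw v h1 h2 h4 hX (D.eqn P hP)
  rw [zc_of_ne D hP]
  have hz0 : -D.X P / D.Y P ≠ 0 := div_ne_zero (neg_ne_zero.mpr hx0) hy0
  have hvz0 : v (-D.X P / D.Y P) ≠ 0 := (v.ne_zero_iff).mpr hz0
  have hvy0 : v (D.Y P) ≠ 0 := (v.ne_zero_iff).mpr hy0
  have hw' : v (D.Y P) * v (-D.X P / D.Y P) ^ 3 = 1 := by
    rw [← hw, map_div₀, Valuation.map_neg, map_one, mul_one_div, div_self hvy0]
  refine ⟨hx0, hy0, hz, hz0, ?_, hw'⟩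
  have hx : v (D.X P) = v (-D.X P / D.Y P) / v (-1 / D.Y P) := by
    rw [← map_div₀, div_div_div_cancel_right₀ hy0, neg_div_neg_eq, div_one]
  rw [hx, hw, div_mul_eq_mul_div, div_eq_one_iff_eq (pow_ne_zero 3 hvz0), ← pow_succ']

/-- **The core of the slice**: two non-zero points of the kernel of reduction in general
position. -/
theorem gen_core (h1 : v a₁ ≤ 1) (h2 : v a₂ ≤ 1) (h4 : v a₄ ≤ 1) {P Q : G} (hg : D.Gen P Q)
    (hP : 1 < v (D.X P)) (hQ : 1 < v (D.X Q)) :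
    1 < v (D.X (P + Q)) ∧
      v (zc D (P + Q) - zc D P - zc D Q) ≤ max (v (zc D P)) (v (zc D Q)) ^ 2 := by
  have hP0 := hg.left_ne
  have hQ0 := hg.right_ne
  have hPQ0 := hg.add_ne_zero
  have hc1 := D.eqn P hP0
  have hc2 := D.eqn Q hQ0
  have hl1 := NodalData.Y_eq_left (D := D) P Q
  have hl2 := hg.Y_eq_right
  have hV1 : D.X P + D.X Q + D.X (P + Q) = D.lam P Q ^ 2 + a₁ * D.lam P Q - a₂ := by
    rw [hg.X_add]; ring
  have hV3 : D.X P * D.X Q * D.X (P + Q) = D.nu P Q ^ 2 := by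
    rw [← hg.Phi1]; ring
  obtain ⟨hx10, hy10, hz1, hw1, e1⟩ := point_zw v h1 h2 h4 hP hc1
  obtain ⟨hx20, hy20, hz2, hw2, e2⟩ := point_zw v h1 h2 h4 hQ hc2
  have hLUN : D.lam P Q * (1 - a₁ * (-D.X P / D.Y P) - a₂ * (-D.X P / D.Y P) ^ 2
        - a₄ * (-D.X P / D.Y P) * (-1 / D.Y P + -1 / D.Y Q))
      + D.nu P Q * ((-D.X Q / D.Y Q) ^ 2 + (-D.X P / D.Y P) * (-D.X Q / D.Y Q)
        + (-D.X P / D.Y P) ^ 2 + a₁ * (-1 / D.Y Q)
        + a₂ * (-D.X P / D.Y P + -D.X Q / D.Y Q) * (-1 / D.Y Q) + a₄ * (-1 / D.Y Q) ^ 2) = 0 := by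
    obtain ⟨-, -, hne | ⟨rfl, hT⟩⟩ := hg
    · refine lun_chord e1 e2 ?_ ?_ ?_
      · field_simp
        linear_combination hl1
      · field_simp
        linear_combination hl2
      · intro hzz
        have hdd := divided_difference e1 e2
        rw [hzz, sub_self, zero_mul] at hdd
        have hw1' : v (-1 / D.Y P) ≤ 1 := by rw [hw1]; exact pow_le_one' hz1.le 3
        have hw2' : v (-1 / D.Y Q) ≤ 1 := by rw [hw2]; exact pow_le_one' hz2.le 3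
        have hU := v_U v h1 h2 h4 hz2 (v.map_add_le hw1' hw2')
        have hU0 : 1 - a₁ * (-D.X Q / D.Y Q) - a₂ * (-D.X Q / D.Y Q) ^ 2
            - a₄ * (-D.X Q / D.Y Q) * (-1 / D.Y P + -1 / D.Y Q) ≠ 0 := by
          intro h
          rw [h, map_zero] at hU
          exact zero_ne_one hU
        have hww : -1 / D.Y Q - -1 / D.Y P = 0 := (mul_eq_zero.mp hdd).resolve_right hU0
        have hyy : D.Y P = D.Y Q := by
          field_simp at hww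
          linear_combination -hww
        apply hne
        rw [hyy] at hzz
        field_simp at hzz
        linear_combination -hzz
    · have hL := NodalData.lam_self_mul hT
      unfold NodalData.T NodalData.M at hL
      have := lun_tangent hy10 hc1 hL
      unfold NodalData.nu
      exact this
  obtain ⟨y3, z3, hy3, hy30, hz3d, hz30, hz3m, hs, hx3⟩ :=
    core_xy v h1 h2 h4 hP hQ hc1 hc2 hl1 hl2 hLUN hV1 hV3
  rw [← zc_of_ne D hP0, ← zc_of_ne D hQ0] at hz3m hs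
  rw [← zc_of_ne D hP0] at hz1
  rw [← zc_of_ne D hQ0] at hz2
  have hmlt : max (v (zc D P)) (v (zc D Q)) < 1 := max_lt hz1 hz2
  have hvz0 : v z3 ≠ 0 := (v.ne_zero_iff).mpr hz30
  have hz3lt : v z3 < 1 := lt_of_le_of_lt hz3m hmlt
  obtain ⟨hu, hfin⟩ := final_estimate v h1 hmlt (le_max_left _ _) (le_max_right _ _) hz3m hs
  have hu0 : 1 - a₁ * z3 ≠ 0 := by
    intro h
    rw [h, map_zero] at hu
    exact zero_ne_one hu
  constructor
  · have : v (D.X (P + Q)) = (v z3 ^ 2)⁻¹ := eq_inv_of_mul_eq_one_left hx3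
    rw [this]
    refine (one_lt_inv₀ (pow_pos (zero_lt_iff.mpr hvz0) 2)).mpr ?_
    exact pow_lt_one₀ zero_le hz3lt two_ne_zero
  · have hzc3 : zc D (P + Q) = -z3 / (1 - a₁ * z3) := by
      have hx3' : D.X (P + Q) = -z3 * y3 := by
        rw [hz3d]
        field_simp
      have hY : D.Y (P + Q) = -y3 * (1 - a₁ * z3) := by
        rw [hg.Y_add, ← hy3, hx3']
        ring
      rw [zc_of_ne D hPQ0, hY, hx3']
      field_simp
    rw [hzc3]
    exact hfin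

/-! ### The group statements -/

theorem v_natCast_le (n : ℕ) : v (n : K) ≤ 1 := by
  induction n with
  | zero => simp
  | succ n ih =>
    rw [Nat.cast_succ]
    exact v.map_add_le ih (by rw [map_one])

theorem one_lt_of_k1 {P : G} (hP : D.K1 v P) (hP0 : P ≠ 0) : 1 < v (D.X P) :=
  hP.resolve_left hP0

theorem v_zc_lt_one (h1 : v a₁ ≤ 1) (h2 : v a₂ ≤ 1) (h4 : v a₄ ≤ 1) {P : G}
    (hP : D.K1 v P) : v (zc D P) < 1 := by
  by_cases hP0 : P = 0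
  · rw [hP0, zc_zero, map_zero]; exact zero_lt_one
  · exact (k1_point_facts D v h1 h2 h4 hP0 (one_lt_of_k1 D v hP hP0)).2.2.1

/-- `zc (-P) = -zc P / (1 - a₁ zc P)` on the kernel of reduction. -/
theorem zc_neg (h1 : v a₁ ≤ 1) (h2 : v a₂ ≤ 1) (h4 : v a₄ ≤ 1) {P : G} (hP : D.K1 v P) :
    zc D (-P) = -zc D P / (1 - a₁ * zc D P) := by
  by_cases hP0 : P = 0
  · rw [hP0, neg_zero, zc_zero]; simp
  · obtain ⟨hx0, hy0, hz, -, -, -⟩ := k1_point_facts D v h1 h2 h4 hP0 (one_lt_of_k1 D v hP hP0)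
    have hu : v (1 - a₁ * zc D P) = 1 :=
      v.map_one_sub_of_lt (lt_of_le_of_lt (v_mul_le v h1 le_rfl) hz)
    have hu0 : 1 - a₁ * zc D P ≠ 0 := by
      intro h
      rw [h, map_zero] at hu
      exact zero_ne_one hu
    have hy : -D.Y P - a₁ * D.X P = -D.Y P * (1 - a₁ * zc D P) := by
      rw [zc_of_ne D hP0]
      field_simp
      ring
    have hy' : -D.Y P - a₁ * D.X P ≠ 0 := by
      rw [hy]; exact mul_ne_zero (neg_ne_zero.mpr hy0) hu0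
    rw [zc_of_ne D (neg_ne_zero.mpr hP0), D.X_neg P hP0, D.Y_neg P hP0, div_eq_div_iff hy' hu0]
    rw [zc_of_ne D hP0]
    field_simp
    ring

/-- **`K1` is closed under addition.** -/
theorem k1_add (h1 : v a₁ ≤ 1) (h2 : v a₂ ≤ 1) (h4 : v a₄ ≤ 1) {P Q : G}
    (hP : D.K1 v P) (hQ : D.K1 v Q) : D.K1 v (P + Q) := by
  by_cases hP0 : P = 0
  · rw [hP0, zero_add]; exact hQ
  by_cases hQ0 : Q = 0
  · rw [hQ0, add_zero]; exact hP
  rcases D.gen_or_add_eq_zero hP0 hQ0 with hg | h0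
  · exact Or.inr
      (gen_core D v h1 h2 h4 hg (one_lt_of_k1 D v hP hP0) (one_lt_of_k1 D v hQ hQ0)).1
  · exact Or.inl h0

theorem k1_nsmul (h1 : v a₁ ≤ 1) (h2 : v a₂ ≤ 1) (h4 : v a₄ ≤ 1) {P : G}
    (hP : D.K1 v P) (n : ℕ) : D.K1 v (n • P) := by
  induction n with
  | zero => rw [zero_smul]; exact D.k1_zero v
  | succ n ih => rw [succ_nsmul]; exact k1_add D v h1 h2 h4 ih hP

/-- **The formal group law to first order.** -/
theorem v_zc_add_sub_le (h1 : v a₁ ≤ 1) (h2 : v a₂ ≤ 1) (h4 : v a₄ ≤ 1) {P Q : G}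
    (hP : D.K1 v P) (hQ : D.K1 v Q) :
    v (zc D (P + Q) - zc D P - zc D Q) ≤ max (v (zc D P)) (v (zc D Q)) ^ 2 := by
  by_cases hP0 : P = 0
  · rw [hP0, zero_add, zc_zero, sub_zero, sub_self, map_zero]; exact zero_le
  by_cases hQ0 : Q = 0
  · rw [hQ0, add_zero, zc_zero, sub_zero, sub_self, map_zero]; exact zero_le
  rcases D.gen_or_add_eq_zero hP0 hQ0 with hg | h0
  · exact (gen_core D v h1 h2 h4 hg (one_lt_of_k1 D v hP hP0) (one_lt_of_k1 D v hQ hQ0)).2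
  · have hQ' : Q = -P := by rw [eq_neg_iff_add_eq_zero, add_comm]; exact h0
    have hz := v_zc_lt_one D v h1 h2 h4 hP
    have hu : v (1 - a₁ * zc D P) = 1 :=
      v.map_one_sub_of_lt (lt_of_le_of_lt (v_mul_le v h1 le_rfl) hz)
    have hu0 : 1 - a₁ * zc D P ≠ 0 := by
      intro h
      rw [h, map_zero] at hu
      exact zero_ne_one hu
    rw [h0, zc_zero, hQ', zc_neg D v h1 h2 h4 hP]
    have : 0 - zc D P - -zc D P / (1 - a₁ * zc D P)
        = a₁ * zc D P ^ 2 / (1 - a₁ * zc D P) := by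
      rw [eq_div_iff hu0, sub_mul, div_mul_cancel₀ _ hu0]
      ring
    rw [this, map_div₀, hu, div_one]
    refine v_mul_le v h1 ?_
    rw [map_pow]
    exact pow_le_pow_left' (le_max_left _ _) 2

/-- The filtration: `v (zc (P + Q)) ≤ max (v (zc P)) (v (zc Q))`. -/
theorem v_zc_add_le (h1 : v a₁ ≤ 1) (h2 : v a₂ ≤ 1) (h4 : v a₄ ≤ 1) {P Q : G}
    (hP : D.K1 v P) (hQ : D.K1 v Q) :
    v (zc D (P + Q)) ≤ max (v (zc D P)) (v (zc D Q)) := by
  have h := v_zc_add_sub_le D v h1 h2 h4 hP hQ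
  have hm1 : max (v (zc D P)) (v (zc D Q)) ≤ 1 :=
    (max_lt (v_zc_lt_one D v h1 h2 h4 hP) (v_zc_lt_one D v h1 h2 h4 hQ)).le
  have hm21 : max (v (zc D P)) (v (zc D Q)) ^ 2 ≤ max (v (zc D P)) (v (zc D Q)) := by
    calc _ ≤ max (v (zc D P)) (v (zc D Q)) ^ 1 := pow_le_pow_of_le_one_G hm1 (by norm_num)
      _ = _ := pow_one _
  have : zc D (P + Q) = (zc D (P + Q) - zc D P - zc D Q) + zc D P + zc D Q := by ring
  rw [this]
  exact v.map_add_le (v.map_add_le (h.trans hm21) (le_max_left _ _)) (le_max_right _ _)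

/-- `zc (n • P) ≡ n zc P` modulo `zc P ^ 2`. -/
theorem v_zc_nsmul_sub_le (h1 : v a₁ ≤ 1) (h2 : v a₂ ≤ 1) (h4 : v a₄ ≤ 1) {P : G}
    (hP : D.K1 v P) (n : ℕ) :
    v (zc D (n • P) - n * zc D P) ≤ v (zc D P) ^ 2 := by
  have hz1 : v (zc D P) ≤ 1 := (v_zc_lt_one D v h1 h2 h4 hP).le
  have hz21 : v (zc D P) ^ 2 ≤ v (zc D P) := by
    calc _ ≤ v (zc D P) ^ 1 := pow_le_pow_of_le_one_G hz1 (by norm_num)
      _ = _ := pow_one _
  induction n with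
  | zero => rw [zero_smul, zc_zero, Nat.cast_zero, zero_mul, sub_zero, map_zero]; exact zero_le
  | succ n ih =>
    have hn : v (zc D (n • P)) ≤ v (zc D P) := by
      have : zc D (n • P) = (zc D (n • P) - n * zc D P) + n * zc D P := by ring
      rw [this]
      exact v.map_add_le (ih.trans hz21) (v_mul_le v (v_natCast_le v n) le_rfl)
    have hadd := v_zc_add_sub_le D v h1 h2 h4 (k1_nsmul D v h1 h2 h4 hP n) hP
    rw [max_eq_right hn] at hadd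
    have : zc D ((n + 1) • P) - ((n + 1 : ℕ) : K) * zc D P
        = (zc D (n • P + P) - zc D (n • P) - zc D P) + (zc D (n • P) - n * zc D P) := by
      rw [succ_nsmul, Nat.cast_succ]; ring
    rw [this]
    exact v.map_add_le hadd ih

/-- **No `n`-torsion in the kernel of reduction when `n` is a unit.** -/
theorem nsmul_ne_zero_of_k1 (h1 : v a₁ ≤ 1) (h2 : v a₂ ≤ 1) (h4 : v a₄ ≤ 1) {P : G}
    (hP : D.K1 v P) (hP0 : P ≠ 0) {n : ℕ} (hn : v (n : K) = 1) : n • P ≠ 0 := by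
  intro h0
  obtain ⟨-, -, hz, hz0, -, -⟩ := k1_point_facts D v h1 h2 h4 hP0 (one_lt_of_k1 D v hP hP0)
  have h := v_zc_nsmul_sub_le D v h1 h2 h4 hP n
  rw [h0, zc_zero, zero_sub, Valuation.map_neg, map_mul, hn, one_mul] at h
  have hvz0 : 0 < v (zc D P) := zero_lt_iff.mpr ((v.ne_zero_iff).mpr hz0)
  have : v (zc D P) ^ 2 < v (zc D P) := by
    calc v (zc D P) ^ 2 = v (zc D P) * v (zc D P) := pow_two _
      _ < v (zc D P) * 1 := mul_lt_mul_of_pos_left hz hvz0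
      _ = v (zc D P) := mul_one _
  exact absurd h (not_le.mpr this)

end Data

end Fermat.Agent.S13.Local.NodalKernel
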