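import Fermat.Agent.S13.Local.NodalZc
import Fermat.Agent.S13.Local.NodalKernel

/-!
# S13 (project G), slice G-L3: the kernel estimates in the shared `NodalData.zc` spelling

`NodalKernel.zc D P` (the local definition of `S13/Local/NodalKernel`) and `D.zc P`
(`S13/Local/NodalZc`) are the same function; this file restates the three rules consumed by the
induction (`NodalKernelInd.KerRules2`: `z_ne`, `z_lt`, `add`) and the final statements with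
`D.zc`.
-/

set_option autoImplicit false

namespace Fermat.Agent.S13.Local.NodalKernel

variable {K : Type*} [Field K] {Γ₀ : Type*} [LinearOrderedCommGroupWithZero Γ₀]
  {G : Type*} [AddCommGroup G] {a₁ a₂ a₄ : K} (D : NodalData K G a₁ a₂ a₄) (v : Valuation K Γ₀)

theorem zc_eq (P : G) : zc D P = D.zc P := rfl

/-- rule `z_ne` -/
theorem zc_ne_zero' (h1 : v a₁ ≤ 1) (h2 : v a₂ ≤ 1) (h4 : v a₄ ≤ 1) (P : G) (hP : P ≠ 0)
    (hK : D.K1 v P) : D.zc P ≠ 0 :=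
  (k1_point_facts D v h1 h2 h4 hP (one_lt_of_k1 D v hK hP)).2.2.2.1

/-- rule `z_lt` -/
theorem v_zc_lt_one' (h1 : v a₁ ≤ 1) (h2 : v a₂ ≤ 1) (h4 : v a₄ ≤ 1) (P : G) (_hP : P ≠ 0)
    (hK : D.K1 v P) : v (D.zc P) < 1 :=
  v_zc_lt_one D v h1 h2 h4 hK

/-- rule `add`: unconditional in `P, Q ∈ K1`. -/
theorem k1_add_and_zc (h1 : v a₁ ≤ 1) (h2 : v a₂ ≤ 1) (h4 : v a₄ ≤ 1) (P Q : G)
    (hP : D.K1 v P) (hQ : D.K1 v Q) :
    D.K1 v (P + Q) ∧
      v (D.zc (P + Q) - D.zc P - D.zc Q) ≤ (max (v (D.zc P)) (v (D.zc Q))) ^ 2 :=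
  ⟨k1_add D v h1 h2 h4 hP hQ, v_zc_add_sub_le D v h1 h2 h4 hP hQ⟩

/-- the negation estimate -/
theorem v_zc_neg_add_le (h1 : v a₁ ≤ 1) (h2 : v a₂ ≤ 1) (h4 : v a₄ ≤ 1) {P : G}
    (hP : D.K1 v P) : v (D.zc (-P) + D.zc P) ≤ v (D.zc P) ^ 2 := by
  have h := v_zc_add_sub_le D v h1 h2 h4 hP (NodalData.K1.neg D v hP)
  rw [add_neg_cancel, zc_zero, zero_sub, sub_eq_add_neg, ← neg_add, Valuation.map_neg,
    add_comm] at h
  refine h.trans ?_
  have hz : v (zc D (-P)) = v (zc D P) := by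
    rw [zc_neg D v h1 h2 h4 hP, map_div₀, Valuation.map_neg]
    have hz := v_zc_lt_one D v h1 h2 h4 hP
    rw [v.map_one_sub_of_lt (lt_of_le_of_lt (v_mul_le v h1 le_rfl) hz), div_one]
  rw [hz, max_self]
  exact le_rfl

/-- `v (zc (-P)) = v (zc P)` on the kernel of reduction. -/
theorem v_zc_neg (h1 : v a₁ ≤ 1) (h2 : v a₂ ≤ 1) (h4 : v a₄ ≤ 1) {P : G}
    (hP : D.K1 v P) : v (D.zc (-P)) = v (D.zc P) := by
  show v (zc D (-P)) = v (zc D P)
  rw [zc_neg D v h1 h2 h4 hP, map_div₀, Valuation.map_neg]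
  have hz := v_zc_lt_one D v h1 h2 h4 hP
  rw [v.map_one_sub_of_lt (lt_of_le_of_lt (v_mul_le v h1 le_rfl) hz), div_one]

/-- (K3) in the shared spelling -/
theorem v_zc_nsmul_sub_le' (h1 : v a₁ ≤ 1) (h2 : v a₂ ≤ 1) (h4 : v a₄ ≤ 1) {P : G}
    (hP : D.K1 v P) (n : ℕ) : v (D.zc (n • P) - n * D.zc P) ≤ v (D.zc P) ^ 2 :=
  v_zc_nsmul_sub_le D v h1 h2 h4 hP n

/-- **(K4) with the standing hypotheses `NodalData.Hyp`**: no `n`-torsion in the kernel of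
reduction for `n` a unit. -/
theorem nsmul_ne_zero_of_hyp (H : NodalData.Hyp v a₁ a₂ a₄) {P : G} (hP : D.K1 v P)
    (hP0 : P ≠ 0) {n : ℕ} (hn : v (n : K) = 1) : n • P ≠ 0 :=
  nsmul_ne_zero_of_k1 D v H.a1 H.a2 H.a4.le hP hP0 hn

/-- `K1` closed under addition, with `NodalData.Hyp`. -/
theorem k1_add_of_hyp (H : NodalData.Hyp v a₁ a₂ a₄) {P Q : G} (hP : D.K1 v P)
    (hQ : D.K1 v Q) : D.K1 v (P + Q) :=
  k1_add D v H.a1 H.a2 H.a4.le hP hQ

/-- `K1` closed under subtraction, with `NodalData.Hyp`. -/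
theorem k1_sub_of_hyp (H : NodalData.Hyp v a₁ a₂ a₄) {P Q : G} (hP : D.K1 v P)
    (hQ : D.K1 v Q) : D.K1 v (P - Q) := by
  rw [sub_eq_add_neg]
  exact k1_add_of_hyp D v H hP (NodalData.K1.neg D v hQ)

/-- the `p`-torsion of the kernel of reduction is trivial when `p` is a unit
(`hK4` of `NodalRational`) -/
theorem eq_zero_of_k1_of_nsmul (H : NodalData.Hyp v a₁ a₂ a₄) {n : ℕ} (hn : v (n : K) = 1)
    (Q : G) (hQ : D.K1 v Q) (hnQ : n • Q = 0) : Q = 0 := by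
  by_contra h0
  exact nsmul_ne_zero_of_hyp D v H hQ h0 hn hnQ

end Fermat.Agent.S13.Local.NodalKernel
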