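import Fermat.Agent.S05.LocalFrey
import Fermat.Agent.S05.FreyLegInst

/-!
# PROJECT G (S13), block LP: the local parameters of the Frey curve at ANY odd prime `q`
(in particular at `q = p`)

Copy of `S05/LocalFrey` without the hypothesis `q ≠ p` (hence without the field `hpA : v p = 1`):
for a Frey package `P`, a field `L` over `ℚ`, a valuation subring `A` of `L` over an odd prime `q`
and `σ : L ≃ₐ[ℚ] L`, the numerical hypotheses of the `p`-adic core argument hold for the three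
Legendre normalisations

* `(e₁, e₂, d) = (a ^ p, -b ^ p, a)`   if `q ∤ b`, `q ∤ c`,
* `(e₁, e₂, d) = (-b ^ p, a ^ p, -b)`  if `q ∤ a`, `q ∤ c`,
* `(e₁, e₂, d) = (-c ^ p, -a ^ p, -c)` if `q ∤ a`, `q ∤ b`,

and one of the three cases always applies.
-/

set_option autoImplicit false
set_option linter.unusedSectionVars false

namespace Fermat.Agent.S13.Local.FreyPArith

open Fermat.Agent.S05.Local Fermat.Agent.S05.FreyInst Fermat.Agent.S05.LocalFrey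

variable {L : Type*} [Field L] [Algebra ℚ L]

/-- The numerical hypotheses of the local argument at a prime `q` which may be equal to `p`:
`S05.LocalFrey.FreyLocal` without `hpA : v p = 1`, plus `v e₁ ≤ 1`. -/
structure FreyLocalP (A : ValuationSubring L) (σ : L →+* L) (e₁ e₂ d : L) (p : ℕ) : Prop where
  h2 : A.valuation (2 : L) = 1
  he2 : A.valuation e₂ = 1
  he12 : A.valuation (e₁ - e₂) = 1
  he1A : A.valuation e₁ ≤ 1
  hd : e₁ = d ^ p
  hd0 : d ≠ 0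
  hdA : A.valuation d ≤ 1
  hσd : σ d = d
  hσe₁ : σ e₁ = e₁
  hσe₂ : σ e₂ = e₂
  he₁0 : e₁ ≠ 0
  he₂0 : e₂ ≠ 0
  he₁₂ : e₁ ≠ e₂

namespace FreyLocalP

variable {A : ValuationSubring L} {σ : L →+* L} {e₁ e₂ d : L} {p : ℕ}

/-- `v (e₂ - e₁) = 1`. -/
theorem he21 (h : FreyLocalP A σ e₁ e₂ d p) : A.valuation (e₂ - e₁) = 1 := by
  rw [Valuation.map_sub_swap]
  exact h.he12

/-- The constant `D = e₂ (e₂ - e₁)` of (VS) is a unit. -/
theorem val_D (h : FreyLocalP A σ e₁ e₂ d p) : A.valuation (e₂ * (e₂ - e₁)) = 1 := by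
  rw [map_mul, h.he2, h.he21, one_mul]

theorem he2A (h : FreyLocalP A σ e₁ e₂ d p) : A.valuation e₂ ≤ 1 := h.he2.le

end FreyLocalP

/-- The package of `S05` (at `q ≠ p`) gives the package here. -/
theorem FreyLocalP.of_freyLocal {A : ValuationSubring L}
    {σ : L →+* L} {e₁ e₂ d : L} {p : ℕ} (h : FreyLocal A σ e₁ e₂ d p) :
    FreyLocalP A σ e₁ e₂ d p where
  h2 := h.h2
  he2 := h.he2
  he12 := h.he12
  he1A := by rw [h.hd, map_pow]; exact pow_le_one' h.hdA p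
  hd := h.hd
  hd0 := h.hd0
  hdA := h.hdA
  hσd := h.hσd
  hσe₁ := h.hσe₁
  hσe₂ := h.hσe₂
  he₁0 := h.he₁0
  he₂0 := h.he₂0
  he₁₂ := h.he₁₂

section

variable (P : FreyPackage) {A : ValuationSubring L} {q : ℕ}

theorem valuation_cA_le_one : A.valuation (cA P L) ≤ 1 := by
  rw [cA_eq_intCast_pow, map_pow]
  exact pow_le_one' (valuation_intCast_le_one _) _

theorem valuation_cB_le_one : A.valuation (cB P L) ≤ 1 := by
  rw [cB_eq_intCast_pow, map_pow]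
  exact pow_le_one' (valuation_intCast_le_one _) _

theorem valuation_cC_le_one : A.valuation (cC P L) ≤ 1 := by
  rw [cC_eq_intCast_pow, map_pow]
  exact pow_le_one' (valuation_intCast_le_one _) _

/-- Normalisation `(e₁, e₂, d) = (a ^ p, -b ^ p, a)`, valid when `q ∤ b` and `q ∤ c`
(`q` any odd prime, `q = p` allowed). -/
theorem freyLocalP_A (hq : q.Prime) (hA : A.LiesOverPrime q) (hq2 : q ≠ 2)
    (hb : ¬ (q : ℤ) ∣ P.b) (hc : ¬ (q : ℤ) ∣ P.c) (σ : L ≃ₐ[ℚ] L) :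
    FreyLocalP A (σ : L →+* L) (cA P L) (-cB P L) ((P.a : ℤ) : L) P.p where
  h2 := valuation_two_eq_one hq hA hq2
  he2 := by rw [Valuation.map_neg]; exact (valuation_cB P hq hA).mpr hb
  he12 := by
    rw [sub_neg_eq_add, cA_add_cB]
    exact (valuation_cC P hq hA).mpr hc
  he1A := valuation_cA_le_one P
  hd := cA_eq_intCast_pow P L
  hd0 := intCast_ne_zero P.ha0
  hdA := valuation_intCast_le_one _
  hσd := algEquiv_intCast σ _
  hσe₁ := algEquiv_cA P σ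
  hσe₂ := by rw [map_neg, algEquiv_cB P σ]
  he₁0 := cA_ne_zero P L
  he₂0 := neg_ne_zero.mpr (cB_ne_zero P L)
  he₁₂ := cA_ne_neg_cB P L

/-- Normalisation `(e₁, e₂, d) = (-b ^ p, a ^ p, -b)`, valid when `q ∤ a` and `q ∤ c`. -/
theorem freyLocalP_B (hq : q.Prime) (hA : A.LiesOverPrime q) (hq2 : q ≠ 2)
    (ha : ¬ (q : ℤ) ∣ P.a) (hc : ¬ (q : ℤ) ∣ P.c) (σ : L ≃ₐ[ℚ] L) :
    FreyLocalP A (σ : L →+* L) (-cB P L) (cA P L) (-((P.b : ℤ) : L)) P.p where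
  h2 := valuation_two_eq_one hq hA hq2
  he2 := (valuation_cA P hq hA).mpr ha
  he12 := by
    have : -cB P L - cA P L = -(cC P L) := by rw [← cA_add_cB]; ring
    rw [this, Valuation.map_neg]
    exact (valuation_cC P hq hA).mpr hc
  he1A := by rw [Valuation.map_neg]; exact valuation_cB_le_one P
  hd := by rw [neg_pow_odd, cB_eq_intCast_pow P L]
  hd0 := neg_ne_zero.mpr (intCast_ne_zero P.hb0)
  hdA := by rw [Valuation.map_neg]; exact valuation_intCast_le_one _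
  hσd := by rw [map_neg, algEquiv_intCast σ _]
  hσe₁ := by rw [map_neg, algEquiv_cB P σ]
  hσe₂ := algEquiv_cA P σ
  he₁0 := neg_ne_zero.mpr (cB_ne_zero P L)
  he₂0 := cA_ne_zero P L
  he₁₂ := (cA_ne_neg_cB P L).symm

/-- Normalisation `(e₁, e₂, d) = (-c ^ p, -a ^ p, -c)`, valid when `q ∤ a` and `q ∤ b`. -/
theorem freyLocalP_C (hq : q.Prime) (hA : A.LiesOverPrime q) (hq2 : q ≠ 2)
    (ha : ¬ (q : ℤ) ∣ P.a) (hb : ¬ (q : ℤ) ∣ P.b) (σ : L ≃ₐ[ℚ] L) :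
    FreyLocalP A (σ : L →+* L) (-cC P L) (-cA P L) (-((P.c : ℤ) : L)) P.p where
  h2 := valuation_two_eq_one hq hA hq2
  he2 := by rw [Valuation.map_neg]; exact (valuation_cA P hq hA).mpr ha
  he12 := by
    have : -cC P L - -cA P L = -(cB P L) := by rw [← cA_add_cB]; ring
    rw [this, Valuation.map_neg]
    exact (valuation_cB P hq hA).mpr hb
  he1A := by rw [Valuation.map_neg]; exact valuation_cC_le_one P
  hd := by rw [neg_pow_odd, cC_eq_intCast_pow P L]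
  hd0 := neg_ne_zero.mpr (intCast_ne_zero P.hc0)
  hdA := by rw [Valuation.map_neg]; exact valuation_intCast_le_one _
  hσd := by rw [map_neg, algEquiv_intCast σ _]
  hσe₁ := by rw [map_neg, algEquiv_cC P σ]
  hσe₂ := by rw [map_neg, algEquiv_cA P σ]
  he₁0 := neg_ne_zero.mpr (cC_ne_zero P L)
  he₂0 := neg_ne_zero.mpr (cA_ne_zero P L)
  he₁₂ := Fermat.Agent.S05.FreyLegInst.negC_ne_negA P L

/-! ### At `q = p` -/

theorem p_ne_two : P.p ≠ 2 := by
  have := P.hp5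
  omega

/-- The case distinction at `p`: one of the three normalisations applies. -/
theorem frey_three_cases_p :
    (¬ (P.p : ℤ) ∣ P.b ∧ ¬ (P.p : ℤ) ∣ P.c) ∨ (¬ (P.p : ℤ) ∣ P.a ∧ ¬ (P.p : ℤ) ∣ P.c) ∨
      (¬ (P.p : ℤ) ∣ P.a ∧ ¬ (P.p : ℤ) ∣ P.b) :=
  frey_three_cases P P.pp

/-- Leg A at a place over `p`. -/
theorem freyLocalP_A_p (hA : A.LiesOverPrime P.p)
    (hb : ¬ (P.p : ℤ) ∣ P.b) (hc : ¬ (P.p : ℤ) ∣ P.c) (σ : L ≃ₐ[ℚ] L) :
    FreyLocalP A (σ : L →+* L) (cA P L) (-cB P L) ((P.a : ℤ) : L) P.p :=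
  freyLocalP_A P P.pp hA (p_ne_two P) hb hc σ

/-- Leg B at a place over `p`. -/
theorem freyLocalP_B_p (hA : A.LiesOverPrime P.p)
    (ha : ¬ (P.p : ℤ) ∣ P.a) (hc : ¬ (P.p : ℤ) ∣ P.c) (σ : L ≃ₐ[ℚ] L) :
    FreyLocalP A (σ : L →+* L) (-cB P L) (cA P L) (-((P.b : ℤ) : L)) P.p :=
  freyLocalP_B P P.pp hA (p_ne_two P) ha hc σ

/-- Leg C at a place over `p`. -/
theorem freyLocalP_C_p (hA : A.LiesOverPrime P.p)
    (ha : ¬ (P.p : ℤ) ∣ P.a) (hb : ¬ (P.p : ℤ) ∣ P.b) (σ : L ≃ₐ[ℚ] L) :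
    FreyLocalP A (σ : L →+* L) (-cC P L) (-cA P L) (-((P.c : ℤ) : L)) P.p :=
  freyLocalP_C P P.pp hA (p_ne_two P) ha hb σ

/-- At a place over any odd prime `q` (e.g. `q = p`), one of the three legs carries the local
package, for every `σ`. -/
theorem exists_freyLocalP (hq : q.Prime) (hA : A.LiesOverPrime q) (hq2 : q ≠ 2) :
    (∀ σ : L ≃ₐ[ℚ] L,
        FreyLocalP A (σ : L →+* L) (cA P L) (-cB P L) ((P.a : ℤ) : L) P.p) ∨
      (∀ σ : L ≃ₐ[ℚ] L,
        FreyLocalP A (σ : L →+* L) (-cB P L) (cA P L) (-((P.b : ℤ) : L)) P.p) ∨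
      (∀ σ : L ≃ₐ[ℚ] L,
        FreyLocalP A (σ : L →+* L) (-cC P L) (-cA P L) (-((P.c : ℤ) : L)) P.p) := by
  rcases frey_three_cases P hq with h | h | h
  · exact Or.inl fun σ => freyLocalP_A P hq hA hq2 h.1 h.2 σ
  · exact Or.inr (Or.inl fun σ => freyLocalP_B P hq hA hq2 h.1 h.2 σ)
  · exact Or.inr (Or.inr fun σ => freyLocalP_C P hq hA hq2 h.1 h.2 σ)

/-- The same at `q = p`. -/
theorem exists_freyLocalP_p (hA : A.LiesOverPrime P.p) :
    (∀ σ : L ≃ₐ[ℚ] L,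
        FreyLocalP A (σ : L →+* L) (cA P L) (-cB P L) ((P.a : ℤ) : L) P.p) ∨
      (∀ σ : L ≃ₐ[ℚ] L,
        FreyLocalP A (σ : L →+* L) (-cB P L) (cA P L) (-((P.b : ℤ) : L)) P.p) ∨
      (∀ σ : L ≃ₐ[ℚ] L,
        FreyLocalP A (σ : L →+* L) (-cC P L) (-cA P L) (-((P.c : ℤ) : L)) P.p) :=
  exists_freyLocalP P P.pp hA (p_ne_two P)

end

/-! ### The discriminant -/

section Disc

open WeierstrassCurve

variable (P : FreyPackage) (K : Type*) [Field K] [Algebra ℚ K]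

/-- `Δ ≠ 0` for the Frey curve over any field over `ℚ` (restatement of `S05.FreyInst.Δ_ne_zero`). -/
theorem freyCurve_Δ_ne_zero : (P.freyCurve⁄K).Δ ≠ 0 := Δ_ne_zero P K

/-- `Δ ≠ 0` in the `WeierstrassCurve.map` spelling. -/
theorem freyCurve_map_Δ_ne_zero : (P.freyCurve.map (algebraMap ℚ K)).Δ ≠ 0 :=
  Δ_ne_zero P K

/-- `Δ ≠ 0` over `ℚ̄`. -/
theorem freyCurve_Δ_ne_zero_algClosure : (P.freyCurve⁄(AlgebraicClosure ℚ)).Δ ≠ 0 :=
  Δ_ne_zero P _

/-- The Frey curve over `ℚ` itself has `Δ ≠ 0`. -/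
theorem freyCurve_Δ_ne_zero_rat : P.freyCurve.Δ ≠ 0 := by
  have h := Δ_ne_zero P ℚ
  intro h0
  apply h
  show (P.freyCurve.map (algebraMap ℚ ℚ)).Δ = 0
  rw [WeierstrassCurve.map_Δ, h0, map_zero]

end Disc

end Fermat.Agent.S13.Local.FreyPArith
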