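/-
PROJECT G (S13), slice G-L6a (helper24): arithmetic of the Frey curve at the prime `2`.

For a Frey package `P`, a field `K ⊇ ℚ` and a valuation subring `A` of `K` lying over `2`
(`v := A.valuation`), the curve `E := P.freyCurve⁄K : y² + xy = x³ + a₂x² + a₄x` satisfies
the standing hypotheses `Hyp v a₁ a₂ a₄` of `S13/Local/NodalDefs` (integral model, node at `(0,0)`
modulo `2`), `v a₄ = v 2 ^ k` with `k = p·v₂(b) - 4` not divisible by `p`, and rational numbers
have valuations in `v 2 ^ ℤ` and satisfy the dichotomy "`≡ 0` or `≡ 1` modulo `2`".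
-/
import Mathlib
import Fermat.Agent.S05.FreyInst
import Fermat.Agent.S05.LocalVal
import Fermat.Agent.S13.Local.NodalDefs
import Fermat.Agent.S13.Local.NodalInst

set_option autoImplicit false

namespace Fermat.Agent.S13.Local.FreyTwoArith

open WeierstrassCurve Fermat.Agent.S05 Fermat.Agent.S13.Local

/-! ### Integer arithmetic of a Frey package at `2` -/

section IntArith

variable (P : FreyPackage)

theorem two_dvd_b : (2 : ℤ) ∣ P.b :=
  (ZMod.intCast_zmod_eq_zero_iff_dvd P.b 2).1 P.hb2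

theorem four_dvd_a_add_one : (4 : ℤ) ∣ P.a + 1 := by
  have h : ((P.a + 1 : ℤ) : ZMod 4) = 0 := by
    push_cast
    rw [P.ha4]
    decide
  exact (ZMod.intCast_zmod_eq_zero_iff_dvd (P.a + 1) 4).1 h

theorem not_two_dvd_a : ¬ (2 : ℤ) ∣ P.a := by
  have := four_dvd_a_add_one P
  omega

theorem two_le_p : 2 ≤ P.p := le_trans (by norm_num) P.hp5

theorem four_dvd_b_pow : (4 : ℤ) ∣ P.b ^ P.p := by
  obtain ⟨k, hk⟩ := two_dvd_b P
  obtain ⟨m, hm⟩ := Nat.exists_eq_add_of_le (two_le_p P)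
  rw [hk, hm]
  exact ⟨2 ^ m * k ^ 2 * k ^ m, by ring⟩

theorem four_dvd_a_pow_add_one : (4 : ℤ) ∣ P.a ^ P.p + 1 := by
  have h := Odd.add_dvd_pow_add_pow P.a 1 P.hp_odd
  rw [one_pow] at h
  exact (four_dvd_a_add_one P).trans h

/-- `a₂` of the Frey curve is an integer. -/
theorem four_dvd_a2_num : (4 : ℤ) ∣ P.b ^ P.p - 1 - P.a ^ P.p := by
  have h1 := four_dvd_b_pow P
  have h2 := four_dvd_a_pow_add_one P
  have : P.b ^ P.p - 1 - P.a ^ P.p = P.b ^ P.p - (P.a ^ P.p + 1) := by ring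
  rw [this]
  exact dvd_sub h1 h2

theorem not_two_dvd_a_pow : ¬ (2 : ℤ) ∣ P.a ^ P.p := fun h =>
  not_two_dvd_a P (Int.prime_two.dvd_of_dvd_pow h)

/-- `b₂ = b^p - a^p` is odd. -/
theorem not_two_dvd_b2 : ¬ (2 : ℤ) ∣ P.b ^ P.p - P.a ^ P.p := by
  intro h
  have h1 : (2 : ℤ) ∣ P.b ^ P.p := dvd_pow (two_dvd_b P) P.hp0
  exact not_two_dvd_a_pow P ((dvd_sub_right h1).mp h)

/-- `b = 2 ^ s * m` with `m` odd and `s ≥ 1`. -/
theorem exists_b_eq : ∃ (s : ℕ) (m : ℤ), 1 ≤ s ∧ ¬ (2 : ℤ) ∣ m ∧ P.b = 2 ^ s * m := by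
  obtain ⟨m, hm, hodd⟩ :=
    (Int.finiteMultiplicity_iff.mpr ⟨by norm_num, P.hb0⟩ :
      FiniteMultiplicity (2 : ℤ) P.b).exists_eq_pow_mul_and_not_dvd
  refine ⟨multiplicity (2 : ℤ) P.b, m, ?_, hodd, hm⟩
  by_contra h
  have h0 : multiplicity (2 : ℤ) P.b = 0 := by omega
  rw [h0, pow_zero, one_mul] at hm
  exact hodd (hm ▸ two_dvd_b P)

end IntArith

/-! ### Valuations of integers and rationals at a place over `2` -/

section Val

variable {K : Type*} [Field K] {A : ValuationSubring K}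

theorem v_two_lt_one (hA : A.LiesOverPrime 2) : A.valuation (2 : K) < 1 := by
  have := LocalVal.q_valuation_lt_one hA
  simpa using this

theorem v_two_ne_zero [CharZero K] : A.valuation (2 : K) ≠ 0 :=
  (Valuation.ne_zero_iff _).mpr two_ne_zero

theorem v_odd (hA : A.LiesOverPrime 2) {n : ℤ} (hn : ¬ (2 : ℤ) ∣ n) :
    A.valuation (n : K) = 1 :=
  LocalVal.intCast_valuation_eq_one Nat.prime_two hA (by simpa using hn)

theorem v_even (hA : A.LiesOverPrime 2) {n : ℤ} (hn : (2 : ℤ) ∣ n) :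
    A.valuation (n : K) < 1 :=
  LocalVal.intCast_valuation_lt_one Nat.prime_two hA (by simpa using hn)

/-- A nonzero integer has valuation `v 2 ^ s`. -/
theorem exists_v_intCast (hA : A.LiesOverPrime 2) {n : ℤ} (hn : n ≠ 0) :
    ∃ s : ℕ, A.valuation (n : K) = A.valuation (2 : K) ^ s := by
  obtain ⟨m, hm, hodd⟩ :=
    (Int.finiteMultiplicity_iff.mpr ⟨by norm_num, hn⟩ :
      FiniteMultiplicity (2 : ℤ) n).exists_eq_pow_mul_and_not_dvd
  refine ⟨multiplicity (2 : ℤ) n, ?_⟩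
  conv_lhs => rw [hm]
  push_cast
  rw [map_mul, map_pow, v_odd hA hodd, mul_one]

/-- A nonzero rational has valuation `v 2 ^ m`, `m : ℤ`. -/
theorem exists_v_ratCast [CharZero K] (hA : A.LiesOverPrime 2) {r : ℚ} (hr : r ≠ 0) :
    ∃ m : ℤ, A.valuation (r : K) = A.valuation (2 : K) ^ m := by
  obtain ⟨s, hs⟩ := exists_v_intCast (K := K) hA (Rat.num_ne_zero.mpr hr)
  obtain ⟨t, ht⟩ := exists_v_intCast (K := K) hA
    (show ((r.den : ℕ) : ℤ) ≠ 0 from by exact_mod_cast r.den_ne_zero)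
  refine ⟨(s : ℤ) - t, ?_⟩
  rw [Rat.cast_def, map_div₀, hs]
  have ht' : A.valuation ((r.den : ℕ) : K) = A.valuation (2 : K) ^ t := by
    have := ht
    push_cast at this
    exact this
  rw [ht', zpow_sub₀ v_two_ne_zero, zpow_natCast, zpow_natCast]

/-- Integral rationals have odd denominator. -/
theorem den_odd_of_v_le_one [CharZero K] (hA : A.LiesOverPrime 2) {r : ℚ}
    (hle : A.valuation (r : K) ≤ 1) : ¬ (2 : ℤ) ∣ (r.den : ℤ) := by
  intro hd
  have hnum : ¬ (2 : ℤ) ∣ r.num := by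
    intro hn
    have h1 : 2 ∣ r.num.natAbs := Int.natCast_dvd.mp (by simpa using hn)
    have h2 : 2 ∣ r.den := Int.natCast_dvd_natCast.mp (by simpa using hd)
    have := Nat.dvd_gcd h1 h2
    rw [r.reduced] at this
    omega
  have hvn : A.valuation ((r.num : ℤ) : K) = 1 := v_odd hA hnum
  have hvd : A.valuation (((r.den : ℕ) : ℤ) : K) < 1 := v_even hA hd
  have hd0 : A.valuation ((r.den : ℕ) : K) ≠ 0 :=
    (Valuation.ne_zero_iff _).mpr (by exact_mod_cast r.den_ne_zero)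
  rw [Rat.cast_def, map_div₀, hvn] at hle
  push_cast at hvd
  have : (1 : _) ≤ A.valuation ((r.den : ℕ) : K) := by
    rwa [div_le_iff₀ (zero_lt_iff.mpr hd0), one_mul] at hle
  exact absurd hvd (not_lt.mpr this)

/-- **Dichotomy modulo `2`**: an integral rational is `≡ 0` or `≡ 1`. -/
theorem v_ratCast_lt_or_sub_one_lt [CharZero K] (hA : A.LiesOverPrime 2) {r : ℚ}
    (hle : A.valuation (r : K) ≤ 1) :
    A.valuation (r : K) < 1 ∨ A.valuation ((r : K) - 1) < 1 := by
  have hden := den_odd_of_v_le_one hA hle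
  have hvd : A.valuation ((r.den : ℕ) : K) = 1 := by
    have := v_odd (K := K) hA hden
    push_cast at this
    exact this
  have hd0 : ((r.den : ℕ) : K) ≠ 0 := by exact_mod_cast r.den_ne_zero
  by_cases hn : (2 : ℤ) ∣ r.num
  · left
    rw [Rat.cast_def, map_div₀, hvd, div_one]
    exact v_even hA hn
  · right
    have hsub : (r : K) - 1 = ((r.num - (r.den : ℤ) : ℤ) : K) / ((r.den : ℕ) : K) := by
      rw [Rat.cast_def]
      push_cast
      field_simp
    have heven : (2 : ℤ) ∣ r.num - (r.den : ℤ) := by omega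
    rw [hsub, map_div₀, hvd, div_one]
    exact v_even hA heven

/-- Two integral rationals in the same class modulo `2` are congruent. -/
theorem v_sub_lt_of_same_class [CharZero K] (hA : A.LiesOverPrime 2) {r r' : ℚ}
    (hle : A.valuation (r : K) ≤ 1) (hle' : A.valuation (r' : K) ≤ 1)
    (h : A.valuation (r : K) < 1 ↔ A.valuation (r' : K) < 1) :
    A.valuation ((r : K) - (r' : K)) < 1 := by
  by_cases h1 : A.valuation (r : K) < 1
  · exact lt_of_le_of_lt (Valuation.map_sub _ _ _) (max_lt h1 (h.mp h1))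
  · have h2 : ¬ A.valuation (r' : K) < 1 := fun h' => h1 (h.mpr h')
    have h3 := (v_ratCast_lt_or_sub_one_lt hA hle).resolve_left h1
    have h4 := (v_ratCast_lt_or_sub_one_lt hA hle').resolve_left h2
    have : (r : K) - (r' : K) = ((r : K) - 1) - ((r' : K) - 1) := by ring
    rw [this]
    exact lt_of_le_of_lt (Valuation.map_sub _ _ _) (max_lt h3 h4)

/-- A rational unit at `2` is `≡ 1` modulo `2`. -/
theorem v_sub_one_lt_of_v_eq_one [CharZero K] (hA : A.LiesOverPrime 2) {r : ℚ}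
    (h : A.valuation (r : K) = 1) : A.valuation ((r : K) - 1) < 1 :=
  (v_ratCast_lt_or_sub_one_lt hA h.le).resolve_left (by rw [h]; exact lt_irrefl _)

section AlgebraMap

variable [Algebra ℚ K]

theorem exists_v_algebraMap (hA : A.LiesOverPrime 2) {r : ℚ} (hr : r ≠ 0) :
    ∃ m : ℤ, A.valuation (algebraMap ℚ K r) = A.valuation (2 : K) ^ m := by
  have := FreyInst.charZero K
  rw [eq_ratCast]
  exact exists_v_ratCast hA hr

theorem v_algebraMap_lt_or_sub_one_lt (hA : A.LiesOverPrime 2) {r : ℚ}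
    (hle : A.valuation (algebraMap ℚ K r) ≤ 1) :
    A.valuation (algebraMap ℚ K r) < 1 ∨ A.valuation (algebraMap ℚ K r - 1) < 1 := by
  have := FreyInst.charZero K
  rw [eq_ratCast] at hle ⊢
  exact v_ratCast_lt_or_sub_one_lt hA hle

theorem v_algebraMap_sub_lt_of_same_class (hA : A.LiesOverPrime 2) {r r' : ℚ}
    (hle : A.valuation (algebraMap ℚ K r) ≤ 1) (hle' : A.valuation (algebraMap ℚ K r') ≤ 1)
    (h : A.valuation (algebraMap ℚ K r) < 1 ↔ A.valuation (algebraMap ℚ K r') < 1) :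
    A.valuation (algebraMap ℚ K r - algebraMap ℚ K r') < 1 := by
  have := FreyInst.charZero K
  simp only [eq_ratCast] at hle hle' h ⊢
  exact v_sub_lt_of_same_class hA hle hle' h

end AlgebraMap

end Val

/-! ### The Frey curve at `2` -/

section Frey

variable (P : FreyPackage) {K : Type*} [Field K] [Algebra ℚ K] {A : ValuationSubring K}

/-- `P.freyCurve⁄K` is of nodal form `y² + a₁xy = x³ + a₂x² + a₄x` with `Δ ≠ 0`. -/
theorem isNodalForm : NodalInst.IsNodalForm (P.freyCurve⁄K) :=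
  ⟨FreyInst.a₃_eq P K, FreyInst.a₆_eq P K, FreyInst.Δ_ne_zero P K⟩

/-- `a₂` is the cast of an integer. -/
theorem exists_a2_eq : ∃ m : ℤ, (P.freyCurve⁄K).a₂ = (m : K) := by
  have := FreyInst.charZero K
  obtain ⟨m, hm⟩ := four_dvd_a2_num P
  refine ⟨m, ?_⟩
  rw [FreyInst.a₂_eq, FreyInst.cA_eq_intCast_pow, FreyInst.cB_eq_intCast_pow]
  have h : ((P.b : K)) ^ P.p - 1 - (P.a : K) ^ P.p = 4 * (m : K) := by
    have := congrArg (fun z : ℤ => (z : K)) hm
    push_cast at this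
    exact this
  rw [h]
  field_simp

theorem a2_mem : (P.freyCurve⁄K).a₂ ∈ A := by
  obtain ⟨m, hm⟩ := exists_a2_eq (K := K) P
  rw [hm]
  exact LocalVal.intCast_mem A m

theorem v_a1 : A.valuation (P.freyCurve⁄K).a₁ ≤ 1 := by
  rw [FreyInst.a₁_eq, map_one]

theorem v_a2 : A.valuation (P.freyCurve⁄K).a₂ ≤ 1 :=
  (A.valuation_le_one_iff _).mpr (a2_mem P)

/-- `b₂ = a₁² + 4 a₂ = b^p - a^p`. -/
theorem b2_eq : (P.freyCurve⁄K).a₁ ^ 2 + 4 * (P.freyCurve⁄K).a₂ =
    ((P.b ^ P.p - P.a ^ P.p : ℤ) : K) := by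
  have h := FreyInst.four_a₂_add_one P K
  rw [FreyInst.a₁_eq, FreyInst.cA_eq_intCast_pow, FreyInst.cB_eq_intCast_pow] at *
  push_cast
  linear_combination h

theorem v_b2 (hA : A.LiesOverPrime 2) :
    A.valuation ((P.freyCurve⁄K).a₁ ^ 2 + 4 * (P.freyCurve⁄K).a₂) = 1 := by
  rw [b2_eq]
  exact v_odd hA (not_two_dvd_b2 P)

/-- `v a₄ = v 2 ^ (p s - 4)`, `s = v₂(b) ≥ 1`. -/
theorem exists_v_a4 (hA : A.LiesOverPrime 2) :
    ∃ k : ℕ, 1 ≤ k ∧ A.valuation (P.freyCurve⁄K).a₄ = A.valuation (2 : K) ^ k ∧ ¬ P.p ∣ k := by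
  have := FreyInst.charZero K
  obtain ⟨s, m, hs, hm, hb⟩ := exists_b_eq P
  have hp5 := P.hp5
  have hsp : 5 ≤ s * P.p := by nlinarith
  refine ⟨s * P.p - 4, by omega, ?_, ?_⟩
  · have h16 := FreyInst.sixteen_a₄ P K
    rw [FreyInst.cA_eq_intCast_pow, FreyInst.cB_eq_intCast_pow] at h16
    have hva : A.valuation ((P.a : K) ^ P.p) = 1 := by
      rw [map_pow, v_odd hA (not_two_dvd_a P), one_pow]
    have hvb : A.valuation ((P.b : K) ^ P.p) = A.valuation (2 : K) ^ (s * P.p) := by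
      rw [hb]
      push_cast
      rw [map_pow, map_mul, map_pow, v_odd hA hm, mul_one, ← pow_mul]
    have h := congrArg A.valuation h16
    rw [map_mul, Valuation.map_neg, map_mul, hva, hvb, one_mul] at h
    have h16' : A.valuation (16 : K) = A.valuation (2 : K) ^ 4 := by
      rw [← map_pow]; norm_num
    rw [h16'] at h
    have hsplit : A.valuation (2 : K) ^ (s * P.p) =
        A.valuation (2 : K) ^ 4 * A.valuation (2 : K) ^ (s * P.p - 4) := by
      rw [← pow_add]; congr 1; omega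
    rw [hsplit] at h
    exact mul_left_cancel₀ (pow_ne_zero 4 v_two_ne_zero) h
  · intro hdvd
    have h1 : P.p ∣ s * P.p := Dvd.intro_left s rfl
    have h2 : P.p ∣ s * P.p - (s * P.p - 4) := Nat.dvd_sub h1 hdvd
    have h3 : s * P.p - (s * P.p - 4) = 4 := by omega
    rw [h3] at h2
    have := Nat.le_of_dvd (by norm_num) h2
    omega

theorem v_a4_lt_one (hA : A.LiesOverPrime 2) : A.valuation (P.freyCurve⁄K).a₄ < 1 := by
  obtain ⟨k, hk, hv, -⟩ := exists_v_a4 (K := K) P hA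
  rw [hv]
  exact pow_lt_one₀ zero_le (v_two_lt_one hA) (by omega)

/-- **The standing hypotheses of the nodal calculus hold for the Frey curve at `2`.** -/
theorem hyp (hA : A.LiesOverPrime 2) :
    NodalData.Hyp A.valuation (P.freyCurve⁄K).a₁ (P.freyCurve⁄K).a₂ (P.freyCurve⁄K).a₄ :=
  ⟨v_a1 P, v_a2 P, v_a4_lt_one P hA, v_b2 P hA⟩

/-- The abstract nodal data of the Frey curve over `K` (plain affine coordinates). -/
noncomputable def freyNodal [DecidableEq K] :
    NodalData K (P.freyCurve⁄K).toAffine.Point (P.freyCurve⁄K).a₁ (P.freyCurve⁄K).a₂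
      (P.freyCurve⁄K).a₄ :=
  NodalInst.nodalData (isNodalForm P)

@[simp] theorem freyNodal_X [DecidableEq K] :
    (freyNodal (K := K) P).X = NodalInst.ptX (P.freyCurve⁄K) := rfl

@[simp] theorem freyNodal_Y [DecidableEq K] :
    (freyNodal (K := K) P).Y = NodalInst.ptY (P.freyCurve⁄K) := rfl

end Frey

/-! ### Integrality of `Y` -/

section Integral

variable {K : Type*} [Field K] {Γ₀ : Type*} [LinearOrderedCommGroupWithZero Γ₀]
  {v : Valuation K Γ₀} {a₁ a₂ a₄ : K}

/-- On an integral model, a point with integral `x` has integral `y`. -/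
theorem v_y_le_one (H : NodalData.Hyp v a₁ a₂ a₄) {x y : K} (hx : v x ≤ 1)
    (h : y ^ 2 + a₁ * x * y = x ^ 3 + a₂ * x ^ 2 + a₄ * x) : v y ≤ 1 := by
  by_contra hy
  rw [not_le] at hy
  have hrhs : v (x ^ 3 + a₂ * x ^ 2 + a₄ * x) ≤ 1 := by
    refine le_trans (v.map_add _ _) (max_le (le_trans (v.map_add _ _) (max_le ?_ ?_)) ?_)
    · rw [map_pow]; exact pow_le_one₀ zero_le hx
    · rw [map_mul, map_pow]
      exact mul_le_one₀ H.a2 zero_le (pow_le_one₀ zero_le hx)
    · rw [map_mul]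
      exact mul_le_one₀ H.a4.le zero_le hx
  have hlhs : v (y ^ 2 + a₁ * x * y) = v y ^ 2 := by
    have h1 : v (a₁ * x * y) < v (y ^ 2) := by
      rw [map_mul, map_mul, map_pow, pow_two]
      have h0 : 0 < v y := lt_trans zero_lt_one hy
      have h2 : v a₁ * v x ≤ 1 := mul_le_one₀ H.a1 zero_le hx
      calc v a₁ * v x * v y ≤ 1 * v y := mul_le_mul_left h2 _
        _ < v y * v y := by rw [one_mul]; exact lt_mul_of_one_lt_left h0 hy
    rw [Valuation.map_add_eq_of_lt_left _ h1, map_pow]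
  rw [h] at hlhs
  rw [hlhs] at hrhs
  have : 1 < v y ^ 2 := one_lt_pow₀ hy two_ne_zero
  exact absurd hrhs (not_le.mpr this)

end Integral

end Fermat.Agent.S13.Local.FreyTwoArith
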