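import Fermat.Agent.S05.Kernel
import Fermat.Agent.S13.InertiaInvariant

/-!
# PROJECT G (S13), slice LP-2: the exclusion argument (Excl)

`D : LegData ℚ̄ G e₁ e₂` abstract Legendre coordinates (`Y² = X (X - e₁) (X - e₂)`), `A` a valuation
subring of `ℚ̄` over the prime `q`, `Vs` a finite set of nonzero points all lying in the kernel of
reduction `K1`, satisfying the valuation-sum identity

  `(∏_{T ∈ Vs} (X T - e₂))² = (e₂ (e₂ - e₁))ⁿ / q⁴`,   `e₂ (e₂ - e₁)` a unit at `A`,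

and `Ns ⊆ Vs` a nonempty proper subset stable (together with `Vs`) under the inertia group of `A`.
Then `False`.

Proof: with `τ = X / Y` one has `v (X T - e₂) = v (X T) = v (τ T)⁻²`, so the identity gives
`v (∏ τ T) = v q`; but `∏_{T ∈ Ns} τ T` is a nonzero non-unit fixed by inertia, so its valuation is
`≤ v q` (`InertiaInvariant.valuation_le_of_fixed`), and the remaining factors are non-units.
-/

set_option autoImplicit false
set_option linter.unusedSectionVars false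

namespace Fermat.Agent.S13.Local.Excl

open Fermat.Agent.S05 Fermat.Agent.S05.LegData Fermat.Agent.S05.Kernel
  Fermat.Agent.S13.InertiaInvariant

local notation "Qbar" => AlgebraicClosure ℚ

variable {G : Type*} [AddCommGroup G] {e₁ e₂ : Qbar} (D : LegData Qbar G e₁ e₂)
  {A : ValuationSubring Qbar}

/-- For a nonzero point of the kernel of reduction: `v (X T) * v (τ T) ^ 2 = 1`. -/
theorem valuation_X_mul_tau_sq (he₁ : A.valuation e₁ ≤ 1) (he₂ : A.valuation e₂ ≤ 1) {T : G}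
    (hT0 : T ≠ 0) (hK : D.K1 A T) :
    A.valuation (D.X T) * A.valuation (tau D T) ^ 2 = 1 := by
  have hXT : 1 < A.valuation (D.X T) := hK.resolve_left hT0
  have hs : A.valuation (e₁ + e₂) ≤ 1 :=
    le_trans (A.valuation.map_add _ _) (max_le he₁ he₂)
  have hb : A.valuation (e₁ * e₂) ≤ 1 := by
    rw [map_mul]; exact mul_le_one' he₁ he₂
  have hc1 : D.Y T ^ 2 = D.X T ^ 3 - (e₁ + e₂) * D.X T ^ 2 + e₁ * e₂ * D.X T := by
    rw [D.eqn T hT0]; ring
  obtain ⟨hX0, -, -, h4, h5, -, -⟩ := point_facts A.valuation hs hb hXT hc1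
  rw [tau_of_ne D hT0]
  have h6 := congrArg A.valuation h5
  rw [map_mul, h4, mul_one, map_pow, map_inv₀] at h6
  rw [h6]
  exact mul_inv_cancel₀ (by rwa [Ne, map_eq_zero])

/-- For a nonzero point of the kernel of reduction and `e ∈ A`: `v (X T - e) = v (X T)`. -/
theorem valuation_X_sub (he₂ : A.valuation e₂ ≤ 1) {T : G} (hT0 : T ≠ 0) (hK : D.K1 A T) :
    A.valuation (D.X T - e₂) = A.valuation (D.X T) := by
  have hXT : 1 < A.valuation (D.X T) := hK.resolve_left hT0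
  exact A.valuation.map_sub_eq_of_lt_left (lt_of_le_of_lt he₂ hXT)

/-- The parameter `τ` is equivariant for an inertia element. -/
theorem tau_map {σ : Qbar →+* Qbar} {s : G →+ G} (hs : D.InertiaAct A σ s) {T : G} (hT0 : T ≠ 0) :
    tau D (s T) = σ (tau D T) := by
  have hsT : s T ≠ 0 := fun h => hT0 (hs.inj T h)
  rw [tau_of_ne D hsT, tau_of_ne D hT0, hs.X_map T hT0, hs.Y_map T hT0, map_div₀]

/-- **(Excl)** The exclusion argument, abstract form. -/
theorem excl (q : ℕ) [Fact q.Prime] (hA : A.LiesOverPrime q)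
    (he₁ : A.valuation e₁ ≤ 1) (he₂ : A.valuation e₂ ≤ 1)
    (hD : A.valuation (e₂ * (e₂ - e₁)) = 1)
    (Vs : Finset G) (hV0 : ∀ T ∈ Vs, T ≠ 0) (hK1 : ∀ T ∈ Vs, D.K1 A T) (n : ℕ)
    (hVS : (∏ T ∈ Vs, (D.X T - e₂)) ^ 2 = (e₂ * (e₂ - e₁)) ^ n / ((q : ℕ) : Qbar) ^ 4)
    (Ns : Finset G) (hNV : Ns ⊆ Vs) (hN : Ns.Nonempty) (hNc : ∃ T ∈ Vs, T ∉ Ns)
    (hact : ∀ σ ∈ A.inertiaSubgroupIn ℚ, ∃ f : G →+ G,
      D.InertiaAct A ((σ : Qbar ≃ₐ[ℚ] Qbar) : Qbar →+* Qbar) f ∧ (∀ T ∈ Vs, f T ∈ Vs) ∧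
        ∀ T ∈ Ns, f T ∈ Ns) : False := by
  classical
  set v := A.valuation with hv
  have hq0 : ((q : ℕ) : Qbar) ≠ 0 := by exact_mod_cast (Fact.out : q.Prime).ne_zero
  have hvq0 : v ((q : ℕ) : Qbar) ≠ 0 := by rwa [Ne, map_eq_zero]
  -- the family `z`
  let ι := {T : G // T ∈ Vs}
  let z : ι → Qbar := fun T => tau D T.1
  have hz0 : ∀ i : ι, z i ≠ 0 := fun i =>
    (tau_facts he₁ he₂ (hV0 i.1 i.2) (hK1 i.1 i.2)).2
  have hz : ∀ i : ι, v (z i) < 1 := fun i =>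
    (tau_facts he₁ he₂ (hV0 i.1 i.2) (hK1 i.1 i.2)).1
  let N' : Finset ι := Finset.univ.filter fun i => i.1 ∈ Ns
  have hN' : N'.Nonempty := by
    obtain ⟨T, hT⟩ := hN
    exact ⟨⟨T, hNV hT⟩, by simp [N', hT]⟩
  have hNc' : ∃ i : ι, i ∉ N' := by
    obtain ⟨T, hTV, hTN⟩ := hNc
    exact ⟨⟨T, hTV⟩, by simp [N', hTN]⟩
  have hstab : ∀ σ ∈ A.inertiaSubgroupIn ℚ, ∃ e : Equiv.Perm ι, (∀ i ∈ N', e i ∈ N') ∧
      ∀ i, σ (z i) = z (e i) := by
    intro σ hσ
    obtain ⟨f, hf, hfV, hfN⟩ := hact σ hσ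
    have hinj : Function.Injective f := (injective_iff_map_eq_zero f).mpr hf.inj
    let g : ι → ι := fun i => ⟨f i.1, hfV i.1 i.2⟩
    have hg : Function.Injective g := by
      intro i j hij
      have : f i.1 = f j.1 := congrArg Subtype.val hij
      exact Subtype.ext (hinj this)
    have hgb : Function.Bijective g := Finite.injective_iff_bijective.mp hg
    refine ⟨Equiv.ofBijective g hgb, ?_, ?_⟩
    · intro i hi
      simp only [N', Finset.mem_filter, Finset.mem_univ, true_and] at hi ⊢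
      exact hfN i.1 hi
    · intro i
      show σ (tau D i.1) = tau D (f i.1)
      rw [tau_map D hf (hV0 i.1 i.2)]
      rfl
  have hlt := valuation_prod_lt q hA z hz0 hz N' hN' hNc' hstab
  -- the other side: `v (∏ z) = v q`
  have hprod : ∏ i : ι, z i = ∏ T ∈ Vs, tau D T := by
    rw [← Finset.prod_coe_sort Vs (fun T => tau D T)]
  rw [hprod] at hlt
  -- valuations of the factors
  have h1 : ∀ T ∈ Vs, v (D.X T - e₂) * v (tau D T) ^ 2 = 1 := by
    intro T hT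
    rw [valuation_X_sub D he₂ (hV0 T hT) (hK1 T hT)]
    exact valuation_X_mul_tau_sq D he₁ he₂ (hV0 T hT) (hK1 T hT)
  have h2 : v (∏ T ∈ Vs, (D.X T - e₂)) * v (∏ T ∈ Vs, tau D T) ^ 2 = 1 := by
    rw [map_prod, map_prod, ← Finset.prod_pow, ← Finset.prod_mul_distrib]
    exact Finset.prod_eq_one h1
  have h3 : v (∏ T ∈ Vs, (D.X T - e₂)) ^ 2 = (v ((q : ℕ) : Qbar) ^ 4)⁻¹ := by
    have := congrArg v hVS
    rw [map_pow, map_div₀, map_pow, hD, one_pow, map_pow, one_div] at this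
    exact this
  have h4 : v (∏ T ∈ Vs, tau D T) ^ 4 = v ((q : ℕ) : Qbar) ^ 4 := by
    have h5 : (v (∏ T ∈ Vs, (D.X T - e₂)) * v (∏ T ∈ Vs, tau D T) ^ 2) ^ 2 = 1 := by
      rw [h2, one_pow]
    rw [mul_pow, h3, ← pow_mul] at h5
    have hne : v ((q : ℕ) : Qbar) ^ 4 ≠ 0 := pow_ne_zero _ hvq0
    field_simp at h5
    exact h5
  have h6 : v (∏ T ∈ Vs, tau D T) = v ((q : ℕ) : Qbar) :=
    (pow_left_inj₀ zero_le zero_le (by norm_num : (4 : ℕ) ≠ 0)).mp h4
  rw [h6] at hlt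
  exact lt_irrefl _ hlt

end Fermat.Agent.S13.Local.Excl
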