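import Fermat.Agent.S13.Local.LocalP
import Fermat.Agent.S13.Local.Excl
import Fermat.Agent.S13.LineAlgebra
import Fermat.Agent.S13.Iface
import Fermat.Agent.S05.FreyLegInst
import Fermat.Agent.S13.Local.FreyPArith
import Fermat.Agent.S13.CU.Transport

/-!
# PROJECT G (S13), slice LP-3: inertia at `p` on the `p`-torsion of the Frey curve

For a Frey package `P`, a valuation subring `A` of `ℚ̄` over the prime `p = P.p` and a
Galois-stable line `N` in `E[p]`, the inertia group of `A` fixes `N` pointwise or acts trivially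
on the quotient by `N`.

Generic core (`inertia_p_of_leg`): for a Legendre normalisation `D` of the Frey curve with the
usual local hypotheses at `A`, `(σ - 1) E[p] ⊆ V₁ := E[p] ∩ K1` for `σ` in the inertia group
(`LocalP.core_K1`); `V₁ = ⊥` gives the trivial action, `V₁` a line is `LineAlgebra`, and `V₁ = ⊤` is
excluded by `Excl.excl` and the valuation-sum identity.
-/

set_option autoImplicit false
set_option linter.unusedSectionVars false

noncomputable section

open WeierstrassCurve WeierstrassCurve.Affine WeierstrassCurve.Affine.Point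

namespace Fermat.Agent.S13.Local.FreyP

open Fermat.Agent.S05 Fermat.Agent.S05.LegData Fermat.Agent.S05.FreyLeg
  Fermat.Agent.S13.Global

local notation "Qbar" => AlgebraicClosure ℚ
local notation "GQ" => (AlgebraicClosure ℚ ≃ₐ[ℚ] AlgebraicClosure ℚ)

variable (P : FreyPackage)

/-- The local hypotheses at a valuation subring `A` (over an odd prime) for a Legendre
normalisation `D` of the Frey curve: the numerical hypotheses of `LocalP.core_K1`. -/
structure LegP (A : ValuationSubring Qbar) {e₁ e₂ : Qbar}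
    (D : LegData Qbar (P.freyCurve⁄Qbar).Point e₁ e₂) (d : Qbar) : Prop where
  h2 : A.valuation (2 : Qbar) = 1
  he2 : A.valuation e₂ = 1
  he12 : A.valuation (e₁ - e₂) = 1
  hd : e₁ = d ^ P.p
  hdA : A.valuation d ≤ 1
  hσd : ∀ σ : GQ, σ d = d
  hact : ∀ σ : GQ, σ ∈ A.inertiaSubgroupIn ℚ →
    D.InertiaAct A ((σ : GQ) : Qbar →+* Qbar) (pointHom (W' := P.freyCurve) σ)

variable {P}

section core

variable {A : ValuationSubring Qbar} {e₁ e₂ d : Qbar}
  {D : LegData Qbar (P.freyCurve⁄Qbar).Point e₁ e₂}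

theorem LegP.he₁ (L : LegP P A D d) : A.valuation e₁ ≤ 1 := by
  rw [L.hd, map_pow]; exact pow_le_one' L.hdA P.p

theorem LegP.he₂ (L : LegP P A D d) : A.valuation e₂ ≤ 1 := le_of_eq L.he2

/-- The `p`-torsion points in the kernel of reduction, as a subgroup of `E[p]`. -/
def V1 (L : LegP P A D d) : AddSubgroup (Tors P.freyCurve P.p) where
  carrier := {x | D.K1 A (x : (P.freyCurve⁄Qbar).Point)}
  zero_mem' := Inertia.K1_zero D A
  add_mem' := fun {x y} hx hy => by
    have := FreyInst.charZero Qbar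
    exact Kernel.K1.add L.he₁ L.he₂ hx hy
  neg_mem' := fun {x} hx => by
    have := FreyInst.charZero Qbar
    exact Inertia.K1_neg D A hx

theorem mem_V1_iff (L : LegP P A D d) (x : Tors P.freyCurve P.p) :
    x ∈ V1 L ↔ D.K1 A (x : (P.freyCurve⁄Qbar).Point) := Iff.rfl

/-- Inertia moves `p`-torsion points only inside the kernel of reduction. -/
theorem smul_sub_mem_V1 (L : LegP P A D d) {σ : GQ} (hσ : σ ∈ A.inertiaSubgroupIn ℚ)
    (x : Tors P.freyCurve P.p) : σ • x - x ∈ V1 L := by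
  have := FreyInst.charZero Qbar
  have hp2 : P.p ≠ 2 := by have := P.hp5; omega
  have hx := FreyLegInst.nsmul_eq_zero_of_mem_torsionBy P x
  have h := LocalP.core_K1 (L.hact σ hσ) LocalFrey.exists_sq L.h2 L.he2 L.he12 P.pp hp2 L.hd
    L.hdA (L.hσd σ) hx
  exact h

/-- **Generic form of (L-p).**  For a Legendre normalisation `D` of the Frey curve satisfying the
local hypotheses at `A ∣ p` and the valuation-sum identity in the coordinates of `D`, the inertia
group of `A` fixes a Galois-stable line `N` pointwise or acts trivially on the quotient. -/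
theorem inertia_p_of_leg (L : LegP P A D d) (hA : A.LiesOverPrime P.p)
    (hcard : Nat.card (Tors P.freyCurve P.p) = P.p ^ 2)
    (hVS : ∀ S : Finset (P.freyCurve⁄Qbar).Point, (∀ T, T ∈ S ↔ P.p • T = 0 ∧ T ≠ 0) →
      (∏ T ∈ S, (D.X T - e₂)) ^ 2 =
        (e₂ * (e₂ - e₁)) ^ (P.p ^ 2 - 1) / ((P.p : ℕ) : Qbar) ^ 4)
    (N : Submodule (ZMod P.p) (Tors P.freyCurve P.p)) (hN : IsGaloisStable ℚ N)
    (hbot : N ≠ ⊥) (htop : N ≠ ⊤) :
    A.inertiaSubgroupIn ℚ ≤ fixer N ∨ A.inertiaSubgroupIn ℚ ≤ cofixer N := by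
  classical
  have : Fact P.p.Prime := ⟨P.pp⟩
  have hfin : Finite (Tors P.freyCurve P.p) :=
    Nat.finite_of_card_ne_zero (by rw [hcard]; exact pow_ne_zero _ P.pp.ne_zero)
  have hdvd : Nat.card (V1 L) ∣ P.p ^ 2 := by
    rw [← hcard]
    exact AddSubgroup.card_addSubgroup_dvd_card (V1 L)
  obtain ⟨k, hk, hkc⟩ := (Nat.dvd_prime_pow P.pp).mp hdvd
  interval_cases k
  · -- `V₁ = ⊥`: inertia acts trivially
    left
    rw [pow_zero] at hkc
    have hV1 : V1 L = ⊥ := AddSubgroup.card_eq_one.mp hkc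
    intro σ hσ x _
    have h := smul_sub_mem_V1 L hσ x
    rw [hV1, AddSubgroup.mem_bot] at h
    exact sub_eq_zero.mp h
  · -- `V₁` is a line
    rw [pow_one] at hkc
    exact LineAlgebra.le_fixer_or_le_cofixer_of_line hcard N hN hbot htop
      (A.inertiaSubgroupIn ℚ) (V1 L) hkc (fun σ hσ x => smul_sub_mem_V1 L hσ x)
  · -- `V₁ = ⊤`: excluded
    exfalso
    have hV1 : V1 L = ⊤ := AddSubgroup.eq_top_of_card_eq _ (by rw [hkc, hcard])
    have hK : ∀ x : Tors P.freyCurve P.p, D.K1 A (x : (P.freyCurve⁄Qbar).Point) := fun x => by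
      have : x ∈ V1 L := hV1 ▸ AddSubgroup.mem_top x
      exact this
    -- the finite set of nonzero `p`-torsion points
    have hfinS : (Submodule.torsionBy ℤ (P.freyCurve⁄Qbar).Point P.p :
        Set (P.freyCurve⁄Qbar).Point).Finite := Set.finite_coe_iff.mp hfin
    let Vs : Finset (P.freyCurve⁄Qbar).Point := hfinS.toFinset.erase 0
    have hVs : ∀ T, T ∈ Vs ↔ P.p • T = 0 ∧ T ≠ 0 := fun T => by
      simp only [Vs, Finset.mem_erase, Set.Finite.mem_toFinset, SetLike.mem_coe,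
        Submodule.mem_torsionBy_iff, natCast_zsmul]
      exact and_comm
    have hmemT : ∀ T ∈ Vs, T ∈ Submodule.torsionBy ℤ (P.freyCurve⁄Qbar).Point P.p :=
      fun T hT => by
        rw [Submodule.mem_torsionBy_iff, natCast_zsmul]
        exact ((hVs T).mp hT).1
    let Ns : Finset (P.freyCurve⁄Qbar).Point :=
      Vs.filter fun T => ∃ h : T ∈ Submodule.torsionBy ℤ (P.freyCurve⁄Qbar).Point P.p,
        (⟨T, h⟩ : Tors P.freyCurve P.p) ∈ N
    have hNs : ∀ T, T ∈ Ns ↔ T ∈ Vs ∧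
        ∃ h : T ∈ Submodule.torsionBy ℤ (P.freyCurve⁄Qbar).Point P.p,
          (⟨T, h⟩ : Tors P.freyCurve P.p) ∈ N := fun T => by
      simp only [Ns, Finset.mem_filter]
    refine Excl.excl D P.p hA L.he₁ L.he₂ ?_ Vs (fun T hT => ((hVs T).mp hT).2)
      (fun T hT => hK ⟨T, hmemT T hT⟩) (P.p ^ 2 - 1) (hVS Vs hVs) Ns
      (Finset.filter_subset _ _) ?_ ?_ ?_
    · rw [map_mul, L.he2, one_mul, Valuation.map_sub_swap, L.he12]
    · -- `Ns` is nonempty
      obtain ⟨x, hxN, hx0⟩ := Submodule.exists_mem_ne_zero_of_ne_bot hbot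
      refine ⟨(x : (P.freyCurve⁄Qbar).Point), (hNs _).mpr ⟨(hVs _).mpr ⟨?_, ?_⟩, x.2, hxN⟩⟩
      · exact FreyLegInst.nsmul_eq_zero_of_mem_torsionBy P x
      · intro h0
        exact hx0 (Subtype.ext h0)
    · -- `Ns ≠ Vs`
      have hex : ∃ x : Tors P.freyCurve P.p, x ∉ N := by
        by_contra hcon
        push Not at hcon
        exact htop ((Submodule.eq_top_iff').mpr hcon)
      obtain ⟨x, hxN⟩ := hex
      refine ⟨(x : (P.freyCurve⁄Qbar).Point), (hVs _).mpr ⟨?_, ?_⟩, ?_⟩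
      · exact FreyLegInst.nsmul_eq_zero_of_mem_torsionBy P x
      · intro h0
        apply hxN
        have : x = 0 := Subtype.ext h0
        rw [this]
        exact N.zero_mem
      · intro hmem
        obtain ⟨-, h, hN'⟩ := (hNs _).mp hmem
        exact hxN hN'
    · -- the action of inertia
      intro σ hσ
      refine ⟨pointHom (W' := P.freyCurve) σ, L.hact σ hσ, ?_, ?_⟩
      · intro T hT
        obtain ⟨hpT, hT0⟩ := (hVs T).mp hT
        refine (hVs _).mpr ⟨?_, ?_⟩
        · rw [← map_nsmul, hpT, _root_.map_zero]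
        · exact smul_ne_zero_point σ hT0
      · intro T hT
        obtain ⟨hTV, h, hTN⟩ := (hNs T).mp hT
        obtain ⟨hpT, hT0⟩ := (hVs T).mp hTV
        have h1 : σ • (⟨T, h⟩ : Tors P.freyCurve P.p) ∈ N := hN σ _ hTN
        refine (hNs _).mpr ⟨(hVs _).mpr ⟨?_, ?_⟩, (σ • (⟨T, h⟩ : Tors P.freyCurve P.p)).2, h1⟩
        · rw [← map_nsmul, hpT, _root_.map_zero]
        · exact smul_ne_zero_point σ hT0

end core

/-! ### The three legs of the Frey curve at `p` -/

section legs

open Fermat.Agent.S05.FreyInst Fermat.Agent.S05.FreyLegInst Fermat.Agent.S13.Local.FreyPArith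

variable (P)
variable {A : ValuationSubring Qbar}

/-- The local package on `legA` at a place over `p` (`p ∤ b`, `p ∤ c`). -/
theorem legP_A (hA : A.LiesOverPrime P.p) (hb : ¬ (P.p : ℤ) ∣ P.b) (hc : ¬ (P.p : ℤ) ∣ P.c) :
    LegP P A (legA P Qbar) ((P.a : ℤ) : Qbar) where
  h2 := (freyLocalP_A_p P hA hb hc AlgEquiv.refl).h2
  he2 := (freyLocalP_A_p P hA hb hc AlgEquiv.refl).he2
  he12 := (freyLocalP_A_p P hA hb hc AlgEquiv.refl).he12
  hd := (freyLocalP_A_p P hA hb hc AlgEquiv.refl).hd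
  hdA := (freyLocalP_A_p P hA hb hc AlgEquiv.refl).hdA
  hσd := fun σ => (freyLocalP_A_p P hA hb hc σ).hσd
  hact := fun _ hσ => inertiaActA P hσ

/-- The local package on `legB` at a place over `p` (`p ∤ a`, `p ∤ c`). -/
theorem legP_B (hA : A.LiesOverPrime P.p) (ha : ¬ (P.p : ℤ) ∣ P.a) (hc : ¬ (P.p : ℤ) ∣ P.c) :
    LegP P A (legB P Qbar) (-((P.b : ℤ) : Qbar)) where
  h2 := (freyLocalP_B_p P hA ha hc AlgEquiv.refl).h2
  he2 := (freyLocalP_B_p P hA ha hc AlgEquiv.refl).he2
  he12 := (freyLocalP_B_p P hA ha hc AlgEquiv.refl).he12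
  hd := (freyLocalP_B_p P hA ha hc AlgEquiv.refl).hd
  hdA := (freyLocalP_B_p P hA ha hc AlgEquiv.refl).hdA
  hσd := fun σ => (freyLocalP_B_p P hA ha hc σ).hσd
  hact := fun _ hσ => inertiaActB P hσ

/-- The local package on `legC` at a place over `p` (`p ∤ a`, `p ∤ b`). -/
theorem legP_C (hA : A.LiesOverPrime P.p) (ha : ¬ (P.p : ℤ) ∣ P.a) (hb : ¬ (P.p : ℤ) ∣ P.b) :
    LegP P A (legC P Qbar) (-((P.c : ℤ) : Qbar)) where
  h2 := (freyLocalP_C_p P hA ha hb AlgEquiv.refl).h2
  he2 := (freyLocalP_C_p P hA ha hb AlgEquiv.refl).he2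
  he12 := (freyLocalP_C_p P hA ha hb AlgEquiv.refl).he12
  hd := (freyLocalP_C_p P hA ha hb AlgEquiv.refl).hd
  hdA := (freyLocalP_C_p P hA ha hb AlgEquiv.refl).hdA
  hσd := fun σ => (freyLocalP_C_p P hA ha hb σ).hσd
  hact := fun _ hσ => inertiaActC P hσ

/-- **(L-p) for the Frey curve.**  Given the cardinality of `E[p]` and the valuation-sum identity
for the Frey curve over `ℚ̄`, at every valuation subring `A` of `ℚ̄` over `p` the inertia group
fixes a Galois-stable line `N ⊆ E[p]` pointwise or acts trivially on the quotient by `N`. -/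
theorem inertia_p (hcard : Nat.card (Tors P.freyCurve P.p) = P.p ^ 2)
    (hVS : Iface.ValSum (P.freyCurve⁄Qbar) P.p)
    (N : Submodule (ZMod P.p) (Tors P.freyCurve P.p)) (hN : IsGaloisStable ℚ N)
    (hbot : N ≠ ⊥) (htop : N ≠ ⊤) (A : ValuationSubring Qbar) (hA : A.LiesOverPrime P.p) :
    A.inertiaSubgroupIn ℚ ≤ fixer N ∨ A.inertiaSubgroupIn ℚ ≤ cofixer N := by
  rcases frey_three_cases_p P with h | h | h
  · exact inertia_p_of_leg (legP_A P hA h.1 h.2) hA hcard
      (fun S hS => CU.Transport.valSum_legA P Qbar hcard hVS S hS) N hN hbot htop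
  · exact inertia_p_of_leg (legP_B P hA h.1 h.2) hA hcard
      (fun S hS => CU.Transport.valSum_legB P Qbar hcard hVS S hS) N hN hbot htop
  · exact inertia_p_of_leg (legP_C P hA h.1 h.2) hA hcard
      (fun S hS => CU.Transport.valSum_legC P Qbar hcard hVS S hS) N hN hbot htop

/-- The same in the `WeierstrassCurve.map` spelling of the interface. -/
theorem inertia_p' (hcard : Iface.TorsionCard (P.freyCurve.map (algebraMap ℚ Qbar)) P.p)
    (hVS : Iface.ValSum (P.freyCurve.map (algebraMap ℚ Qbar)) P.p)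
    (N : Submodule (ZMod P.p) (Tors P.freyCurve P.p)) (hN : IsGaloisStable ℚ N)
    (hbot : N ≠ ⊥) (htop : N ≠ ⊤) (A : ValuationSubring Qbar) (hA : A.LiesOverPrime P.p) :
    A.inertiaSubgroupIn ℚ ≤ fixer N ∨ A.inertiaSubgroupIn ℚ ≤ cofixer N :=
  inertia_p P hcard hVS N hN hbot htop A hA

/-- **The `hLp` input of `FreyGlue.result_of`.** -/
theorem hLp (hcard : Nat.card (Tors P.freyCurve P.p) = P.p ^ 2)
    (hVS : Iface.ValSum (P.freyCurve⁄Qbar) P.p) :
    ∀ N : Submodule (ZMod P.p) (Tors P.freyCurve P.p), IsGaloisStable ℚ N → N ≠ ⊥ → N ≠ ⊤ →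
      ∀ A : ValuationSubring Qbar, A.LiesOverPrime P.p →
        A.inertiaSubgroupIn ℚ ≤ fixer N ∨ A.inertiaSubgroupIn ℚ ≤ cofixer N :=
  fun N hN hbot htop A hA => inertia_p P hcard hVS N hN hbot htop A hA

end legs

end Fermat.Agent.S13.Local.FreyP
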