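import Fermat.Agent.S13.Local.NodalInst
import Fermat.Agent.S13.Local.NodalRules
import Fermat.Agent.S13.Local.NodalRational
import Fermat.Agent.S13.Filtration
import Fermat.Agent.S05.FreyLeg
import Fermat.Agent.S05.LocalFrey
import Fermat.Agent.S05.LocalVal

/-!
# S13 (project G), slice G-L6 (core): the two local statements at `2`, modulo the leaves

Generic in a Weierstrass curve `W'` over `ℚ` whose base change to `ℚ̄` is in nodal form
(`a₃ = a₆ = 0`, `Δ ≠ 0`), `D := NodalInst.nodalData hW`.  From the abstract local facts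
(kernel of reduction, reduction lemma, phase) as hypotheses we derive

* `h2_of` : the shape `h2` of `RGlue.result_of_filtrations` at a place `A` over `2`;
* `noRat_of` : the shape `hNoRat` of `RGlue.result_of_filtrations`.
-/

set_option autoImplicit false
set_option linter.unusedSectionVars false

open WeierstrassCurve WeierstrassCurve.Affine WeierstrassCurve.Affine.Point

namespace Fermat.Agent.S13.Local.FreyTwoCore

open Fermat.Agent.S13.Local Fermat.Agent.S13.Local.NodalData Fermat.Agent.S13.Global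
open Fermat.Agent.S05.FreyLeg

local notation "Qbar" => AlgebraicClosure ℚ
local notation "GQ" => (AlgebraicClosure ℚ ≃ₐ[ℚ] AlgebraicClosure ℚ)

/-! ### Abstract part -/

section abstract_part

variable {K : Type*} [Field K] {G : Type*} [AddCommGroup G] {a₁ a₂ a₄ : K}
  {D : NodalData K G a₁ a₂ a₄}
  {Γ₀ : Type*} [LinearOrderedCommGroupWithZero Γ₀] {v : Valuation K Γ₀}

/-- Two-element form of the abstract (L-2): if `s` moves every point inside `E0` and `t` moves
every point of `E0` inside `K1`, and `K1` has no `p`-torsion, then `t` fixes `s x - x` for every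
`p`-torsion point `x`. -/
theorem unipotent_two {s t : G →+ G} {p : ℕ}
    (hC : ∀ P, D.E0 v (s P - P)) (hR2 : ∀ P, D.E0 v P → D.K1 v (t P - P))
    (hK4 : ∀ Q, D.K1 v Q → Q ≠ 0 → p • Q = 0 → False) {x : G} (hx : p • x = 0) :
    t (s x - x) = s x - x := by
  have hy : p • (s x - x) = 0 := by
    rw [smul_sub, ← map_nsmul, hx, _root_.map_zero, sub_zero]
  have hz : p • (t (s x - x) - (s x - x)) = 0 := by
    rw [smul_sub, ← map_nsmul, hy, _root_.map_zero, sub_zero]
  by_contra hne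
  exact hK4 _ (hR2 _ (hC x)) (sub_ne_zero.mpr hne) hz

/-- A power relation `π ^ (m p) = π ^ (2 i k)` with `π < 1` and `p ∤ k` is impossible for
`0 < i < p`, `p` an odd prime. -/
theorem zpow_phase_contra {π : Γ₀} (hπ0 : π ≠ 0) (hπ1 : π < 1) {p : ℕ} (hp : p.Prime)
    (hp2 : p ≠ 2) {k : ℕ} (hk : ¬ p ∣ k) {m : ℤ} {i : ℕ} (hi0 : 0 < i) (hip : i < p)
    (h : (π ^ m) ^ p = (π ^ k) ^ (2 * i)) : False := by
  have hπpos : 0 < π := zero_lt_iff.mpr hπ0
  have h1 : π ^ (m * (p : ℤ)) = π ^ (((k * (2 * i) : ℕ) : ℤ)) := by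
    rw [zpow_mul, zpow_natCast, h, ← pow_mul, zpow_natCast]
  have h2 : m * (p : ℤ) = ((k * (2 * i) : ℕ) : ℤ) :=
    zpow_right_injective₀ hπpos (ne_of_lt hπ1) h1
  have h3 : (p : ℤ) ∣ ((k * (2 * i) : ℕ) : ℤ) := ⟨m, by rw [← h2, mul_comm]⟩
  have h4 : p ∣ k * (2 * i) := Int.natCast_dvd_natCast.mp h3
  rcases (Nat.Prime.dvd_mul hp).mp h4 with h5 | h5
  · exact hk h5
  · rcases (Nat.Prime.dvd_mul hp).mp h5 with h6 | h6
    · have := Nat.le_of_dvd (by norm_num) h6
      have := hp.two_le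
      omega
    · have := Nat.le_of_dvd hi0 h6
      omega

end abstract_part

/-! ### Galois plumbing -/

section galois

variable {W' : Affine ℚ} (hW : NodalInst.IsNodalForm (W'⁄Qbar))

/-- An element of the inertia group acts as an `InertiaAct` on the nodal data. -/
theorem inertiaAct {A : ValuationSubring Qbar} {σ : GQ} (hσ : σ ∈ A.inertiaSubgroupIn ℚ) :
    (NodalInst.nodalData hW).InertiaAct A (σ : Qbar →+* Qbar) (pointHom (W' := W') σ) where
  mem_iff := Fermat.Agent.S05.LocalFrey.inertia_mem_iff hσ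
  sub_mem := Fermat.Agent.S05.LocalFrey.inertia_sub_mem hσ
  inj := fun P hP => by
    by_contra hne
    exact NodalInst.smul_ne_zero_point σ hne hP
  X_map := fun P _ => NodalInst.ptX_smul σ P
  Y_map := fun P _ => NodalInst.ptY_smul σ P

theorem isAlgebraic_qbar : Algebra.IsAlgebraic ℚ Qbar := AlgebraicClosure.isAlgebraic ℚ

/-- Inertia preserves the valuation. -/
theorem inertia_val {A : ValuationSubring Qbar} {σ : GQ} (hσ : σ ∈ A.inertiaSubgroupIn ℚ)
    (x : Qbar) : A.valuation ((σ : Qbar →+* Qbar) x) = A.valuation x := by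
  have := isAlgebraic_qbar
  exact Fermat.Agent.S05.LocalVal.valuation_map_eq_of_mem_inertia hσ x

/-- Membership in `torsionBy ℤ _ n` as an `ℕ`-multiple. -/
theorem nsmul_eq_zero_of_tors {n : ℕ} (x : Tors W' n) :
    n • (x : (W'⁄Qbar).Point) = 0 := by
  have h := x.property
  rw [Submodule.mem_torsionBy_iff] at h
  rw [← natCast_zsmul]
  exact h

theorem coe_smul_tors {n : ℕ} (σ : GQ) (x : Tors W' n) :
    ((σ • x : Tors W' n) : (W'⁄Qbar).Point) = pointHom (W' := W') σ (x : (W'⁄Qbar).Point) := rfl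

end galois

/-! ### The statement at a place over `2` -/

section at_two

variable {W' : Affine ℚ} (hW : NodalInst.IsNodalForm (W'⁄Qbar)) {p : ℕ}

/-- **(L-2)** in the shape `h2` of `RGlue.result_of_filtrations`, from the Hyp structure, the
reduction lemma (R2) for inertia elements and (K4). -/
theorem h2_of {A : ValuationSubring Qbar}
    (H : Hyp A.valuation (W'⁄Qbar).a₁ (W'⁄Qbar).a₂ (W'⁄Qbar).a₄)
    (hR2 : ∀ σ ∈ A.inertiaSubgroupIn ℚ, ∀ P : (W'⁄Qbar).Point,
      (NodalInst.nodalData hW).E0 A.valuation P →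
      (NodalInst.nodalData hW).K1 A.valuation (pointHom (W' := W') σ P - P))
    (hK4 : ∀ Q : (W'⁄Qbar).Point, (NodalInst.nodalData hW).K1 A.valuation Q → Q ≠ 0 →
      p • Q = 0 → False) :
    ∃ V₀ : AddSubgroup (Tors W' p),
      (∀ σ ∈ A.inertiaSubgroupIn ℚ, ∀ x, σ • x - x ∈ V₀) ∧
      (∀ σ ∈ A.inertiaSubgroupIn ℚ, ∀ x ∈ V₀, σ • x = x) := by
  refine ⟨{ carrier := {x | ∀ τ ∈ A.inertiaSubgroupIn ℚ, τ • x = x}
            zero_mem' := fun τ _ => smul_zero τ
            add_mem' := fun {x y} hx hy τ hτ => by rw [smul_add, hx τ hτ, hy τ hτ]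
            neg_mem' := fun {x} hx τ hτ => by rw [smul_neg, hx τ hτ] }, ?_, ?_⟩
  · intro σ hσ x τ hτ
    -- (C) for `σ`, (R2) for `τ`
    have hC : ∀ P, (NodalInst.nodalData hW).E0 A.valuation (pointHom (W' := W') σ P - P) :=
      NodalRules.sub_mem_E0 H (inertiaAct hW hσ) (inertia_val hσ)
        (fun P hP => (hR2 σ hσ P hP).e0)
    have key := unipotent_two (D := NodalInst.nodalData hW) (v := A.valuation)
      (s := pointHom (W' := W') σ) (t := pointHom (W' := W') τ) hC (hR2 τ hτ) hK4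
      (nsmul_eq_zero_of_tors x)
    apply Subtype.ext
    exact key
  · intro σ hσ x hx
    exact hx σ hσ

end at_two

/-! ### No rational point of order `p` -/

section no_rat

variable {W' : Affine ℚ} (hW : NodalInst.IsNodalForm (W'⁄Qbar)) {p : ℕ}

/-- A point with rational coordinates is fixed by the Galois group. -/
theorem smul_some_rat (σ : GQ) (a b : ℚ)
    (h : (W'⁄Qbar).Nonsingular (algebraMap ℚ Qbar a) (algebraMap ℚ Qbar b)) :
    σ • (Point.some _ _ h : (W'⁄Qbar).Point) = Point.some _ _ h := by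
  rw [algEquiv_smul_def, Point.map_some, Point.some.injEq]
  exact ⟨σ.commutes a, σ.commutes b⟩

/-- The coordinates of a Galois-fixed point are rational. -/
theorem coords_rat_of_fixed (Q : (W'⁄Qbar).Point) (hQ : ∀ σ : GQ, σ • Q = Q) :
    NodalInst.ptX (W'⁄Qbar) Q ∈ Set.range (algebraMap ℚ Qbar) ∧
      NodalInst.ptY (W'⁄Qbar) Q ∈ Set.range (algebraMap ℚ Qbar) := by
  by_cases h0 : Q = 0
  · subst h0
    exact ⟨⟨0, by simp⟩, ⟨0, by simp⟩⟩
  · obtain ⟨a, b, h, rfl⟩ := Fermat.Agent.S13.Filtration.exists_rat_coords Q hQ h0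
    exact ⟨⟨a, rfl⟩, ⟨b, rfl⟩⟩

/-- **(R)** in the shape `hNoRat` of `RGlue.result_of_filtrations`, from the local facts at a
place `A` over `2` as hypotheses. -/
theorem noRat_of (hp : p.Prime) (hp5 : 5 ≤ p) {A : ValuationSubring Qbar}
    (H : Hyp A.valuation (W'⁄Qbar).a₁ (W'⁄Qbar).a₂ (W'⁄Qbar).a₄)
    (h2lt : A.valuation (2 : Qbar) < 1)
    (hk : ∃ k : ℕ, A.valuation (W'⁄Qbar).a₄ = A.valuation (2 : Qbar) ^ k ∧ ¬ p ∣ k)
    (hratval : ∀ r : ℚ, r ≠ 0 →
      ∃ m : ℤ, A.valuation (algebraMap ℚ Qbar r) = A.valuation (2 : Qbar) ^ m)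
    (hres2 : ∀ r : ℚ, A.valuation (algebraMap ℚ Qbar r) ≤ 1 →
      A.valuation (algebraMap ℚ Qbar r) < 1 ∨ A.valuation (algebraMap ℚ Qbar r - 1) < 1)
    (hK4 : ∀ Q : (W'⁄Qbar).Point, (NodalInst.nodalData hW).K1 A.valuation Q → Q ≠ 0 →
      p • Q = 0 → False)
    (hR1 : ∀ Q Q' : (W'⁄Qbar).Point, Q ≠ 0 → Q' ≠ 0 →
      A.valuation ((NodalInst.nodalData hW).X Q) = 1 →
      A.valuation ((NodalInst.nodalData hW).X Q') = 1 →
      A.valuation ((NodalInst.nodalData hW).X Q - (NodalInst.nodalData hW).X Q') < 1 →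
      A.valuation ((NodalInst.nodalData hW).Y Q - (NodalInst.nodalData hW).Y Q') < 1 →
      (NodalInst.nodalData hW).K1 A.valuation (Q - Q'))
    (hE0 : ∀ Q : (W'⁄Qbar).Point, (NodalInst.nodalData hW).E0 A.valuation Q → ∀ n : ℕ,
      (NodalInst.nodalData hW).E0 A.valuation (n • Q))
    (a b : ℚ) (h : (W'⁄Qbar).Nonsingular (algebraMap ℚ Qbar a) (algebraMap ℚ Qbar b)) :
    (p : ℤ) • (Point.some _ _ h : (W'⁄Qbar).Point) ≠ 0 := by
  intro h0
  set P : (W'⁄Qbar).Point := Point.some _ _ h with hPdef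
  have hP0 : P ≠ 0 := Point.some_ne_zero _
  have hpP : p • P = 0 := by rw [← natCast_zsmul]; exact h0
  have hfix : ∀ σ : GQ, σ • P = P := fun σ => smul_some_rat σ a b h
  have h2ne : A.valuation (2 : Qbar) ≠ 0 := by
    rw [Valuation.ne_zero_iff]
    exact two_ne_zero
  obtain ⟨k, hk1, hk2⟩ := hk
  refine NodalRational.no_rational_torsion (D := NodalInst.nodalData hW) H
    (NodalRules.nodeRules H) (fun x => x ∈ Set.range (algebraMap ℚ Qbar)) hp hp5 hP0 hpP
    ?_ ?_ ?_ hK4 hR1 hE0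
  · -- rationality of the multiples
    intro j _ _
    have hfixj : ∀ σ : GQ, σ • (j • P) = j • P := fun σ => by
      have h1 : σ • (j • P) = pointHom (W' := W') σ (j • P) := rfl
      rw [h1, map_nsmul]
      have h2 : pointHom (W' := W') σ P = σ • P := rfl
      rw [h2, hfix σ]
    exact coords_rat_of_fixed (j • P) hfixj
  · -- residue field `F₂`
    rintro x ⟨r, rfl⟩ hx
    exact hres2 r hx
  · -- valuations of rational numbers
    rintro x ⟨r, rfl⟩ i hi0 hip heq
    by_cases hr : r = 0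
    · subst hr
      rw [_root_.map_zero, _root_.map_zero, zero_pow hp.ne_zero, hk1, ← pow_mul] at heq
      exact pow_ne_zero _ h2ne heq.symm
    · obtain ⟨m, hm⟩ := hratval r hr
      rw [hm, hk1] at heq
      exact zpow_phase_contra h2ne h2lt hp (by omega) hk2 hi0 hip heq

end no_rat

end Fermat.Agent.S13.Local.FreyTwoCore
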