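import Fermat.Agent.S13.Local.NodalRules
import Fermat.Agent.S13.Local.NodalRed
import Fermat.Agent.S13.Local.NodalKernel

/-!
# S13 (project G), slice G-L6I: the local package at a nodal prime where `p` is a unit

Everything is now unconditional in the nodal model `D : NodalData K G a₁ a₂ a₄` with
`H : Hyp A.valuation a₁ a₂ a₄` (no hypothesis on the residue characteristic), an inertia element
`h : D.InertiaAct A σ s` preserving the valuation (`hval`), and a natural number `p` with
`A.valuation p = 1`:

* `k1_tors`     : the kernel of reduction `K1` has no `p`-torsion;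
* `sub_mem_E0`  : **(C)** `s P - P ∈ E0` for every `P`;
* `sub_mem_K1`  : **(K)** `s P - P ∈ K1` for `P ∈ E0`;
* `fix_of_E0`   : `s x = x` for `p`-torsion `x ∈ E0`;
* `unipotent`   : **(L2)** `s (s x - x) = s x - x` for `p • x = 0`;
* `no_rational_torsion` : **(R)** with all nodal inputs discharged (only the description of the
  rational elements is left).
-/

set_option autoImplicit false
set_option linter.unusedSectionVars false

namespace Fermat.Agent.S13.Local.NodalInertia

open Fermat.Agent.S13.Local Fermat.Agent.S13.Local.NodalData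

variable {K : Type*} [Field K] {G : Type*} [AddCommGroup G] {a₁ a₂ a₄ : K}
  (D : NodalData K G a₁ a₂ a₄)

section general

variable {Γ₀ : Type*} [LinearOrderedCommGroupWithZero Γ₀] (v : Valuation K Γ₀)

/-- `K1` is closed under addition. -/
theorem k1_add (H : Hyp v a₁ a₂ a₄) (P Q : G) (hP : D.K1 v P) (hQ : D.K1 v Q) :
    D.K1 v (P + Q) :=
  NodalKernel.k1_add D v H.a1 H.a2 H.a4.le hP hQ

/-- The kernel of reduction has no `p`-torsion when `p` is a unit. -/
theorem k1_tors (H : Hyp v a₁ a₂ a₄) {p : ℕ} (hvp : v (p : K) = 1) (Q : G)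
    (hK : D.K1 v Q) (hpQ : p • Q = 0) : Q = 0 := by
  by_contra hQ
  exact NodalKernel.nsmul_ne_zero_of_k1 D v H.a1 H.a2 H.a4.le hK hQ hvp hpQ

/-- **(R), abstract form**, all nodal inputs discharged. -/
theorem no_rational_torsion (H : Hyp v a₁ a₂ a₄) (Rat : K → Prop)
    {p : ℕ} (hp : p.Prime) (hp5 : 5 ≤ p) (hvp : v (p : K) = 1) {P : G} (hP : P ≠ 0)
    (hpP : p • P = 0)
    (hrat : ∀ j, 0 < j → j < p → Rat (D.X (j • P)) ∧ Rat (D.Y (j • P)))
    (res2 : ∀ x, Rat x → v x ≤ 1 → v x < 1 ∨ v (x - 1) < 1)
    (hval : ∀ x, Rat x → ∀ i, 0 < i → i < p → v x ^ p ≠ v a₄ ^ (2 * i)) : False :=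
  NodalRules.no_rational_torsion H Rat hp hp5 hP hpP hrat res2 hval
    (fun Q hK hQ h0 => hQ (k1_tors D v H hvp Q hK h0))
    (fun _ _ hQ hQ' hX _ hx hy => NodalRed.sub_mem_K1 D v H hQ hQ' hX hx hy)
    (fun _ hQ n => NodalRed.e0_nsmul D v H hQ n)

end general

section inertia

variable (A : ValuationSubring K) {σ : K →+* K} {s : G →+ G}

/-- **(K)**: an inertia element moves a point with non-singular reduction inside its coset of
the kernel of reduction. -/
theorem sub_mem_K1 (H : Hyp A.valuation a₁ a₂ a₄) (h : D.InertiaAct A σ s) {P : G}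
    (hP : D.E0 A.valuation P) : D.K1 A.valuation (s P - P) :=
  NodalRed.inertia_sub_mem_K1 D A H h (k1_add D A.valuation H) hP

/-- **(C)**: an inertia element moves every point inside its coset of `E0`. -/
theorem sub_mem_E0 (H : Hyp A.valuation a₁ a₂ a₄) (h : D.InertiaAct A σ s)
    (hval : ∀ x, A.valuation (σ x) = A.valuation x) (P : G) :
    D.E0 A.valuation (s P - P) :=
  NodalRules.sub_mem_E0 H h hval (fun _ hP => NodalRed.inertia_sub_mem_E0 D A H h hP) P

/-- An inertia element fixes the `p`-torsion points with non-singular reduction. -/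
theorem fix_of_E0 (H : Hyp A.valuation a₁ a₂ a₄) (h : D.InertiaAct A σ s) {p : ℕ}
    (hvp : A.valuation (p : K) = 1) {x : G} (hx : p • x = 0) (hE : D.E0 A.valuation x) :
    s x = x := by
  have hK := sub_mem_K1 D A H h hE
  have h1 : p • (s x - x) = 0 := by
    rw [smul_sub, ← map_nsmul, hx, map_zero, sub_zero]
  exact sub_eq_zero.mp (k1_tors D A.valuation H hvp _ hK h1)

/-- **(L2)**: an inertia element is unipotent on the `p`-torsion. -/
theorem unipotent (H : Hyp A.valuation a₁ a₂ a₄) (h : D.InertiaAct A σ s)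
    (hval : ∀ x, A.valuation (σ x) = A.valuation x) {p : ℕ} (hvp : A.valuation (p : K) = 1)
    {x : G} (hx : p • x = 0) : s (s x - x) = s x - x := by
  refine fix_of_E0 D A H h hvp ?_ (sub_mem_E0 D A H h hval x)
  rw [smul_sub, ← map_nsmul, hx, map_zero, sub_zero]

end inertia

end Fermat.Agent.S13.Local.NodalInertia
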