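import Fermat.Agent.S05.Core

/-!
# PROJECT G (S13), slice LP-0: inertia moves `p`-torsion points only inside the kernel of reduction

This is the argument of `S05/Core.core_aux` with its last step (no `p`-torsion in the kernel of
reduction, which needs `v p = 1`) removed: for an inertia element `(σ, s)` acting on abstract
Legendre coordinates `D : LegData K G e₁ e₂` with `v 2 = 1`, `v e₂ = 1`, `v (e₁ - e₂) = 1`,
`e₁ = d ^ p`, `σ d = d`, and every point `T` with `p • T = 0`, the difference `s T - T` lies in the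
kernel of reduction `K1`.  In particular this holds at valuation subrings over the prime `p`
itself.
-/

set_option autoImplicit false
set_option linter.unusedSectionVars false
set_option linter.unusedVariables false

namespace Fermat.Agent.S13.Local.LocalP

open Fermat.Agent.S05 Fermat.Agent.S05.LegData Fermat.Agent.S05.Inertia Fermat.Agent.S05.Core

variable {K : Type*} [Field K] [CharZero K] {G : Type*} [AddCommGroup G] {e₁ e₂ : K}
  {D : LegData K G e₁ e₂} {A : ValuationSubring K}

local notation "v" => A.valuation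

/-- `K1` is stable under `ℕ`-multiples. -/
theorem K1_nsmul (hA1 : v e₁ ≤ 1) (hA2 : v e₂ ≤ 1) {P : G} (hP : D.K1 A P) (n : ℕ) :
    D.K1 A (n • P) := by
  induction n with
  | zero => rw [zero_smul]; exact K1_zero D A
  | succ n ih => rw [succ_nsmul]; exact Kernel.K1.add hA1 hA2 ih hP

/-- `K1` is stable under `ℤ`-multiples. -/
theorem K1_zsmul (hA1 : v e₁ ≤ 1) (hA2 : v e₂ ≤ 1) {P : G} (hP : D.K1 A P) (n : ℤ) :
    D.K1 A (n • P) := by
  obtain ⟨m, rfl | rfl⟩ := n.eq_nat_or_neg
  · rw [natCast_zsmul]; exact K1_nsmul hA1 hA2 hP m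
  · rw [neg_smul, natCast_zsmul]; exact K1_neg D A (K1_nsmul hA1 hA2 hP m)

/-- **Inertia acts trivially modulo the kernel of reduction on `p`-torsion points**, at valuation
subrings over any odd prime (including `p`). -/
theorem core_K1 {σ : K →+* K} {s : G →+ G}
    (hs : D.InertiaAct A σ s) (hsq : ∀ x : K, ∃ y : K, y ^ 2 = x)
    (h2 : v (2 : K) = 1) (he2 : v e₂ = 1) (he12 : v (e₁ - e₂) = 1)
    {d : K} {p : ℕ} (hp : p.Prime) (hp2 : p ≠ 2)
    (hd : e₁ = d ^ p) (hdA : v d ≤ 1) (hσd : σ d = d)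
    {P : G} (hpP : p • P = 0) : D.K1 A (s P - P) := by
  have he₁ : v e₁ ≤ 1 := by
    rw [hd, map_pow]; exact pow_le_one' hdA p
  have hA2 : v e₂ ≤ 1 := le_of_eq he2
  have hadd : ∀ P Q, D.K1 A P → D.K1 A Q → D.K1 A (P + Q) :=
    fun P Q hP hQ => Kernel.K1.add he₁ hA2 hP hQ
  by_cases hP0 : P = 0
  · rw [hP0, map_zero, sub_zero]; exact K1_zero D A
  by_cases hgood : v e₁ = 1
  · exact sub_mem_K1 hs hadd h2 he₁ he2 he12 (Or.inl hgood)
  by_cases hall : ∀ j, 0 < j → j < p → v (D.X (j • P)) < 1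
  · -- every multiple of `P` reduces to the node
    have R : Phase.NodeRules D A := NodeBridge.nodeRules h2 he2 (lt_of_le_of_ne he₁ hgood)
    obtain ⟨i, hi0, hip, hvi, hN⟩ := Phase.phase' R h2 he2 hp hp2 d hd hP0 hpP hall
    have hσx : σ (d ^ (2 * i)) = d ^ (2 * i) := by rw [map_pow, hσd]
    obtain ⟨P', hsP', hN', hsame, hveq⟩ := exists_fixed_point hs hsq h2 he2 hσx hN hvi
    have hP'0 : P' ≠ 0 := hN'.1
    have hNQ : D.InN A (-P') := inN_neg hN'
    have hopp : D.OppBr A P (-P') := by
      unfold LegData.OppBr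
      rw [sg_neg hP'0, ← sub_eq_add_neg]
      exact hsame
    have hveq' : v (D.X P) = v (D.X (-P')) := by rw [D.X_neg P' hP'0, hveq]
    have h3 := opp_eq h2 he2 hN hNQ hopp hveq'
    have hK : D.K1 A (s (P + -P') - (P + -P')) :=
      sub_mem_K1 hs hadd h2 he₁ he2 he12 (Or.inr h3)
    have h4 : s (P + -P') - (P + -P') = s P - P := by
      rw [map_add, map_neg, hsP']; abel
    rw [h4] at hK
    exact hK
  · -- some multiple `j • P` does not reduce to the node
    have hall' : ∃ j, 0 < j ∧ j < p ∧ 1 ≤ v (D.X (j • P)) := by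
      by_contra hcon
      apply hall
      intro j hj0 hjp
      by_contra hlt
      exact hcon ⟨j, hj0, hjp, not_lt.mp hlt⟩
    obtain ⟨j, hj0, hjp, hj⟩ := hall'
    have hK : D.K1 A (s (j • P) - j • P) :=
      sub_mem_K1 hs hadd h2 he₁ he2 he12 (Or.inr (Or.inr hj))
    have hcop : IsCoprime (j : ℤ) (p : ℤ) := by
      rw [Nat.isCoprime_iff_coprime]
      exact ((Nat.Prime.coprime_iff_not_dvd hp).mpr (Nat.not_dvd_of_pos_of_lt hj0 hjp)).symm
    obtain ⟨a, b, hab⟩ := hcop
    have hPe : P = a • (j • P) := by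
      have h5 : P = (a * (j : ℤ) + b * (p : ℤ)) • P := by rw [hab, one_smul]
      rw [add_smul, mul_smul, mul_smul, natCast_zsmul, natCast_zsmul, hpP, smul_zero,
        add_zero] at h5
      exact h5
    have h6 : s P - P = a • (s (j • P) - j • P) := by
      rw [smul_sub, ← map_zsmul, ← hPe]
    rw [h6]
    exact K1_zsmul he₁ hA2 hK a

end Fermat.Agent.S13.Local.LocalP
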