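import Fermat.Agent.S13.Local.FreyTwoCore
import Fermat.Agent.S13.Local.FreyTwoArith
import Fermat.Agent.S13.Local.NodalKernel
import Fermat.Agent.S13.Local.NodalRed
import Fermat.Agent.Lib.FrobeniusExists

/-!
# S13 (project G), slice G-L6: the two local statements at `2` for the Frey curve

* `frey_h2` : **(L-2)**, in the shape `h2` of `RGlue.result_of_filtrations`: at every place `A`
  of `ℚ̄` over `2` the inertia group acts unipotently on `E[p]`.
* `frey_noRat` : **(R)**, in the shape `hNoRat` of `RGlue.result_of_filtrations`: no affine point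
  of the Frey curve with rational coordinates is killed by `p`.

Everything is assembled from `FreyTwoCore` (Galois plumbing + abstract assembly),
`FreyTwoArith` (arithmetic of the Frey curve at `2`), `NodalKernel` (kernel of reduction),
`NodalRed` (reduction lemma) and `NodalRational` / `NodalPhase` / `NodalNode` (phase argument).
-/

set_option autoImplicit false

open WeierstrassCurve WeierstrassCurve.Affine WeierstrassCurve.Affine.Point

namespace Fermat.Agent.S13.Local.FreyTwo

open Fermat.Agent.S13.Local Fermat.Agent.S13.Local.NodalData Fermat.Agent.S13.Global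
open Fermat.Agent.S05.FreyLeg

local notation "Qbar" => AlgebraicClosure ℚ
local notation "GQ" => (AlgebraicClosure ℚ ≃ₐ[ℚ] AlgebraicClosure ℚ)

variable (P : FreyPackage)

/-- `p` is a unit at every place over `2`. -/
theorem v_p {A : ValuationSubring Qbar} (hA : A.LiesOverPrime 2) :
    A.valuation ((P.p : ℕ) : Qbar) = 1 :=
  Fermat.Agent.S05.LocalVal.natCast_prime_valuation_eq_one Nat.prime_two hA P.pp
    (by have := P.hp5; omega)

/-- (K4) for the Frey curve at a place over `2`: no `p`-torsion in the kernel of reduction. -/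
theorem frey_K4 {A : ValuationSubring Qbar} (hA : A.LiesOverPrime 2)
    (Q : (P.freyCurve⁄Qbar).Point)
    (hK : (NodalInst.nodalData (FreyTwoArith.isNodalForm (K := Qbar) P)).K1 A.valuation Q)
    (hQ : Q ≠ 0) (hpQ : P.p • Q = 0) : False := by
  have H := FreyTwoArith.hyp (K := Qbar) P hA
  exact NodalKernel.nsmul_ne_zero_of_k1 _ A.valuation H.a1 H.a2 (le_of_lt H.a4) hK hQ
    (v_p P hA) hpQ

/-- **(L-2)** for the Frey curve. -/
theorem frey_h2 (A : ValuationSubring Qbar) (hA : A.LiesOverPrime 2) :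
    ∃ V₀ : AddSubgroup (Tors P.freyCurve P.p),
      (∀ σ ∈ A.inertiaSubgroupIn ℚ, ∀ x, σ • x - x ∈ V₀) ∧
      (∀ σ ∈ A.inertiaSubgroupIn ℚ, ∀ x ∈ V₀, σ • x = x) := by
  have H := FreyTwoArith.hyp (K := Qbar) P hA
  refine FreyTwoCore.h2_of (W' := P.freyCurve) (FreyTwoArith.isNodalForm (K := Qbar) P) H ?_
    (frey_K4 P hA)
  intro σ hσ Q hQ
  exact NodalRed.inertia_sub_mem_K1 _ A H
    (FreyTwoCore.inertiaAct (FreyTwoArith.isNodalForm (K := Qbar) P) hσ)
    (fun _ _ h1 h2 => NodalKernel.k1_add _ A.valuation H.a1 H.a2 (le_of_lt H.a4) h1 h2) hQ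

/-- **(R)** for the Frey curve: no rational affine point is killed by `p`. -/
theorem frey_noRat (a b : ℚ)
    (h : (P.freyCurve⁄Qbar).Nonsingular (algebraMap ℚ Qbar a) (algebraMap ℚ Qbar b)) :
    (P.p : ℤ) • (Point.some _ _ h : (P.freyCurve⁄Qbar).Point) ≠ 0 := by
  obtain ⟨A, hA⟩ :=
    Fermat.Agent.Lib.FrobeniusExists.exists_valuationSubring_algebraicClosure 2 Nat.prime_two
  have H := FreyTwoArith.hyp (K := Qbar) P hA
  obtain ⟨k, _, hk1, hk2⟩ := FreyTwoArith.exists_v_a4 (K := Qbar) P hA
  refine FreyTwoCore.noRat_of (W' := P.freyCurve) (FreyTwoArith.isNodalForm (K := Qbar) P)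
    P.pp P.hp5 H (FreyTwoArith.v_two_lt_one hA) ⟨k, hk1, hk2⟩
    (fun r hr => FreyTwoArith.exists_v_algebraMap hA hr)
    (fun r hr => FreyTwoArith.v_algebraMap_lt_or_sub_one_lt hA hr)
    (frey_K4 P hA) ?_ ?_ a b h
  · intro Q Q' hQ hQ' hX _ hx hy
    exact NodalRed.sub_mem_K1 _ A.valuation H hQ hQ' hX hx hy
  · intro Q hQ n
    exact NodalRed.e0_nsmul _ A.valuation H hQ n

end Fermat.Agent.S13.Local.FreyTwo
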