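import Fermat.Agent.S13.Local.NodalZc

/-!
# S13 (project G), slice G-L3, part 2: no torsion in the kernel of reduction (induction)

Characteristic-free analogue of `Fermat.Agent.S05.KernelInd` for the nodal model
`y² + a₁ x y = x³ + a₂ x² + a₄ x`.  `zc P = -X P / Y P` is the local parameter at the origin.
Given the key estimates of the kernel of reduction, packaged as `KerRules2` (the sum of two points
of `K1` is in `K1`, and `zc (P + Q) ≡ zc P + zc Q` modulo `max (zc P) (zc Q) ^ 2`), we prove by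
induction `zc (n • P) ≡ n * zc P` modulo `zc P ^ 2`; hence `n • P ≠ 0` for `P ∈ K1`, `P ≠ 0`, as
soon as `n` is a unit for the valuation, and the filtration `v (zc P) ≤ r` consists of subgroups.
-/

set_option autoImplicit false

namespace Fermat.Agent.S13.Local.NodalKernelInd

open Fermat.Agent.S13.Local

variable {K : Type*} [Field K] {G : Type*} [AddCommGroup G] {a₁ a₂ a₄ : K}
  (D : NodalData K G a₁ a₂ a₄)
  {Γ₀ : Type*} [LinearOrderedCommGroupWithZero Γ₀] (v : Valuation K Γ₀)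

/-- The key estimates of the kernel of reduction, as a hypothesis. -/
structure KerRules2 : Prop where
  z_ne : ∀ P, P ≠ 0 → D.K1 v P → D.zc P ≠ 0
  z_lt : ∀ P, P ≠ 0 → D.K1 v P → v (D.zc P) < 1
  add : ∀ P Q, D.K1 v P → D.K1 v Q →
    D.K1 v (P + Q) ∧ v (D.zc (P + Q) - D.zc P - D.zc Q) ≤ (max (v (D.zc P)) (v (D.zc Q))) ^ 2

/-- Natural numbers are integral for every valuation. -/
theorem v_natCast_le_one (n : ℕ) : v (n : K) ≤ 1 := by
  induction n with
  | zero => simp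
  | succ n ih =>
    rw [Nat.cast_succ]
    exact le_trans (v.map_add _ _) (max_le ih (le_of_eq v.map_one))

/-- Integers are integral for every valuation. -/
theorem v_intCast_le_one (n : ℤ) : v (n : K) ≤ 1 := by
  rcases Int.eq_nat_or_neg n with ⟨m, rfl | rfl⟩
  · exact_mod_cast v_natCast_le_one v m
  · rw [Int.cast_neg, Valuation.map_neg]
    exact_mod_cast v_natCast_le_one v m

variable {D v}

namespace KerRules2

variable (R : KerRules2 D v)
include R

theorem v_zc_le_one {P : G} (hK : D.K1 v P) : v (D.zc P) ≤ 1 := by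
  by_cases hP : P = 0
  · subst hP; simp
  · exact (R.z_lt P hP hK).le

theorem v_zc_lt_one {P : G} (hK : D.K1 v P) : v (D.zc P) < 1 := by
  by_cases hP : P = 0
  · subst hP; simp
  · exact R.z_lt P hP hK

theorem v_zc_ne_zero {P : G} (hP : P ≠ 0) (hK : D.K1 v P) : v (D.zc P) ≠ 0 :=
  (Valuation.ne_zero_iff _).mpr (R.z_ne P hP hK)

theorem sq_le_self {P : G} (hK : D.K1 v P) : v (D.zc P) ^ 2 ≤ v (D.zc P) := by
  calc v (D.zc P) ^ 2 = v (D.zc P) * v (D.zc P) := pow_two _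
    _ ≤ 1 * v (D.zc P) := mul_le_mul_left (R.v_zc_le_one hK) _
    _ = v (D.zc P) := one_mul _

theorem k1_add {P Q : G} (hP : D.K1 v P) (hQ : D.K1 v Q) : D.K1 v (P + Q) :=
  (R.add P Q hP hQ).1

theorem max_sq_le_max {P Q : G} (hP : D.K1 v P) (hQ : D.K1 v Q) :
    (max (v (D.zc P)) (v (D.zc Q))) ^ 2 ≤ max (v (D.zc P)) (v (D.zc Q)) := by
  have h1 : max (v (D.zc P)) (v (D.zc Q)) ≤ 1 := max_le (R.v_zc_le_one hP) (R.v_zc_le_one hQ)
  calc (max (v (D.zc P)) (v (D.zc Q))) ^ 2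
      = max (v (D.zc P)) (v (D.zc Q)) * max (v (D.zc P)) (v (D.zc Q)) := pow_two _
    _ ≤ 1 * max (v (D.zc P)) (v (D.zc Q)) := mul_le_mul_left h1 _
    _ = _ := one_mul _

/-- `E_r` is closed under addition: `v (zc (P + Q)) ≤ max (v (zc P)) (v (zc Q))`. -/
theorem v_zc_add_le {P Q : G} (hP : D.K1 v P) (hQ : D.K1 v Q) :
    v (D.zc (P + Q)) ≤ max (v (D.zc P)) (v (D.zc Q)) := by
  have h := (R.add P Q hP hQ).2
  have : D.zc (P + Q) = (D.zc (P + Q) - D.zc P - D.zc Q) + (D.zc P + D.zc Q) := by ring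
  rw [this]
  refine le_trans (v.map_add _ _) (max_le (h.trans (R.max_sq_le_max hP hQ)) ?_)
  exact v.map_add _ _

/-- The negation estimate: `zc (-P) ≡ -zc P` modulo `max (zc P) (zc (-P)) ^ 2`. -/
theorem v_zc_neg_add_le {P : G} (hP : D.K1 v P) :
    v (D.zc (-P) + D.zc P) ≤ (max (v (D.zc P)) (v (D.zc (-P)))) ^ 2 := by
  have h := (R.add P (-P) hP hP.neg).2
  rw [add_neg_cancel, D.zc_zero, zero_sub, ← neg_add', Valuation.map_neg, add_comm] at h
  exact h

/-- `v (zc (-P)) ≤ v (zc P)`. -/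
theorem v_zc_neg_le {P : G} (hP : D.K1 v P) : v (D.zc (-P)) ≤ v (D.zc P) := by
  by_cases hP0 : P = 0
  · subst hP0; simp
  by_contra hlt
  rw [not_le] at hlt
  have hN : D.K1 v (-P) := hP.neg
  have hN0 : -P ≠ 0 := neg_ne_zero.mpr hP0
  have h1 := R.v_zc_neg_add_le hP
  rw [max_eq_right hlt.le] at h1
  -- `v (zc (-P) + zc P) = v (zc (-P))` by the ultrametric inequality
  have h2 : v (D.zc (-P) + D.zc P) = v (D.zc (-P)) := Valuation.map_add_eq_of_lt_left _ hlt
  rw [h2] at h1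
  have h3 : v (D.zc (-P)) ^ 2 < v (D.zc (-P)) := by
    calc v (D.zc (-P)) ^ 2 = v (D.zc (-P)) * v (D.zc (-P)) := pow_two _
      _ < 1 * v (D.zc (-P)) :=
        mul_lt_mul_of_pos_right (R.z_lt _ hN0 hN) (zero_lt_iff.mpr (R.v_zc_ne_zero hN0 hN))
      _ = _ := one_mul _
  exact absurd (lt_of_le_of_lt h1 h3) (lt_irrefl _)

/-- `v (zc (-P)) = v (zc P)`. -/
theorem v_zc_neg {P : G} (hP : D.K1 v P) : v (D.zc (-P)) = v (D.zc P) := by
  refine le_antisymm (R.v_zc_neg_le hP) ?_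
  have := R.v_zc_neg_le hP.neg
  rwa [neg_neg] at this

/-- The negation estimate: `zc (-P) ≡ -zc P` modulo `zc P ^ 2`. -/
theorem v_zc_neg_add_le' {P : G} (hP : D.K1 v P) :
    v (D.zc (-P) + D.zc P) ≤ v (D.zc P) ^ 2 := by
  have h := R.v_zc_neg_add_le hP
  rwa [R.v_zc_neg hP, max_self] at h

/-- `E_r` is closed under subtraction. -/
theorem v_zc_sub_le {P Q : G} (hP : D.K1 v P) (hQ : D.K1 v Q) :
    v (D.zc (P - Q)) ≤ max (v (D.zc P)) (v (D.zc Q)) := by
  rw [sub_eq_add_neg]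
  have := R.v_zc_add_le hP hQ.neg
  rwa [R.v_zc_neg hQ] at this

theorem k1_sub {P Q : G} (hP : D.K1 v P) (hQ : D.K1 v Q) : D.K1 v (P - Q) := by
  rw [sub_eq_add_neg]; exact R.k1_add hP hQ.neg

/-- The induction: `n • P ∈ K1` and `zc (n • P) ≡ n * zc P` modulo `zc P ^ 2`. -/
theorem nsmul_aux {P : G} (hK : D.K1 v P) (n : ℕ) :
    D.K1 v (n • P) ∧ v (D.zc (n • P) - n * D.zc P) ≤ v (D.zc P) ^ 2 := by
  induction n with
  | zero => simp [D.k1_zero v]
  | succ n ih =>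
    obtain ⟨ihK, ihz⟩ := ih
    have hsucc : (n + 1) • P = n • P + P := succ_nsmul P n
    -- `v (zc (n • P)) ≤ v (zc P)`
    have hle : v (D.zc (n • P)) ≤ v (D.zc P) := by
      have : D.zc (n • P) = (D.zc (n • P) - n * D.zc P) + n * D.zc P := by ring
      rw [this]
      refine le_trans (v.map_add _ _) (max_le (ihz.trans (R.sq_le_self hK)) ?_)
      rw [Valuation.map_mul]
      calc v (n : K) * v (D.zc P) ≤ 1 * v (D.zc P) :=
            mul_le_mul_left (v_natCast_le_one v n) _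
        _ = v (D.zc P) := one_mul _
    obtain ⟨hK', hadd⟩ := R.add (n • P) P ihK hK
    rw [max_eq_right hle] at hadd
    refine ⟨by rw [hsucc]; exact hK', ?_⟩
    rw [hsucc]
    have : D.zc (n • P + P) - ((n + 1 : ℕ) : K) * D.zc P
        = (D.zc (n • P + P) - D.zc (n • P) - D.zc P) + (D.zc (n • P) - n * D.zc P) := by
      push_cast; ring
    rw [this]
    exact le_trans (v.map_add _ _) (max_le hadd ihz)

theorem k1_nsmul {P : G} (hK : D.K1 v P) (n : ℕ) : D.K1 v (n • P) := (R.nsmul_aux hK n).1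

/-- (K3) `zc (n • P) ≡ n * zc P` modulo `zc P ^ 2`. -/
theorem v_zc_nsmul_sub_le {P : G} (hK : D.K1 v P) (n : ℕ) :
    v (D.zc (n • P) - n * D.zc P) ≤ v (D.zc P) ^ 2 := (R.nsmul_aux hK n).2

/-- `E_r` is closed under `n •`. -/
theorem v_zc_nsmul_le {P : G} (hK : D.K1 v P) (n : ℕ) : v (D.zc (n • P)) ≤ v (D.zc P) := by
  have : D.zc (n • P) = (D.zc (n • P) - n * D.zc P) + n * D.zc P := by ring
  rw [this]
  refine le_trans (v.map_add _ _)
    (max_le ((R.v_zc_nsmul_sub_le hK n).trans (R.sq_le_self hK)) ?_)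
  rw [Valuation.map_mul]
  calc v (n : K) * v (D.zc P) ≤ 1 * v (D.zc P) := mul_le_mul_left (v_natCast_le_one v n) _
    _ = v (D.zc P) := one_mul _

/-- If `n` is a unit for `v`, then `v (zc (n • P)) = v (zc P)`: multiplication by `n` preserves
the level of the filtration. -/
theorem v_zc_nsmul_eq {P : G} (hK : D.K1 v P) {n : ℕ} (hn : v (n : K) = 1) :
    v (D.zc (n • P)) = v (D.zc P) := by
  by_cases hP : P = 0
  · subst hP; simp
  have hz0 : v (D.zc P) ≠ 0 := R.v_zc_ne_zero hP hK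
  have hlt : v (D.zc (n • P) - n * D.zc P) < v ((n : K) * D.zc P) := by
    rw [Valuation.map_mul, hn, one_mul]
    refine lt_of_le_of_lt (R.v_zc_nsmul_sub_le hK n) ?_
    calc v (D.zc P) ^ 2 = v (D.zc P) * v (D.zc P) := pow_two _
      _ < 1 * v (D.zc P) := mul_lt_mul_of_pos_right (R.z_lt P hP hK) (zero_lt_iff.mpr hz0)
      _ = _ := one_mul _
  have : D.zc (n • P) = (D.zc (n • P) - n * D.zc P) + n * D.zc P := by ring
  rw [this, Valuation.map_add_eq_of_lt_right _ hlt, Valuation.map_mul, hn, one_mul]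

/-- (K4) **No torsion in the kernel of reduction**: a non-zero point of `K1` is not killed by a
natural number which is a unit for the valuation. -/
theorem nsmul_ne_zero_of_k1 {P : G} (hK : D.K1 v P) (hP : P ≠ 0) {n : ℕ} (hn : v (n : K) = 1) :
    n • P ≠ 0 := by
  intro h
  have h1 := R.v_zc_nsmul_eq hK hn
  rw [h, D.zc_zero, Valuation.map_zero] at h1
  exact R.v_zc_ne_zero hP hK h1.symm

/-- Variant: `n • P = 0`, `P ∈ K1`, `n` a unit, imply `P = 0`. -/
theorem eq_zero_of_nsmul_eq_zero {P : G} (hK : D.K1 v P) {n : ℕ} (hn : v (n : K) = 1)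
    (h : n • P = 0) : P = 0 := by
  by_contra hP
  exact R.nsmul_ne_zero_of_k1 hK hP hn h

theorem k1_zsmul {P : G} (hK : D.K1 v P) (n : ℤ) : D.K1 v (n • P) := by
  rcases Int.eq_nat_or_neg n with ⟨m, rfl | rfl⟩
  · rw [natCast_zsmul]; exact R.k1_nsmul hK m
  · rw [neg_zsmul, natCast_zsmul]; exact (R.k1_nsmul hK m).neg

/-- `E_r` is closed under `n •`, `n : ℤ`. -/
theorem v_zc_zsmul_le {P : G} (hK : D.K1 v P) (n : ℤ) : v (D.zc (n • P)) ≤ v (D.zc P) := by
  rcases Int.eq_nat_or_neg n with ⟨m, rfl | rfl⟩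
  · rw [natCast_zsmul]; exact R.v_zc_nsmul_le hK m
  · rw [neg_zsmul, natCast_zsmul, R.v_zc_neg (R.k1_nsmul hK m)]
    exact R.v_zc_nsmul_le hK m

/-- Integer form of (K4). -/
theorem zsmul_ne_zero_of_k1 {P : G} (hK : D.K1 v P) (hP : P ≠ 0) {n : ℤ} (hn : v (n : K) = 1) :
    n • P ≠ 0 := by
  rcases Int.eq_nat_or_neg n with ⟨m, rfl | rfl⟩
  · rw [natCast_zsmul]
    exact R.nsmul_ne_zero_of_k1 hK hP (by exact_mod_cast hn)
  · rw [neg_zsmul, natCast_zsmul, neg_ne_zero]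
    refine R.nsmul_ne_zero_of_k1 hK hP ?_
    rw [Int.cast_neg, Valuation.map_neg] at hn
    exact_mod_cast hn

/-- The filtration of `K1` by the level of `zc`: `E_r = {P ∈ K1 | v (zc P) ≤ r}` as a subgroup. -/
def filtration (r : Γ₀) : AddSubgroup G where
  carrier := {P | D.K1 v P ∧ v (D.zc P) ≤ r}
  zero_mem' := ⟨D.k1_zero v, by simp⟩
  add_mem' := fun {P Q} hP hQ =>
    ⟨R.k1_add hP.1 hQ.1, (R.v_zc_add_le hP.1 hQ.1).trans (max_le hP.2 hQ.2)⟩
  neg_mem' := fun {P} hP => ⟨hP.1.neg, by rw [R.v_zc_neg hP.1]; exact hP.2⟩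

theorem mem_filtration {r : Γ₀} {P : G} :
    P ∈ R.filtration r ↔ D.K1 v P ∧ v (D.zc P) ≤ r := Iff.rfl

/-- The kernel of reduction as a subgroup. -/
def k1Subgroup : AddSubgroup G where
  carrier := {P | D.K1 v P}
  zero_mem' := D.k1_zero v
  add_mem' := fun {_ _} hP hQ => R.k1_add hP hQ
  neg_mem' := fun {_} hP => hP.neg

theorem mem_k1Subgroup {P : G} : P ∈ R.k1Subgroup ↔ D.K1 v P := Iff.rfl

end KerRules2

end Fermat.Agent.S13.Local.NodalKernelInd
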