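import Mathlib
import Fermat.Agent.S13.Local.NodalDefs

/-!
# S13 (project G), slice G-L1: the node region of `y² + a₁ x y = x³ + a₂ x² + a₄ x`

`D : NodalData K G a₁ a₂ a₄`, `v` a valuation on `K` with `Hyp v a₁ a₂ a₄`
(`a₁ a₂` integral, `v a₄ < 1`, `b₂ = a₁² + 4 a₂` a unit; no hypothesis on `v 2`).
For points of the node region `N = {P ≠ 0 : v a₄ < v (X P) < 1}` the quantity
`sg P = Y P / X P` is integral with `sg² + a₁ sg - a₂ ≡ 0`, and `2 sg + a₁` is a unit;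
two points of `N` are on the same branch (`Same`) or on opposite branches (`Opp`), never both.
Transition rules for `P + Q` (`Gen P Q` : chord or tangent):

* `rule_a1` : same branch, `v a₄ < v X₁ * v X₂`  ⟹ `P+Q ∈ N`, `v X₃ = v X₁ * v X₂`, same branch;
* `rule_a2` : same branch, `v X₁ * v X₂ < v a₄`  ⟹ `P+Q ∈ N`, `v X₃ = v a₄² / (v X₁ v X₂)`,
  opposite branch;
* `rule_a3` : same branch, `v X₁ * v X₂ = v a₄`  ⟹ `v X₃ ≤ v a₄` (middle zone);
* `rule_b1` : opposite branches, `v X₂ < v X₁`   ⟹ `P+Q ∈ N`, `v X₃ = v X₂ / v X₁`, branch of `Q`;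
* `rule_b1'`: symmetric;
* `rule_b2` : opposite branches, `v X₁ = v X₂`   ⟹ `1 ≤ v X₃`;
* `mid_double` : `v (X P) ≤ v a₄`, `T P ≠ 0` ⟹ `1 ≤ v (X (P + P))`.

The packaged forms `same_rule`, `opp_rule`, `dbl_mid_rule`, `opp_eq_rule` are the inputs of the
phase argument.  This is the characteristic-free port of `Fermat.Agent.S05.Node`.
-/

set_option autoImplicit false
set_option linter.unusedSectionVars false

namespace Fermat.Agent.S13.Local.NodalNode

open Fermat.Agent.S13.Local Fermat.Agent.S13.Local.NodalData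

variable {K : Type*} [Field K] {G : Type*} [AddCommGroup G] {a₁ a₂ a₄ : K}
variable {Γ₀ : Type*} [LinearOrderedCommGroupWithZero Γ₀]

section val

variable (v : Valuation K Γ₀)

theorem sq_eq_one_gamma {a : Γ₀} (h : a ^ 2 = 1) : a = 1 := by
  rcases pow_eq_one_iff.1 h with h | h
  · exact h
  · norm_num at h

theorem v_two_le : v (2 : K) ≤ 1 := by
  have : (2 : K) = 1 + 1 := by norm_num
  rw [this]
  exact Valuation.map_add_le v (le_of_eq v.map_one) (le_of_eq v.map_one)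

theorem v_four_le : v (4 : K) ≤ 1 := by
  have : (4 : K) = 2 * 2 := by norm_num
  rw [this, map_mul]
  exact mul_le_one' (v_two_le v) (v_two_le v)

theorem v_mul_lt_of_le_of_lt {x y : K} (hx : v x ≤ 1) (hy : v y < 1) : v (x * y) < 1 := by
  rw [map_mul]
  calc v x * v y ≤ 1 * v y := mul_le_mul' hx le_rfl
    _ = v y := one_mul _
    _ < 1 := hy

end val

end Fermat.Agent.S13.Local.NodalNode

namespace Fermat.Agent.S13.Local.NodalData

open Fermat.Agent.S13.Local.NodalNode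

variable {K : Type*} [Field K] {G : Type*} [AddCommGroup G] {a₁ a₂ a₄ : K}
variable {Γ₀ : Type*} [LinearOrderedCommGroupWithZero Γ₀]

section val

variable (v : Valuation K Γ₀)

/-- `a₁` is a unit as soon as `2` is not (residue characteristic `2`). -/
theorem Hyp.v_a1_of_two (H : Hyp v a₁ a₂ a₄) (h2 : v (2 : K) < 1) : v a₁ = 1 := by
  have h4 : v (4 * a₂) < 1 := by
    have : (4 : K) * a₂ = 2 * (2 * a₂) := by ring
    rw [this, mul_comm]
    refine v_mul_lt_of_le_of_lt v ?_ h2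
    rw [map_mul]
    exact mul_le_one' (v_two_le v) H.a2
  have h1 : v (a₁ ^ 2) = 1 := by
    have : a₁ ^ 2 = (a₁ ^ 2 + 4 * a₂) - 4 * a₂ := by ring
    rw [this, Valuation.map_sub_eq_of_lt_left v (by rw [H.b2]; exact h4), H.b2]
  rw [map_pow] at h1
  exact sq_eq_one_gamma h1

end val

section basic

variable {D : NodalData K G a₁ a₂ a₄} {v : Valuation K Γ₀}

theorem InN.ne_zero {P : G} (h : D.InN v P) : P ≠ 0 := h.1

theorem InN.vX_pos {P : G} (h : D.InN v P) : 0 < v (D.X P) :=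
  lt_of_le_of_lt zero_le h.2.1

theorem InN.vX_ne_zero {P : G} (h : D.InN v P) : v (D.X P) ≠ 0 := h.vX_pos.ne'

theorem InN.X_ne_zero {P : G} (h : D.InN v P) : D.X P ≠ 0 := by
  intro h0
  have := h.vX_ne_zero
  rw [h0, map_zero] at this
  exact this rfl

/-- `sg² + a₁ sg - a₂ ≡ 0` in the node region. -/
theorem InN.v_sg_sq_lt (_H : Hyp v a₁ a₂ a₄) {P : G} (h : D.InN v P) :
    v (D.sg P ^ 2 + a₁ * D.sg P - a₂) < 1 := by
  rw [sg_sq h.ne_zero h.X_ne_zero]
  refine Valuation.map_add_lt v h.2.2 ?_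
  rw [map_div₀]
  exact (div_lt_one₀ h.vX_pos).2 h.2.1

/-- `sg` is integral in the node region. -/
theorem InN.v_sg_le (H : Hyp v a₁ a₂ a₄) {P : G} (h : D.InN v P) : v (D.sg P) ≤ 1 := by
  by_contra hcon
  push Not at hcon
  have h1 := h.v_sg_sq_lt H
  set s := D.sg P with hs
  have hs0 : 0 < v s := lt_trans zero_lt_one hcon
  have hsq : v s < v (s ^ 2) := by
    rw [map_pow, sq]
    calc v s = v s * 1 := (mul_one _).symm
      _ < v s * v s := mul_lt_mul_of_pos_left hcon hs0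
  have h2 : v (a₁ * s) < v (s ^ 2) := by
    refine lt_of_le_of_lt ?_ hsq
    rw [map_mul]
    calc v a₁ * v s ≤ 1 * v s := mul_le_mul' H.a1 le_rfl
      _ = v s := one_mul _
  have h3 : v (s ^ 2 + a₁ * s) = v (s ^ 2) := Valuation.map_add_eq_of_lt_left v h2
  have h4 : v a₂ < v (s ^ 2 + a₁ * s) := by
    rw [h3]
    exact lt_of_le_of_lt H.a2 (lt_trans hcon hsq)
  rw [Valuation.map_sub_eq_of_lt_left v h4, h3] at h1
  exact absurd (lt_trans (lt_trans hcon hsq) h1) (lt_irrefl _)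

/-- `(2 sg + a₁)² = 4 (sg² + a₁ sg - a₂) + b₂`. -/
theorem InN.v_two_sg_add (H : Hyp v a₁ a₂ a₄) {P : G} (h : D.InN v P) :
    v (2 * D.sg P + a₁) = 1 := by
  have h1 : v (4 * (D.sg P ^ 2 + a₁ * D.sg P - a₂)) < 1 :=
    v_mul_lt_of_le_of_lt v (v_four_le v) (h.v_sg_sq_lt H)
  have h2 : (2 * D.sg P + a₁) ^ 2 =
      4 * (D.sg P ^ 2 + a₁ * D.sg P - a₂) + (a₁ ^ 2 + 4 * a₂) := by ring
  have h3 : v ((2 * D.sg P + a₁) ^ 2) = 1 := by
    rw [h2, Valuation.map_add_eq_of_lt_right v (by rw [H.b2]; exact h1), H.b2]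
  rw [map_pow] at h3
  exact sq_eq_one_gamma h3

/-- `v (T P) = v (X P)` in the node region. -/
theorem InN.v_T (H : Hyp v a₁ a₂ a₄) {P : G} (h : D.InN v P) : v (D.T P) = v (D.X P) := by
  have h1 := h.v_two_sg_add H
  rw [two_sg_add h.X_ne_zero, map_div₀, div_eq_one_iff_eq h.vX_ne_zero] at h1
  exact h1

theorem InN.T_ne_zero (H : Hyp v a₁ a₂ a₄) {P : G} (h : D.InN v P) : D.T P ≠ 0 := by
  intro h0
  have := h.v_T H
  rw [h0, map_zero] at this
  exact h.vX_ne_zero this.symm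

/-- Doubling inside the node region is always in general position. -/
theorem InN.gen_self (H : Hyp v a₁ a₂ a₄) {P : G} (hP : D.InN v P) : D.Gen P P :=
  D.gen_self hP.ne_zero (hP.T_ne_zero H)

theorem InN.v_Y_le (H : Hyp v a₁ a₂ a₄) {P : G} (h : D.InN v P) : v (D.Y P) ≤ v (D.X P) := by
  rw [← sg_mul_X h.X_ne_zero, map_mul]
  calc v (D.sg P) * v (D.X P) ≤ 1 * v (D.X P) := mul_le_mul' (h.v_sg_le H) le_rfl
    _ = v (D.X P) := one_mul _

theorem opp_neg_self {P : G} (hP : P ≠ 0) (hX : D.X P ≠ 0) : D.Opp v P (-P) := by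
  unfold NodalData.Opp
  rw [sg_neg hP hX]
  have : D.sg P + (-D.sg P - a₁) + a₁ = 0 := by ring
  rw [this, map_zero]
  exact zero_lt_one

theorem same_refl (P : G) : D.Same v P P := by
  unfold NodalData.Same
  rw [sub_self, map_zero]
  exact zero_lt_one

theorem Same.symm {P Q : G} (h : D.Same v P Q) : D.Same v Q P := by
  unfold NodalData.Same at *
  rwa [Valuation.map_sub_swap]

theorem Opp.symm {P Q : G} (h : D.Opp v P Q) : D.Opp v Q P := by
  unfold NodalData.Opp at *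
  rwa [add_comm (D.sg Q)]

theorem Same.trans {P Q R : G} (h1 : D.Same v P Q) (h2 : D.Same v Q R) : D.Same v P R := by
  unfold NodalData.Same at *
  have : D.sg P - D.sg R = (D.sg P - D.sg Q) + (D.sg Q - D.sg R) := by ring
  rw [this]
  exact Valuation.map_add_lt v h1 h2

theorem Same.opp {P Q R : G} (h1 : D.Same v P Q) (h2 : D.Opp v Q R) : D.Opp v P R := by
  unfold NodalData.Same NodalData.Opp at *
  have : D.sg P + D.sg R + a₁ = (D.sg P - D.sg Q) + (D.sg Q + D.sg R + a₁) := by ring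
  rw [this]
  exact Valuation.map_add_lt v h1 h2

theorem Opp.same {P Q R : G} (h1 : D.Opp v P Q) (h2 : D.Same v Q R) : D.Opp v P R := by
  unfold NodalData.Same NodalData.Opp at *
  have : D.sg P + D.sg R + a₁ = (D.sg P + D.sg Q + a₁) - (D.sg Q - D.sg R) := by ring
  rw [this]
  exact Valuation.map_sub_lt v h1 h2

theorem Opp.opp {P Q R : G} (h1 : D.Opp v P Q) (h2 : D.Opp v Q R) : D.Same v P R := by
  unfold NodalData.Same NodalData.Opp at *
  have : D.sg P - D.sg R = (D.sg P + D.sg Q + a₁) - (D.sg Q + D.sg R + a₁) := by ring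
  rw [this]
  exact Valuation.map_sub_lt v h1 h2

/-- Not both same and opposite (the sum `2 sg P + a₁` is a unit). -/
theorem not_same_and_opp (H : Hyp v a₁ a₂ a₄) {P Q : G} (hP : D.InN v P)
    (h1 : D.Same v P Q) (h2 : D.Opp v P Q) : False := by
  unfold NodalData.Same NodalData.Opp at *
  have h3 : v (2 * D.sg P + a₁) < 1 := by
    have : 2 * D.sg P + a₁ = (D.sg P - D.sg Q) + (D.sg P + D.sg Q + a₁) := by ring
    rw [this]
    exact Valuation.map_add_lt v h1 h2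
  rw [hP.v_two_sg_add H] at h3
  exact lt_irrefl _ h3

/-- Two points of the node region are on the same branch or on opposite branches. -/
theorem same_or_opp (H : Hyp v a₁ a₂ a₄) {P Q : G} (hP : D.InN v P) (hQ : D.InN v Q) :
    D.Same v P Q ∨ D.Opp v P Q := by
  unfold NodalData.Same NodalData.Opp
  by_contra hcon
  push Not at hcon
  obtain ⟨h1, h2⟩ := hcon
  have hle1 : v (D.sg P - D.sg Q) ≤ 1 :=
    Valuation.map_sub_le v (hP.v_sg_le H) (hQ.v_sg_le H)
  have hle2 : v (D.sg P + D.sg Q + a₁) ≤ 1 :=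
    Valuation.map_add_le v (Valuation.map_add_le v (hP.v_sg_le H) (hQ.v_sg_le H)) H.a1
  have e1 : v (D.sg P - D.sg Q) = 1 := le_antisymm hle1 h1
  have e2 : v (D.sg P + D.sg Q + a₁) = 1 := le_antisymm hle2 h2
  have h3 : v ((D.sg P - D.sg Q) * (D.sg P + D.sg Q + a₁)) < 1 := by
    have : (D.sg P - D.sg Q) * (D.sg P + D.sg Q + a₁) =
        (D.sg P ^ 2 + a₁ * D.sg P - a₂) - (D.sg Q ^ 2 + a₁ * D.sg Q - a₂) := by ring
    rw [this]
    exact Valuation.map_sub_lt v (hP.v_sg_sq_lt H) (hQ.v_sg_sq_lt H)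
  rw [map_mul, e1, e2, one_mul] at h3
  exact lt_irrefl _ h3

theorem Same.v_add (H : Hyp v a₁ a₂ a₄) {P Q : G} (hP : D.InN v P) (hQ : D.InN v Q)
    (h : D.Same v P Q) : v (D.sg P + D.sg Q + a₁) = 1 := by
  have hle : v (D.sg P + D.sg Q + a₁) ≤ 1 :=
    Valuation.map_add_le v (Valuation.map_add_le v (hP.v_sg_le H) (hQ.v_sg_le H)) H.a1
  refine le_antisymm hle ?_
  by_contra hlt
  push Not at hlt
  exact not_same_and_opp H hP h hlt

theorem Opp.v_sub (H : Hyp v a₁ a₂ a₄) {P Q : G} (hP : D.InN v P) (hQ : D.InN v Q)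
    (h : D.Opp v P Q) : v (D.sg P - D.sg Q) = 1 := by
  have hle : v (D.sg P - D.sg Q) ≤ 1 :=
    Valuation.map_sub_le v (hP.v_sg_le H) (hQ.v_sg_le H)
  refine le_antisymm hle ?_
  by_contra hlt
  push Not at hlt
  exact not_same_and_opp H hP hlt h

theorem not_opp_iff_same (H : Hyp v a₁ a₂ a₄) {P Q : G} (hP : D.InN v P) (hQ : D.InN v Q) :
    ¬ D.Opp v P Q ↔ D.Same v P Q := by
  constructor
  · intro h
    exact (same_or_opp H hP hQ).resolve_right h
  · intro h h'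
    exact not_same_and_opp H hP h h'

theorem not_same_iff_opp (H : Hyp v a₁ a₂ a₄) {P Q : G} (hP : D.InN v P) (hQ : D.InN v Q) :
    ¬ D.Same v P Q ↔ D.Opp v P Q := by
  constructor
  · intro h
    exact (same_or_opp H hP hQ).resolve_left h
  · intro h h'
    exact not_same_and_opp H hP h' h

end basic

end Fermat.Agent.S13.Local.NodalData

namespace Fermat.Agent.S13.Local.NodalNode

open Fermat.Agent.S13.Local Fermat.Agent.S13.Local.NodalData

variable {K : Type*} [Field K] {G : Type*} [AddCommGroup G] {a₁ a₂ a₄ : K}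
variable {Γ₀ : Type*} [LinearOrderedCommGroupWithZero Γ₀]

section rules

variable {D : NodalData K G a₁ a₂ a₄} {v : Valuation K Γ₀}

/-- valuation form of `Phi1`. -/
theorem v_Phi1 {P Q : G} (h : D.Gen P Q) :
    v (D.X (P + Q)) * (v (D.X P) * v (D.X Q)) = v (D.nu P Q) ^ 2 := by
  have := congrArg v h.Phi1
  rw [map_mul, map_mul, map_pow] at this
  rw [← this, mul_assoc]

/-- On the same branch `v nu = v (X P X Q - a₄)`. -/
theorem v_nu_same (H : Hyp v a₁ a₂ a₄) {P Q : G} (h : D.Gen P Q) (hP : D.InN v P)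
    (hQ : D.InN v Q) (hs : D.Same v P Q) : v (D.nu P Q) = v (D.X P * D.X Q - a₄) := by
  have := congrArg v (nu_mul_add h hP.X_ne_zero hQ.X_ne_zero)
  rw [map_mul, hs.v_add H hP hQ, mul_one, Valuation.map_neg] at this
  exact this

/-- On opposite branches `v nu * v (X Q - X P) = v (X P) * v (X Q)`. -/
theorem v_nu_opp (H : Hyp v a₁ a₂ a₄) {P Q : G} (h : D.Gen P Q) (hP : D.InN v P)
    (hQ : D.InN v Q) (ho : D.Opp v P Q) :
    v (D.nu P Q) * v (D.X Q - D.X P) = v (D.X P) * v (D.X Q) := by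
  have := congrArg v (nu_mul_sub h hP.X_ne_zero hQ.X_ne_zero)
  rw [map_mul, map_mul, map_mul, ho.v_sub H hP hQ, mul_one] at this
  exact this

/-- **Rule (a1)**: same branch, no wrap-around. -/
theorem rule_a1 (H : Hyp v a₁ a₂ a₄) {P Q : G} (h : D.Gen P Q) (hP : D.InN v P)
    (hQ : D.InN v Q) (hs : D.Same v P Q) (hlt : v a₄ < v (D.X P) * v (D.X Q)) :
    D.InN v (P + Q) ∧ v (D.X (P + Q)) = v (D.X P) * v (D.X Q) ∧ D.Same v (P + Q) P := by
  have hx12 : v (D.X P * D.X Q) = v (D.X P) * v (D.X Q) := map_mul _ _ _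
  have hpos : 0 < v (D.X P) * v (D.X Q) := mul_pos hP.vX_pos hQ.vX_pos
  have hnu : v (D.nu P Q) = v (D.X P) * v (D.X Q) := by
    rw [v_nu_same H h hP hQ hs, Valuation.map_sub_eq_of_lt_left v (by rw [hx12]; exact hlt),
      hx12]
  have hx3 : v (D.X (P + Q)) = v (D.X P) * v (D.X Q) := by
    have h1 := v_Phi1 (v := v) h
    rw [hnu, sq] at h1
    exact mul_right_cancel₀ hpos.ne' h1
  have hN : D.InN v (P + Q) := by
    refine ⟨h.add_ne_zero, by rw [hx3]; exact hlt, ?_⟩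
    rw [hx3]
    exact mul_lt_one' hP.2.2 hQ.2.2
  refine ⟨hN, hx3, ?_⟩
  rw [← not_opp_iff_same H hN hP]
  intro ho
  unfold NodalData.Opp at ho
  have h1 := congrArg v (sg_add_left h hP.X_ne_zero hN.X_ne_zero)
  have hlt3 : v (D.X (P + Q)) < v (D.X P) := by
    rw [hx3]
    calc v (D.X P) * v (D.X Q) < v (D.X P) * 1 := by
          exact mul_lt_mul_of_pos_left hQ.2.2 hP.vX_pos
      _ = v (D.X P) := mul_one _
  rw [map_mul, map_mul, map_mul, Valuation.map_sub_eq_of_lt_right v hlt3, hnu, hx3] at h1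
  have h2 : v (D.sg (P + Q) + D.sg P + a₁) * (v (D.X P) * (v (D.X P) * v (D.X Q))) =
      1 * (v (D.X P) * (v (D.X P) * v (D.X Q))) := by
    rw [h1, one_mul]; ac_rfl
  have h3 := mul_right_cancel₀ (mul_pos hP.vX_pos hpos).ne' h2
  rw [h3] at ho
  exact lt_irrefl _ ho

/-- **Rule (a2)**: same branch, wrap-around: the branch flips. -/
theorem rule_a2 (H : Hyp v a₁ a₂ a₄) {P Q : G} (h : D.Gen P Q) (hP : D.InN v P)
    (hQ : D.InN v Q) (hs : D.Same v P Q) (hlt : v (D.X P) * v (D.X Q) < v a₄) :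
    D.InN v (P + Q) ∧ v (D.X (P + Q)) = v a₄ ^ 2 / (v (D.X P) * v (D.X Q)) ∧
      D.Opp v (P + Q) P := by
  have hx12 : v (D.X P * D.X Q) = v (D.X P) * v (D.X Q) := map_mul _ _ _
  have hpos : 0 < v (D.X P) * v (D.X Q) := mul_pos hP.vX_pos hQ.vX_pos
  have he1pos : 0 < v a₄ := lt_trans hpos hlt
  have hnu : v (D.nu P Q) = v a₄ := by
    rw [v_nu_same H h hP hQ hs, Valuation.map_sub_eq_of_lt_right v (by rw [hx12]; exact hlt)]
  have hx3 : v (D.X (P + Q)) = v a₄ ^ 2 / (v (D.X P) * v (D.X Q)) := by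
    have h1 := v_Phi1 (v := v) h
    rw [hnu] at h1
    rw [eq_div_iff hpos.ne']
    exact h1
  have hgt : v a₄ < v (D.X (P + Q)) := by
    rw [hx3, lt_div_iff₀ hpos, sq]
    exact mul_lt_mul_of_pos_left hlt he1pos
  have hlt1 : v (D.X (P + Q)) < 1 := by
    rw [hx3, div_lt_one₀ hpos, sq]
    exact mul_lt_mul'' hP.2.1 hQ.2.1 zero_le zero_le
  have hN : D.InN v (P + Q) := ⟨h.add_ne_zero, hgt, hlt1⟩
  refine ⟨hN, hx3, ?_⟩
  unfold NodalData.Opp
  have h1 := congrArg v (sg_add_left h hP.X_ne_zero hN.X_ne_zero)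
  rw [map_mul, map_mul, map_mul, hnu] at h1
  have hmax : v (D.X (P + Q) - D.X P) ≤ max (v (D.X (P + Q))) (v (D.X P)) :=
    Valuation.map_sub v _ _
  by_contra hcon
  push Not at hcon
  have h2 : v (D.X P) * v (D.X (P + Q)) ≤ v a₄ * v (D.X (P + Q) - D.X P) := by
    rw [← h1]
    calc v (D.X P) * v (D.X (P + Q)) = 1 * (v (D.X P) * v (D.X (P + Q))) := (one_mul _).symm
      _ ≤ v (D.sg (P + Q) + D.sg P + a₁) * (v (D.X P) * v (D.X (P + Q))) :=
          mul_le_mul' hcon le_rfl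
  rcases le_max_iff.1 hmax with h3 | h3
  · have h4 : v (D.X P) * v (D.X (P + Q)) ≤ v a₄ * v (D.X (P + Q)) :=
      le_trans h2 (mul_le_mul' le_rfl h3)
    have h5 := le_of_mul_le_mul_right h4 hN.vX_pos
    exact absurd hP.2.1 (not_lt.2 h5)
  · have h4 : v (D.X P) * v (D.X (P + Q)) ≤ v a₄ * v (D.X P) :=
      le_trans h2 (mul_le_mul' le_rfl h3)
    rw [mul_comm (v (D.X P))] at h4
    have h5 := le_of_mul_le_mul_right h4 hP.vX_pos
    exact absurd hgt (not_lt.2 h5)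

/-- **Rule (a3)**: same branch, the sum lands in the middle zone. -/
theorem rule_a3 (H : Hyp v a₁ a₂ a₄) {P Q : G} (h : D.Gen P Q) (hP : D.InN v P)
    (hQ : D.InN v Q) (hs : D.Same v P Q) (heq : v (D.X P) * v (D.X Q) = v a₄) :
    v (D.X (P + Q)) ≤ v a₄ := by
  have hx12 : v (D.X P * D.X Q) = v (D.X P) * v (D.X Q) := map_mul _ _ _
  have hpos : 0 < v (D.X P) * v (D.X Q) := mul_pos hP.vX_pos hQ.vX_pos
  have hnu : v (D.nu P Q) ≤ v a₄ := by
    rw [v_nu_same H h hP hQ hs]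
    exact Valuation.map_sub_le v (by rw [hx12, heq]) le_rfl
  have h1 := v_Phi1 (v := v) h
  rw [heq] at h1
  have he1pos : 0 < v a₄ := heq ▸ hpos
  have h2 : v (D.X (P + Q)) * v a₄ ≤ v a₄ * v a₄ := by
    rw [h1, sq]
    exact mul_le_mul' hnu hnu
  exact le_of_mul_le_mul_right h2 he1pos

/-- **Rule (b1)**: opposite branches, `X Q` more divisible: the sum is on the branch of `Q`. -/
theorem rule_b1 (H : Hyp v a₁ a₂ a₄) {P Q : G} (h : D.Gen P Q) (hP : D.InN v P)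
    (hQ : D.InN v Q) (ho : D.Opp v P Q) (hlt : v (D.X Q) < v (D.X P)) :
    D.InN v (P + Q) ∧ v (D.X (P + Q)) = v (D.X Q) / v (D.X P) ∧ D.Same v (P + Q) Q := by
  have hnu : v (D.nu P Q) = v (D.X Q) := by
    have h1 := v_nu_opp H h hP hQ ho
    rw [Valuation.map_sub_eq_of_lt_right v hlt, mul_comm (v (D.X P))] at h1
    exact mul_right_cancel₀ hP.vX_ne_zero h1
  have hx3' : v (D.X (P + Q)) * v (D.X P) = v (D.X Q) := by
    have h1 := v_Phi1 (v := v) h
    rw [hnu, sq, ← mul_assoc] at h1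
    exact mul_right_cancel₀ hQ.vX_ne_zero h1
  have hx3 : v (D.X (P + Q)) = v (D.X Q) / v (D.X P) := by
    rw [eq_div_iff hP.vX_ne_zero]; exact hx3'
  have hgt : v (D.X Q) < v (D.X (P + Q)) := by
    rw [hx3, lt_div_iff₀ hP.vX_pos]
    calc v (D.X Q) * v (D.X P) < v (D.X Q) * 1 := mul_lt_mul_of_pos_left hP.2.2 hQ.vX_pos
      _ = v (D.X Q) := mul_one _
  have hN : D.InN v (P + Q) := by
    refine ⟨h.add_ne_zero, lt_trans hQ.2.1 hgt, ?_⟩
    rw [hx3, div_lt_one₀ hP.vX_pos]; exact hlt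
  refine ⟨hN, hx3, ?_⟩
  rw [← not_opp_iff_same H hN hQ]
  intro ho'
  unfold NodalData.Opp at ho'
  have h1 := congrArg v (sg_add_right h hQ.X_ne_zero hN.X_ne_zero)
  rw [map_mul, map_mul, map_mul, Valuation.map_sub_eq_of_lt_left v hgt, hnu] at h1
  have h2 : v (D.sg (P + Q) + D.sg Q + a₁) * (v (D.X Q) * v (D.X (P + Q))) =
      1 * (v (D.X Q) * v (D.X (P + Q))) := by
    rw [h1, one_mul]
  have h3 := mul_right_cancel₀ (mul_pos hQ.vX_pos hN.vX_pos).ne' h2
  rw [h3] at ho'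
  exact lt_irrefl _ ho'

/-- **Rule (b2)**: opposite branches, equal valuations: the sum leaves the node region. -/
theorem rule_b2 (H : Hyp v a₁ a₂ a₄) {P Q : G} (h : D.Gen P Q) (hP : D.InN v P)
    (hQ : D.InN v Q) (ho : D.Opp v P Q) (heq : v (D.X P) = v (D.X Q)) :
    1 ≤ v (D.X (P + Q)) := by
  have h1 := v_nu_opp H h hP hQ ho
  have h2 := v_Phi1 (v := v) h
  have hd : v (D.X Q - D.X P) ≤ v (D.X P) :=
    Valuation.map_sub_le v heq.symm.le le_rfl
  have hd0 : v (D.X Q - D.X P) ≠ 0 := by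
    intro h0
    rw [h0, mul_zero] at h1
    exact (mul_pos hP.vX_pos hQ.vX_pos).ne h1
  have hdpos : 0 < v (D.X Q - D.X P) := zero_lt_iff.2 hd0
  have hnu : v (D.X P) ≤ v (D.nu P Q) := by
    rw [← heq] at h1
    have : v (D.X P) * v (D.X Q - D.X P) ≤ v (D.nu P Q) * v (D.X Q - D.X P) := by
      rw [h1]
      exact mul_le_mul' le_rfl hd
    exact le_of_mul_le_mul_right this hdpos
  rw [← heq] at h2
  have h3 : 1 * (v (D.X P) * v (D.X P)) ≤ v (D.X (P + Q)) * (v (D.X P) * v (D.X P)) := by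
    rw [h2, one_mul, sq]
    exact mul_le_mul' hnu hnu
  exact le_of_mul_le_mul_right h3 (mul_pos hP.vX_pos hP.vX_pos)

/-- `T² = 4 X³ + b₂ X² + 4 a₄ X`. -/
theorem T_sq {P : G} (hP : P ≠ 0) :
    D.T P ^ 2 = 4 * D.X P ^ 3 + (a₁ ^ 2 + 4 * a₂) * D.X P ^ 2 + 4 * a₄ * D.X P := by
  have h := D.eqn P hP
  unfold NodalData.T
  linear_combination 4 * h

/-- **Middle zone**: if `v (X P) ≤ v a₄` and `P` is not 2-torsion then `X (2P) ∉ 𝔪`. -/
theorem mid_double (H : Hyp v a₁ a₂ a₄) {P : G} (hP : P ≠ 0) (hT : D.T P ≠ 0)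
    (hle : v (D.X P) ≤ v a₄) : 1 ≤ v (D.X (P + P)) := by
  have hX : D.X P ≠ 0 := X_ne_zero_of_T_ne_zero hP hT
  have hXpos : 0 < v (D.X P) := zero_lt_iff.2 ((map_ne_zero v).2 hX)
  have he1pos : 0 < v a₄ := lt_of_lt_of_le hXpos hle
  have hXlt : v (D.X P) < 1 := lt_of_le_of_lt hle H.a4
  have key := dup hP hT
  have hv := congrArg v key
  rw [map_mul, map_pow, map_pow] at hv
  -- v (X^2 - a4) = v a4
  have hnum : v (D.X P ^ 2 - a₄) = v a₄ := by
    rw [Valuation.map_sub_eq_of_lt_right v]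
    rw [map_pow, sq]
    calc v (D.X P) * v (D.X P) ≤ v a₄ * v (D.X P) := mul_le_mul' hle le_rfl
      _ < v a₄ * 1 := mul_lt_mul_of_pos_left hXlt he1pos
      _ = v a₄ := mul_one _
  -- v (T^2) ≤ v a4 ^ 2
  have hX2 : v (D.X P) ^ 2 ≤ v a₄ ^ 2 := by
    rw [sq, sq]; exact mul_le_mul' hle hle
  have hden : v (D.T P) ^ 2 ≤ v a₄ ^ 2 := by
    rw [← map_pow, T_sq hP]
    refine Valuation.map_add_le v (Valuation.map_add_le v ?_ ?_) ?_
    · rw [map_mul, map_pow]
      have h3 : v (D.X P) ^ 3 ≤ v (D.X P) ^ 2 := by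
        rw [pow_succ]
        calc v (D.X P) ^ 2 * v (D.X P) ≤ v (D.X P) ^ 2 * 1 := mul_le_mul' le_rfl hXlt.le
          _ = v (D.X P) ^ 2 := mul_one _
      calc v (4 : K) * v (D.X P) ^ 3 ≤ 1 * v (D.X P) ^ 2 := mul_le_mul' (v_four_le v) h3
        _ = v (D.X P) ^ 2 := one_mul _
        _ ≤ v a₄ ^ 2 := hX2
    · rw [map_mul, map_pow, H.b2, one_mul]; exact hX2
    · rw [map_mul, map_mul, sq]
      calc v (4 : K) * v a₄ * v (D.X P) ≤ 1 * v a₄ * v a₄ :=
            mul_le_mul' (mul_le_mul' (v_four_le v) le_rfl) hle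
        _ = v a₄ * v a₄ := by rw [one_mul]
  rw [hnum] at hv
  have hTpos : 0 < v (D.T P) ^ 2 := pow_pos (zero_lt_iff.2 ((map_ne_zero v).2 hT)) 2
  have h3 : 1 * v (D.T P) ^ 2 ≤ v (D.X (P + P)) * v (D.T P) ^ 2 := by
    rw [hv, one_mul]; exact hden
  exact le_of_mul_le_mul_right h3 hTpos

/-- **Rule (b1')**: opposite branches, `X P` more divisible: the sum is on the branch of `P`. -/
theorem rule_b1' (H : Hyp v a₁ a₂ a₄) {P Q : G} (h : D.Gen P Q) (hP : D.InN v P)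
    (hQ : D.InN v Q) (ho : D.Opp v P Q) (hlt : v (D.X P) < v (D.X Q)) :
    D.InN v (P + Q) ∧ v (D.X (P + Q)) = v (D.X P) / v (D.X Q) ∧ D.Same v (P + Q) P := by
  have := rule_b1 H (D.gen_symm h) hQ hP ho.symm hlt
  rwa [add_comm Q P] at this

end rules

/-! ### Packaged rules (inputs of the phase argument) -/

section packaged

variable {D : NodalData K G a₁ a₂ a₄} {v : Valuation K Γ₀}

/-- Sum of two points on the same branch, when the sum is again in the node region. -/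
theorem same_rule (H : Hyp v a₁ a₂ a₄) {P Q : G} (hP : D.InN v P) (hQ : D.InN v Q)
    (hPQ : D.InN v (P + Q)) (hs : D.Same v P Q) :
    (D.Same v (P + Q) P ∧ v (D.X (P + Q)) = v (D.X P) * v (D.X Q)) ∨
    (D.Opp v (P + Q) P ∧ v (D.X (P + Q)) * (v (D.X P) * v (D.X Q)) = v a₄ ^ 2) := by
  have hgen : D.Gen P Q := (D.gen_or_add_eq_zero hP.1 hQ.1).resolve_right hPQ.1
  rcases lt_trichotomy (v a₄) (v (D.X P) * v (D.X Q)) with hlt | heq | hgt
  · obtain ⟨_, hx, hb⟩ := rule_a1 H hgen hP hQ hs hlt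
    exact Or.inl ⟨hb, hx⟩
  · exfalso
    have := rule_a3 H hgen hP hQ hs heq.symm
    exact absurd hPQ.2.1 (not_lt.2 this)
  · obtain ⟨_, hx, hb⟩ := rule_a2 H hgen hP hQ hs hgt
    refine Or.inr ⟨hb, ?_⟩
    rw [hx]
    exact div_mul_cancel₀ _ (mul_pos hP.vX_pos hQ.vX_pos).ne'

/-- Sum of two points on opposite branches, when the sum is again in the node region. -/
theorem opp_rule (H : Hyp v a₁ a₂ a₄) {P Q : G} (hP : D.InN v P) (hQ : D.InN v Q)
    (hPQ : D.InN v (P + Q)) (ho : D.Opp v P Q) :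
    (D.Same v (P + Q) Q ∧ v (D.X (P + Q)) * v (D.X P) = v (D.X Q)) ∨
    (D.Same v (P + Q) P ∧ v (D.X (P + Q)) * v (D.X Q) = v (D.X P)) := by
  have hgen : D.Gen P Q := (D.gen_or_add_eq_zero hP.1 hQ.1).resolve_right hPQ.1
  rcases lt_trichotomy (v (D.X Q)) (v (D.X P)) with hlt | heq | hgt
  · obtain ⟨_, hx, hb⟩ := rule_b1 H hgen hP hQ ho hlt
    refine Or.inl ⟨hb, ?_⟩
    rw [hx]
    exact div_mul_cancel₀ _ hP.vX_ne_zero
  · exfalso
    have := rule_b2 H hgen hP hQ ho heq.symm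
    exact absurd hPQ.2.2 (not_lt.2 this)
  · obtain ⟨_, hx, hb⟩ := rule_b1' H hgen hP hQ ho hgt
    refine Or.inr ⟨hb, ?_⟩
    rw [hx]
    exact div_mul_cancel₀ _ hQ.vX_ne_zero

/-- Doubling a point of the middle zone: zero or non-singular reduction. -/
theorem dbl_mid_rule (H : Hyp v a₁ a₂ a₄) {P : G} (hP : D.InMid v P) :
    P + P = 0 ∨ 1 ≤ v (D.X (P + P)) := by
  by_cases hT : D.T P = 0
  · exact Or.inl (D.two_of_T P hP.1 hT)
  · exact Or.inr (mid_double H hP.1 hT hP.2)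

/-- Opposite branches and equal valuations: the sum is zero or has non-singular reduction. -/
theorem opp_eq_rule (H : Hyp v a₁ a₂ a₄) {P Q : G} (hP : D.InN v P) (hQ : D.InN v Q)
    (ho : D.Opp v P Q) (heq : v (D.X P) = v (D.X Q)) : D.E0 v (P + Q) := by
  rcases D.gen_or_add_eq_zero hP.1 hQ.1 with hgen | h0
  · exact Or.inr (rule_b2 H hgen hP hQ ho heq)
  · exact Or.inl h0

/-- Same branch and equal valuations: the difference has non-singular reduction. -/
theorem sub_e0_of_same (H : Hyp v a₁ a₂ a₄) {P Q : G} (hP : D.InN v P) (hQ : D.InN v Q)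
    (hs : D.Same v P Q) (heq : v (D.X P) = v (D.X Q)) : D.E0 v (P - Q) := by
  rw [sub_eq_add_neg]
  refine opp_eq_rule H hP (InN.neg D v hQ) ?_ (by rw [D.X_neg Q hQ.1]; exact heq)
  exact hs.opp (opp_neg_self hQ.1 hQ.X_ne_zero)

end packaged

end Fermat.Agent.S13.Local.NodalNode
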