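import Fermat.Agent.S13.Local.NodalDefs

/-!
# S13 (project G), slice G-L3 (shared definition): the local parameter `zc = -X / Y` at the origin

`zc D P = -X P / Y P` (Silverman's `z`), with the junk value `0` at `P = 0`.  This file only fixes
the definition shared by `NodalKernel` (the estimates) and `NodalKernelInd` (the induction).
-/

set_option autoImplicit false

namespace Fermat.Agent.S13.Local

namespace NodalData

variable {K : Type*} [Field K] {G : Type*} [AddCommGroup G] {a₁ a₂ a₄ : K}
  (D : NodalData K G a₁ a₂ a₄)

open Classical in
/-- The local parameter at the origin, `z = -x / y`, with value `0` at the origin. -/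
noncomputable def zc (P : G) : K := if P = 0 then 0 else -(D.X P) / D.Y P

@[simp]
theorem zc_zero : D.zc 0 = 0 := by
  unfold zc; rw [if_pos rfl]

theorem zc_of_ne {P : G} (hP : P ≠ 0) : D.zc P = -(D.X P) / D.Y P := by
  unfold zc; rw [if_neg hP]

end NodalData

end Fermat.Agent.S13.Local
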