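import Fermat.Agent.CFT.C7.UnramDict

/-!
# PROJECT G, slice G-LP-1: inertia-invariant elements have valuation in `v(p)^ℤ`

`A` a valuation subring of `ℚ̄` over the rational prime `p`, `I_A := A.inertiaSubgroupIn ℚ`.

* `exists_zpow_valuation_mul_eq_one` : if `I_A` fixes the finite extension `F`, every nonzero
  `y ∈ F` becomes a unit at `A` after multiplication by a power of `p` (the single-place version of
  `CFT.C7.UnramDict.exists_zpow_valuation_eq_one`);
* `le_fixingSubgroup_adjoin_simple` : a subgroup all of whose elements fix `x` fixes `ℚ(x)`;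
* `exists_zpow_valuation_eq` **(ram)** : if every element of `I_A` fixes `x ≠ 0`, then
  `A.valuation x = A.valuation p ^ n` for some `n : ℤ`;
* `exists_zpow_valuation_eq'` : the same with `p.Prime` as an explicit hypothesis;
* `valuation_natCast_lt_one`, `valuation_natCast_ne_zero` : `0 < v(p) < 1` at a place over `p`.
-/

set_option autoImplicit false

namespace Fermat.Agent.S13.Local.Ram

open Fermat.Agent.CFT.LocalBridge Fermat.Agent.CFT.C3.ClassGen
  Fermat.Agent.CFT.C7.KummerUnram Fermat.Agent.CFT.C7.PlaceDict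
  Fermat.Agent.CFT.Local.PadicAlgClLocal Fermat.Agent.CFT.C7.UnramDict

local notation "Qbar" => AlgebraicClosure ℚ

/-- Single-place version of `UnramDict.exists_zpow_valuation_eq_one`: if the inertia group of the
place `A` over `p` acts trivially on the finite extension `F` of `ℚ`, every nonzero element of `F`
becomes a unit at `A` after multiplication by a power of `p`. -/
theorem exists_zpow_valuation_mul_eq_one (p : ℕ) [Fact p.Prime]
    {A : ValuationSubring Qbar} (hA : A.LiesOverPrime p)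
    (F : IntermediateField ℚ Qbar) [FiniteDimensional ℚ F]
    (hF : A.inertiaSubgroupIn ℚ ≤ F.fixingSubgroup) {y : Qbar} (hy : y ∈ F) (hy0 : y ≠ 0) :
    ∃ k : ℤ, A.valuation (y * ((p : ℕ) : Qbar) ^ k) = 1 := by
  obtain ⟨σ, rfl⟩ := exists_smul_padicPlace_eq p hA
  have h1 := (inertiaSubgroupIn_smul_padicPlace_le_iff p F σ).mp hF
  have hfd : FiniteDimensional ℚ (F.map (σ⁻¹ : GlobGal).toAlgHom) :=
    (F.equivMap (σ⁻¹ : GlobGal).toAlgHom).toLinearEquiv.finiteDimensional
  have h2 := (localInertia_le_fixingSubgroup_iff_ramIdx p _).mp h1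
  have hmem : padicEmbedding p ((σ⁻¹ : GlobGal) y) ∈
      localLevel p (F.map (σ⁻¹ : GlobGal).toAlgHom) :=
    padicEmbedding_mem_localLevel p ⟨y, hy, rfl⟩
  have hne : padicEmbedding p ((σ⁻¹ : GlobGal) y) ≠ 0 := by
    rw [Ne, map_eq_zero, map_eq_zero]
    exact hy0
  obtain ⟨k, hk⟩ := (ramIdx_eq_one_iff_norm p _).mp h2 _ hmem hne
  refine ⟨k, ?_⟩
  rw [valuation_smul_eq_one_iff, valuation_padicPlace_eq_one_iff, map_mul, map_mul, norm_mul,
    map_zpow₀, map_zpow₀, norm_zpow, map_natCast, norm_padicEmbedding_natCast, hk, inv_zpow,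
    mul_inv_cancel₀]
  have hq0 : (0 : ℝ) < (p : ℕ) := by exact_mod_cast (Fact.out : p.Prime).pos
  exact zpow_ne_zero _ hq0.ne'

/-- If every element of a subgroup `H` of `Gal(ℚ̄/ℚ)` fixes `x`, then `H` fixes `ℚ(x)`. -/
theorem le_fixingSubgroup_adjoin_simple (H : Subgroup (Qbar ≃ₐ[ℚ] Qbar)) (x : Qbar)
    (hfix : ∀ s ∈ H, s x = x) : H ≤ (IntermediateField.adjoin ℚ {x}).fixingSubgroup := by
  intro s hs
  rw [IntermediateField.mem_fixingSubgroup_iff]
  intro y hy
  have hle : IntermediateField.adjoin ℚ {x} ≤ IntermediateField.fixedField (Subgroup.zpowers s) := by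
    rw [IntermediateField.adjoin_le_iff, Set.singleton_subset_iff]
    rintro ⟨t, ht⟩
    obtain ⟨n, rfl⟩ := Subgroup.mem_zpowers_iff.mp ht
    exact hfix _ (H.zpow_mem hs n)
  exact hle hy ⟨s, Subgroup.mem_zpowers s⟩

/-- **(ram)**, subgroup form. -/
theorem exists_zpow_valuation_eq (p : ℕ) [Fact p.Prime]
    {A : ValuationSubring Qbar} (hA : A.LiesOverPrime p) {x : Qbar} (hx0 : x ≠ 0)
    (hfix : ∀ s ∈ A.inertiaSubgroupIn ℚ, s x = x) :
    ∃ n : ℤ, A.valuation x = A.valuation ((p : ℕ) : Qbar) ^ n := by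
  have hint : IsIntegral ℚ x := Algebra.IsIntegral.isIntegral x
  have : FiniteDimensional ℚ (IntermediateField.adjoin ℚ {x}) :=
    IntermediateField.adjoin.finiteDimensional hint
  obtain ⟨k, hk⟩ := exists_zpow_valuation_mul_eq_one p hA (IntermediateField.adjoin ℚ {x})
    (le_fixingSubgroup_adjoin_simple _ x hfix)
    (IntermediateField.mem_adjoin_simple_self ℚ x) hx0
  refine ⟨-k, ?_⟩
  have hp0 : A.valuation ((p : ℕ) : Qbar) ≠ 0 := by
    rw [Ne, map_eq_zero]
    exact_mod_cast (Fact.out : p.Prime).ne_zero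
  rw [map_mul, map_zpow₀] at hk
  rw [zpow_neg]
  exact eq_inv_of_mul_eq_one_left hk

/-- **(ram)** with the primality of `p` as an explicit hypothesis. -/
theorem exists_zpow_valuation_eq' {p : ℕ} (hp : p.Prime)
    {A : ValuationSubring Qbar} (hA : A.LiesOverPrime p) {x : Qbar} (hx0 : x ≠ 0)
    (hfix : ∀ s ∈ A.inertiaSubgroupIn ℚ, s x = x) :
    ∃ n : ℤ, A.valuation x = A.valuation ((p : ℕ) : Qbar) ^ n :=
  haveI : Fact p.Prime := ⟨hp⟩
  exists_zpow_valuation_eq p hA hx0 hfix

/-- At a place over `p` the valuation of `p` is `< 1`. -/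
theorem valuation_natCast_lt_one {p : ℕ} {A : ValuationSubring Qbar} (hA : A.LiesOverPrime p) :
    A.valuation ((p : ℕ) : Qbar) < 1 :=
  (ValuationSubring.mem_nonunits_iff (A := A)).mp hA

/-- At a place over the prime `p` the valuation of `p` is nonzero. -/
theorem valuation_natCast_ne_zero {p : ℕ} (hp : p.Prime) (A : ValuationSubring Qbar) :
    A.valuation ((p : ℕ) : Qbar) ≠ 0 := by
  rw [Ne, map_eq_zero]
  exact_mod_cast hp.ne_zero

end Fermat.Agent.S13.Local.Ram
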