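import Fermat.Agent.S13.Local.NodalDefs

/-!
# PROJECT G (S13), block L2: the abstract argument (R)

A nodal model `y² + a₁ x y = x³ + a₂ x² + a₄ x` over a valued field, `v a₄ = π ^ m` with
`p ∤ m`, has no point of exact order `p ≥ 5` all of whose multiples have rational coordinates
(residue field `𝔽₂`).  All inputs of the local toolkit (phase (Ph), no `p`-torsion in the kernel
of reduction (K4), `E0` a subgroup, equal non-singular reductions differ by an element of the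
kernel of reduction) are hypotheses in the vocabulary of `NodalDefs`.

* `no_torsion_of_classes`: the core, with an abstract two-valued class function;
* `exists_zpow_of_rat`, `lt_one_or_sub_one_lt_one_of_rat`: a valuation on a field of
  characteristic zero with `v 2 = π < 1` and `v n = 1` for odd integers `n`, restricted to `ℚ`;
* `no_rational_torsion`: the version with rational coordinates.
-/

set_option autoImplicit false
set_option linter.unusedSectionVars false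

namespace Fermat.Agent.S13.Local.RatPoint

open Fermat.Agent.S13.Local

section group

variable {G : Type*} [AddCommGroup G]

theorem nsmul_ne_zero_of_prime {p : ℕ} (hp : p.Prime) {P : G} (hP : P ≠ 0) (hpP : p • P = 0)
    {j : ℕ} (hj0 : 0 < j) (hjp : j < p) : j • P ≠ 0 := by
  intro h
  have : Fact p.Prime := ⟨hp⟩
  have h1 : addOrderOf P = p := addOrderOf_eq_prime hpP hP
  have h2 : p ∣ j := by
    rw [← h1]
    exact addOrderOf_dvd_of_nsmul_eq_zero h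
  exact absurd (Nat.le_of_dvd hj0 h2) (not_le.mpr hjp)

theorem exists_nsmul_nsmul_eq {p : ℕ} (hp : p.Prime) {P : G} (hpP : p • P = 0)
    {j : ℕ} (hj0 : 0 < j) (hjp : j < p) : ∃ m : ℕ, m • (j • P) = P := by
  have hcop : Nat.Coprime j p := (Nat.coprime_of_lt_prime hj0.ne' hjp hp).symm
  obtain ⟨m, -, hm⟩ := Nat.exists_mul_mod_eq_one_of_coprime hcop hp.one_lt
  refine ⟨m, ?_⟩
  rw [← mul_nsmul, ← Nat.div_add_mod (j * m) p, hm, add_nsmul, mul_nsmul', one_nsmul]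
  rw [smul_comm, hpP]
  simp

end group

section core

variable {K : Type*} [Field K] {G : Type*} [AddCommGroup G] {a₁ a₂ a₄ : K}
  {Γ₀ : Type*} [LinearOrderedCommGroupWithZero Γ₀]
  (D : NodalData K G a₁ a₂ a₄) (v : Valuation K Γ₀)

/-- `E0` is closed under multiples once it is closed under addition -/
theorem e0_nsmul (hE0 : ∀ P Q, D.E0 v P → D.E0 v Q → D.E0 v (P + Q)) {Q : G} (hQ : D.E0 v Q)
    (n : ℕ) : D.E0 v (n • Q) := by
  induction n with
  | zero => simpa using D.e0_zero v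
  | succ n ih => rw [succ_nsmul]; exact hE0 _ _ ih hQ

/-- **(R), step 1**: by the phase formula some non-zero multiple leaves the node region -/
theorem exists_multiple_not_node {p : ℕ} (hp : p.Prime) (hp2 : p ≠ 2)
    {π : Γ₀} (hπ0 : π ≠ 0) (hπ1 : π < 1) {m : ℕ} (ha4 : v a₄ = π ^ m) (hpm : ¬ p ∣ m)
    (P0 : G) (hXint : ∃ k : ℤ, v (D.X P0) = π ^ k)
    (hPh : (∀ j : ℕ, 0 < j → j < p → v (D.X (j • P0)) < 1) →
      ∃ i : ℕ, 0 < i ∧ i < p ∧ v (D.X P0) ^ p = v a₄ ^ (2 * i)) :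
    ∃ j : ℕ, 0 < j ∧ j < p ∧ 1 ≤ v (D.X (j • P0)) := by
  by_contra hcon
  push Not at hcon
  obtain ⟨i, hi0, hip, hi⟩ := hPh hcon
  obtain ⟨k, hk⟩ := hXint
  rw [hk, ha4, ← zpow_natCast, ← zpow_mul, ← pow_mul, ← zpow_natCast] at hi
  have h1 : k * (p : ℤ) = ((m * (2 * i) : ℕ) : ℤ) :=
    zpow_right_injective₀ (zero_lt_iff.mpr hπ0) hπ1.ne hi
  have h2 : (p : ℤ) ∣ ((m * (2 * i) : ℕ) : ℤ) := ⟨k, by rw [← h1]; ring⟩
  have h3 : p ∣ m * (2 * i) := Int.natCast_dvd_natCast.mp h2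
  rcases (Nat.Prime.dvd_mul hp).mp h3 with h4 | h4
  · exact hpm h4
  · rcases (Nat.Prime.dvd_mul hp).mp h4 with h5 | h5
    · exact hp2 ((Nat.prime_dvd_prime_iff_eq hp Nat.prime_two).mp h5)
    · exact absurd (Nat.le_of_dvd hi0 h5) (not_le.mpr hip)

/-- **(R), step 2**: all non-zero multiples have non-singular reduction, none lies in the
kernel of reduction -/
theorem valuation_X_multiple_eq_one {p : ℕ} (hp : p.Prime)
    (P0 : G) (hP0 : P0 ≠ 0) (hpP : p • P0 = 0)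
    (hK4 : ∀ P, D.K1 v P → p • P = 0 → P = 0)
    (hE0 : ∀ P Q, D.E0 v P → D.E0 v Q → D.E0 v (P + Q))
    {j : ℕ} (hj0 : 0 < j) (hjp : j < p) (hj : 1 ≤ v (D.X (j • P0)))
    {n : ℕ} (hn0 : 0 < n) (hnp : n < p) : v (D.X (n • P0)) = 1 := by
  obtain ⟨m, hm⟩ := exists_nsmul_nsmul_eq hp hpP hj0 hjp
  have h1 : D.E0 v (j • P0) := Or.inr hj
  have h2 : D.E0 v (n • P0) := by
    have := e0_nsmul D v hE0 h1 (m * n)
    rwa [mul_nsmul, hm] at this
  have hne : n • P0 ≠ 0 := nsmul_ne_zero_of_prime hp hP0 hpP hn0 hnp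
  rcases h2 with h2 | h2
  · exact absurd h2 hne
  · rcases h2.lt_or_eq with h3 | h3
    · exfalso
      refine hne (hK4 _ (Or.inr h3) ?_)
      rw [smul_comm, hpP, smul_zero]
    · exact h3.symm

/-- **(R)**, core form: an abstract two-valued class function on the multiples which detects
congruence of the coordinates. -/
theorem no_torsion_of_classes {p : ℕ} (hp : p.Prime) (hp5 : 5 ≤ p)
    {π : Γ₀} (hπ0 : π ≠ 0) (hπ1 : π < 1) {m : ℕ} (ha4 : v a₄ = π ^ m) (hpm : ¬ p ∣ m)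
    (P0 : G) (hP0 : P0 ≠ 0) (hpP : p • P0 = 0)
    (hXint : ∃ k : ℤ, v (D.X P0) = π ^ k)
    (c : ℕ → Fin 2)
    (hc : ∀ j j' : ℕ, 0 < j → j < p → 0 < j' → j' < p → v (D.X (j • P0)) = 1 →
      v (D.X (j' • P0)) = 1 → c j = c j' →
      v (D.X (j' • P0) - D.X (j • P0)) < 1 ∧ v (D.Y (j' • P0) - D.Y (j • P0)) < 1)
    (hPh : (∀ j : ℕ, 0 < j → j < p → v (D.X (j • P0)) < 1) →
      ∃ i : ℕ, 0 < i ∧ i < p ∧ v (D.X P0) ^ p = v a₄ ^ (2 * i))
    (hK4 : ∀ P, D.K1 v P → p • P = 0 → P = 0)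
    (hE0 : ∀ P Q, D.E0 v P → D.E0 v Q → D.E0 v (P + Q))
    (hRed : ∀ P Q, P ≠ 0 → Q ≠ 0 → v (D.X P) = 1 → v (D.X Q) = 1 →
      v (D.X P - D.X Q) < 1 → v (D.Y P - D.Y Q) < 1 → D.K1 v (P - Q)) : False := by
  have hp2 : p ≠ 2 := by omega
  obtain ⟨j, hj0, hjp, hj⟩ := exists_multiple_not_node D v hp hp2 hπ0 hπ1 ha4 hpm P0 hXint hPh
  have hone : ∀ n : ℕ, 0 < n → n < p → v (D.X (n • P0)) = 1 := fun n hn0 hnp =>
    valuation_X_multiple_eq_one D v hp P0 hP0 hpP hK4 hE0 hj0 hjp hj hn0 hnp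
  have hne : ∀ n : ℕ, 0 < n → n < p → n • P0 ≠ 0 := fun n hn0 hnp =>
    nsmul_ne_zero_of_prime hp hP0 hpP hn0 hnp
  -- two of the first three multiples are in the same class
  have key : ∀ a b : ℕ, 0 < a → a < b → b < p → c a ≠ c b := by
    intro a b ha hab hb heq
    have hap : a < p := hab.trans hb
    have hb0 : 0 < b := ha.trans hab
    obtain ⟨h1, h2⟩ := hc a b ha hap hb0 hb (hone a ha hap) (hone b hb0 hb) heq
    have h3 := hRed (b • P0) (a • P0) (hne b hb0 hb) (hne a ha hap) (hone b hb0 hb)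
      (hone a ha hap) h1 h2
    have h4 : b • P0 - a • P0 = (b - a) • P0 := by
      rw [sub_nsmul _ hab.le, sub_eq_add_neg]
    rw [h4] at h3
    have h5 : (b - a) • P0 = 0 := hK4 _ h3 (by rw [smul_comm, hpP, smul_zero])
    exact hne (b - a) (by omega) (by omega) h5
  have h12 := key 1 2 (by omega) (by omega) (by omega)
  have h13 := key 1 3 (by omega) (by omega) (by omega)
  have h23 := key 2 3 (by omega) (by omega) (by omega)
  revert h12 h13 h23
  generalize c 1 = x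
  generalize c 2 = y
  generalize c 3 = z
  revert x y z
  decide

end core

section ratval

variable {K : Type*} [Field K] [CharZero K] {Γ₀ : Type*} [LinearOrderedCommGroupWithZero Γ₀]
  (v : Valuation K Γ₀) {π : Γ₀}

theorem exists_pow_of_nat (hv2 : v (2 : K) = π) (hodd : ∀ n : ℤ, ¬ (2 : ℤ) ∣ n → v (n : K) = 1)
    {n : ℕ} (hn : n ≠ 0) : ∃ k : ℕ, v (n : K) = π ^ k := by
  obtain ⟨e, n', hn', rfl⟩ := Nat.exists_eq_pow_mul_and_not_dvd hn 2 (by norm_num)
  refine ⟨e, ?_⟩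
  have h1 : v ((n' : ℤ) : K) = 1 := hodd n' (by exact_mod_cast hn')
  push_cast at h1 ⊢
  rw [map_mul, map_pow, hv2, h1, mul_one]

theorem exists_pow_of_int (hv2 : v (2 : K) = π) (hodd : ∀ n : ℤ, ¬ (2 : ℤ) ∣ n → v (n : K) = 1)
    {n : ℤ} (hn : n ≠ 0) : ∃ k : ℕ, v (n : K) = π ^ k := by
  obtain ⟨k, hk⟩ := exists_pow_of_nat v hv2 hodd (Int.natAbs_ne_zero.mpr hn)
  refine ⟨k, ?_⟩
  have hcast : ((n.natAbs : ℕ) : K) = ((|n| : ℤ) : K) := by
    rw [← Int.natCast_natAbs, Int.cast_natCast]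
  rw [hcast] at hk
  rcases abs_choice n with h | h
  · rwa [h] at hk
  · rw [h] at hk
    push_cast at hk
    rwa [Valuation.map_neg] at hk

theorem valuation_int_le_one (hv2 : v (2 : K) = π) (hπ1 : π < 1)
    (hodd : ∀ n : ℤ, ¬ (2 : ℤ) ∣ n → v (n : K) = 1) (n : ℤ) : v (n : K) ≤ 1 := by
  rcases eq_or_ne n 0 with rfl | hn
  · simp
  · obtain ⟨k, hk⟩ := exists_pow_of_int v hv2 hodd hn
    rw [hk]
    exact pow_le_one₀ zero_le hπ1.le

theorem valuation_int_lt_one_of_even (hv2 : v (2 : K) = π) (hπ1 : π < 1)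
    (hodd : ∀ n : ℤ, ¬ (2 : ℤ) ∣ n → v (n : K) = 1) {n : ℤ} (hn : (2 : ℤ) ∣ n) :
    v (n : K) < 1 := by
  obtain ⟨t, rfl⟩ := hn
  push_cast
  rw [map_mul, hv2]
  calc π * v (t : K) ≤ π * 1 := mul_le_mul_right (valuation_int_le_one v hv2 hπ1 hodd t) π
    _ = π := mul_one π
    _ < 1 := hπ1

/-- the valuation of a non-zero rational number is an integral power of `π = v 2` -/
theorem exists_zpow_of_rat (hv2 : v (2 : K) = π) (hπ0 : π ≠ 0)
    (hodd : ∀ n : ℤ, ¬ (2 : ℤ) ∣ n → v (n : K) = 1) {q : ℚ} (hq : q ≠ 0) :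
    ∃ k : ℤ, v (q : K) = π ^ k := by
  obtain ⟨a, ha⟩ := exists_pow_of_int v hv2 hodd (Rat.num_ne_zero.mpr hq)
  obtain ⟨b, hb⟩ := exists_pow_of_nat v hv2 hodd q.den_ne_zero
  refine ⟨(a : ℤ) - b, ?_⟩
  rw [Rat.cast_def, map_div₀, ha, hb, zpow_sub₀ hπ0, zpow_natCast, zpow_natCast]

/-- the residue field of `ℚ` at `2` is `𝔽₂` -/
theorem lt_one_or_sub_one_lt_one_of_rat (hv2 : v (2 : K) = π) (hπ1 : π < 1)
    (hodd : ∀ n : ℤ, ¬ (2 : ℤ) ∣ n → v (n : K) = 1) {q : ℚ} (hq : v (q : K) ≤ 1) :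
    v (q : K) < 1 ∨ v ((q : K) - 1) < 1 := by
  have hden : (q.den : K) ≠ 0 := by exact_mod_cast q.den_ne_zero
  have hmul : v (q : K) * v ((q.den : ℤ) : K) = v ((q.num : ℤ) : K) := by
    rw [← map_mul]
    congr 1
    rw [Rat.cast_def]
    push_cast
    field_simp
  -- the denominator is odd
  have hdodd : ¬ (2 : ℤ) ∣ (q.den : ℤ) := by
    intro h2
    have hnum : ¬ (2 : ℤ) ∣ q.num := by
      intro h3
      have h4 : (2 : ℤ) ∣ Int.gcd q.num q.den := Int.dvd_coe_gcd h3 h2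
      have h5 : Int.gcd q.num q.den = 1 := by
        have := q.reduced
        rwa [Nat.Coprime, ← Int.natAbs_natCast q.den] at this
      rw [h5] at h4
      norm_num at h4
    rw [hodd _ hnum] at hmul
    have h6 := valuation_int_lt_one_of_even v hv2 hπ1 hodd h2
    have h7 : v (q : K) * v ((q.den : ℤ) : K) < 1 := by
      calc v (q : K) * v ((q.den : ℤ) : K) ≤ 1 * v ((q.den : ℤ) : K) :=
            mul_le_mul_left hq _
        _ = v ((q.den : ℤ) : K) := one_mul _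
        _ < 1 := h6
    rw [hmul] at h7
    exact lt_irrefl _ h7
  rw [hodd _ hdodd, mul_one] at hmul
  by_cases hn : (2 : ℤ) ∣ q.num
  · left
    rw [hmul]
    exact valuation_int_lt_one_of_even v hv2 hπ1 hodd hn
  · right
    have h8 : (2 : ℤ) ∣ q.num - q.den := by omega
    have h9 := valuation_int_lt_one_of_even v hv2 hπ1 hodd h8
    have h10 : ((q : K) - 1) * ((q.den : ℤ) : K) = ((q.num - q.den : ℤ) : K) := by
      rw [Rat.cast_def]
      push_cast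
      field_simp
    have h11 : v ((q : K) - 1) * v ((q.den : ℤ) : K) = v ((q.num - q.den : ℤ) : K) := by
      rw [← map_mul, h10]
    rw [hodd _ hdodd, mul_one] at h11
    rw [h11]
    exact h9

/-- the phase relation `v x ^ p = v a₄ ^ (2 i)` is impossible for `v x = π ^ k`,
`v a₄ = π ^ m`, `p ∤ m`, `0 < i < p`, `p` an odd prime -/
theorem zpow_pow_ne_pow_pow {π : Γ₀} (hπ0 : π ≠ 0) (hπ1 : π < 1) {p : ℕ} (hp : p.Prime)
    (hp2 : p ≠ 2) {m : ℕ} (hpm : ¬ p ∣ m) (k : ℤ) {i : ℕ} (hi0 : 0 < i) (hip : i < p) :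
    (π ^ k) ^ p ≠ (π ^ m) ^ (2 * i) := by
  intro hi
  rw [← zpow_natCast, ← zpow_mul, ← pow_mul, ← zpow_natCast] at hi
  have h1 : k * (p : ℤ) = ((m * (2 * i) : ℕ) : ℤ) :=
    zpow_right_injective₀ (zero_lt_iff.mpr hπ0) hπ1.ne hi
  have h2 : (p : ℤ) ∣ ((m * (2 * i) : ℕ) : ℤ) := ⟨k, by rw [← h1]; ring⟩
  have h3 : p ∣ m * (2 * i) := Int.natCast_dvd_natCast.mp h2
  rcases (Nat.Prime.dvd_mul hp).mp h3 with h4 | h4
  · exact hpm h4
  · rcases (Nat.Prime.dvd_mul hp).mp h4 with h5 | h5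
    · exact hp2 ((Nat.prime_dvd_prime_iff_eq hp Nat.prime_two).mp h5)
    · exact absurd (Nat.le_of_dvd hi0 h5) (not_le.mpr hip)

/-- rational elements of a field of characteristic zero -/
def IsRat (x : K) : Prop := ∃ q : ℚ, x = (q : K)

theorem isRat_ratCast (q : ℚ) : IsRat ((q : ℚ) : K) := ⟨q, rfl⟩

theorem isRat_of_mem_range {x : K} (hx : x ∈ Set.range (algebraMap ℚ K)) : IsRat x := by
  obtain ⟨q, rfl⟩ := hx
  exact ⟨q, (eq_ratCast (algebraMap ℚ K) q)⟩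

/-- the hypothesis `res2` of `NodalRational.no_rational_torsion` for `Rat := IsRat` -/
theorem res2_isRat (hv2 : v (2 : K) = π) (hπ1 : π < 1)
    (hodd : ∀ n : ℤ, ¬ (2 : ℤ) ∣ n → v (n : K) = 1) :
    ∀ x : K, IsRat x → v x ≤ 1 → v x < 1 ∨ v (x - 1) < 1 := by
  rintro x ⟨q, rfl⟩ hx
  exact lt_one_or_sub_one_lt_one_of_rat v hv2 hπ1 hodd hx

/-- the hypothesis `hval` of `NodalRational.no_rational_torsion` for `Rat := IsRat` -/
theorem hval_isRat (hv2 : v (2 : K) = π) (hπ0 : π ≠ 0) (hπ1 : π < 1)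
    (hodd : ∀ n : ℤ, ¬ (2 : ℤ) ∣ n → v (n : K) = 1) {a₄ : K} {m : ℕ} (ha4 : v a₄ = π ^ m)
    {p : ℕ} (hp : p.Prime) (hp2 : p ≠ 2) (hpm : ¬ p ∣ m) :
    ∀ x : K, IsRat x → ∀ i : ℕ, 0 < i → i < p → v x ^ p ≠ v a₄ ^ (2 * i) := by
  rintro x ⟨q, rfl⟩ i hi0 hip
  rcases eq_or_ne q 0 with rfl | hq
  · rw [Rat.cast_zero, map_zero, zero_pow hp.ne_zero, ha4]
    exact (pow_ne_zero _ (pow_ne_zero _ hπ0)).symm
  · obtain ⟨k, hk⟩ := exists_zpow_of_rat v hv2 hπ0 hodd hq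
    rw [hk, ha4]
    exact zpow_pow_ne_pow_pow hπ0 hπ1 hp hp2 hpm k hi0 hip

end ratval

section rational

variable {K : Type*} [Field K] [CharZero K] {G : Type*} [AddCommGroup G] {a₁ a₂ a₄ : K}
  {Γ₀ : Type*} [LinearOrderedCommGroupWithZero Γ₀]
  (D : NodalData K G a₁ a₂ a₄) (v : Valuation K Γ₀)

/-- integrality of `Y` from integrality of `X` (monic equation) -/
theorem valuation_Y_le_one (ha1 : v a₁ ≤ 1) (ha2 : v a₂ ≤ 1) (ha4 : v a₄ ≤ 1) {P : G}
    (hP : P ≠ 0) (hX : v (D.X P) ≤ 1) : v (D.Y P) ≤ 1 := by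
  by_contra hcon
  push Not at hcon
  have h := D.eqn P hP
  have h1 : D.Y P ^ 2 = D.X P ^ 3 + a₂ * D.X P ^ 2 + a₄ * D.X P - a₁ * D.X P * D.Y P := by
    linear_combination h
  have h2 : v (D.X P ^ 3 + a₂ * D.X P ^ 2 + a₄ * D.X P) ≤ 1 := by
    refine (v.map_add_le (v.map_add_le ?_ ?_) ?_)
    · rw [map_pow]; exact pow_le_one₀ zero_le hX
    · rw [map_mul, map_pow]; exact mul_le_one' ha2 (pow_le_one₀ zero_le hX)
    · rw [map_mul]; exact mul_le_one' ha4 hX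
  have h3 : v (a₁ * D.X P * D.Y P) ≤ v (D.Y P) := by
    rw [map_mul, map_mul]
    calc v a₁ * v (D.X P) * v (D.Y P) ≤ 1 * v (D.Y P) :=
          mul_le_mul_left (mul_le_one' ha1 hX) _
      _ = v (D.Y P) := one_mul _
  have h4 : v (D.Y P ^ 2) ≤ v (D.Y P) := by
    rw [h1]
    exact (v.map_sub_le (h2.trans hcon.le) h3)
  rw [map_pow, pow_two] at h4
  have h5 : v (D.Y P) * 1 < v (D.Y P) * v (D.Y P) :=
    mul_lt_mul_of_pos_left hcon (lt_trans zero_lt_one hcon)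
  rw [mul_one] at h5
  exact absurd h4 (not_le.mpr h5)

/-- **(R)**: no point of exact order `p ≥ 5` whose multiples all have rational coordinates,
when `v` extends the `2`-adic valuation and `v a₄ = (v 2) ^ m` with `p ∤ m`. -/
theorem no_rational_torsion (H : NodalData.Hyp v a₁ a₂ a₄) {p : ℕ} (hp : p.Prime) (hp5 : 5 ≤ p)
    {π : Γ₀} (hπ0 : π ≠ 0) (hπ1 : π < 1) (hv2 : v (2 : K) = π)
    (hodd : ∀ n : ℤ, ¬ (2 : ℤ) ∣ n → v (n : K) = 1)
    {m : ℕ} (ha4 : v a₄ = π ^ m) (hpm : ¬ p ∣ m)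
    (P0 : G) (hP0 : P0 ≠ 0) (hpP : p • P0 = 0)
    (hrat : ∀ j : ℕ, 0 < j → j < p →
      ∃ x y : ℚ, D.X (j • P0) = (x : K) ∧ D.Y (j • P0) = (y : K))
    (hPh : (∀ j : ℕ, 0 < j → j < p → v (D.X (j • P0)) < 1) →
      ∃ i : ℕ, 0 < i ∧ i < p ∧ v (D.X P0) ^ p = v a₄ ^ (2 * i))
    (hK4 : ∀ P, D.K1 v P → p • P = 0 → P = 0)
    (hE0 : ∀ P Q, D.E0 v P → D.E0 v Q → D.E0 v (P + Q))
    (hRed : ∀ P Q, P ≠ 0 → Q ≠ 0 → v (D.X P) = 1 → v (D.X Q) = 1 →
      v (D.X P - D.X Q) < 1 → v (D.Y P - D.Y Q) < 1 → D.K1 v (P - Q)) : False := by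
  have hp1 : 1 < p := by omega
  have hp2 : 2 < p := by omega
  -- `X P0 ≠ 0`
  have hX0 : D.X P0 ≠ 0 := by
    intro h0
    have h1 : P0 + P0 = 0 := D.two_of_T P0 hP0 (NodalData.T_eq_zero_of_X_eq_zero hP0 h0)
    have h2 := nsmul_ne_zero_of_prime hp hP0 hpP (j := 2) (by omega) hp2
    exact h2 (by rw [two_nsmul]; exact h1)
  have hXint : ∃ k : ℤ, v (D.X P0) = π ^ k := by
    obtain ⟨x, y, hx, -⟩ := hrat 1 (by omega) hp1
    rw [one_nsmul] at hx
    rw [hx]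
    refine exists_zpow_of_rat v hv2 hπ0 hodd ?_
    rintro rfl
    exact hX0 (by rw [hx]; simp)
  classical
  refine no_torsion_of_classes D v hp hp5 hπ0 hπ1 ha4 hpm P0 hP0 hpP hXint
    (fun j => if v (D.Y (j • P0)) < 1 then 0 else 1) ?_ hPh hK4 hE0 hRed
  intro j j' hj0 hjp hj'0 hj'p hX hX' hcl
  obtain ⟨x, y, hx, hy⟩ := hrat j hj0 hjp
  obtain ⟨x', y', hx', hy'⟩ := hrat j' hj'0 hj'p
  have hne : j • P0 ≠ 0 := nsmul_ne_zero_of_prime hp hP0 hpP hj0 hjp
  have hne' : j' • P0 ≠ 0 := nsmul_ne_zero_of_prime hp hP0 hpP hj'0 hj'p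
  have hY : v (D.Y (j • P0)) ≤ 1 := valuation_Y_le_one D v H.a1 H.a2 H.a4.le hne hX.le
  have hY' : v (D.Y (j' • P0)) ≤ 1 := valuation_Y_le_one D v H.a1 H.a2 H.a4.le hne' hX'.le
  constructor
  · -- both `X` are `≡ 1`
    have h1 : v ((x : K) - 1) < 1 := by
      rcases lt_one_or_sub_one_lt_one_of_rat v hv2 hπ1 hodd (q := x) (by rw [← hx, hX]) with h | h
      · rw [← hx, hX] at h; exact absurd h (lt_irrefl _)
      · exact h
    have h2 : v ((x' : K) - 1) < 1 := by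
      rcases lt_one_or_sub_one_lt_one_of_rat v hv2 hπ1 hodd (q := x') (by rw [← hx', hX'])
        with h | h
      · rw [← hx', hX'] at h; exact absurd h (lt_irrefl _)
      · exact h
    rw [hx, hx', show (x' : K) - x = ((x' : K) - 1) - ((x : K) - 1) by ring]
    exact lt_of_le_of_lt (v.map_sub _ _) (max_lt h2 h1)
  · by_cases hc1 : v (D.Y (j • P0)) < 1
    · have hc2 : v (D.Y (j' • P0)) < 1 := by
        by_contra hc2
        simp only [if_pos hc1, if_neg hc2] at hcl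
        exact absurd hcl (by decide)
      exact lt_of_le_of_lt (v.map_sub _ _) (max_lt hc2 hc1)
    · have hc2 : ¬ v (D.Y (j' • P0)) < 1 := by
        intro hc2
        simp only [if_neg hc1, if_pos hc2] at hcl
        exact absurd hcl (by decide)
      have h1 : v ((y : K) - 1) < 1 := by
        rcases lt_one_or_sub_one_lt_one_of_rat v hv2 hπ1 hodd (q := y) (by rw [← hy]; exact hY)
          with h | h
        · rw [← hy] at h; exact absurd h hc1
        · exact h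
      have h2 : v ((y' : K) - 1) < 1 := by
        rcases lt_one_or_sub_one_lt_one_of_rat v hv2 hπ1 hodd (q := y')
          (by rw [← hy']; exact hY') with h | h
        · rw [← hy'] at h; exact absurd h hc2
        · exact h
      rw [hy, hy', show (y' : K) - y = ((y' : K) - 1) - ((y : K) - 1) by ring]
      exact lt_of_le_of_lt (v.map_sub _ _) (max_lt h2 h1)

end rational

end Fermat.Agent.S13.Local.RatPoint
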