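import Fermat.Agent.S13.Local.RatPoint
import Fermat.Agent.S13.Local.NodalRational
import Fermat.Agent.S13.Local.NodalRules
import Fermat.Agent.S05.LocalVal

/-!
# PROJECT G (S13), block L2: (R) at a valuation subring over `2`

Instantiation of the arithmetic inputs (`res2`, `hval`) of
`NodalRational.no_rational_torsion` for `v = A.valuation`, `A` a valuation subring of a field of
characteristic zero lying over `2`, and `Rat := RatPoint.IsRat` (the rational elements).

* `valuation_odd`, `valuation_two_lt_one`, `valuation_two_ne_zero`: the `2`-adic facts;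
* `exists_zpow_two`, `res2`, `hval`: the valuation on `ℚ`;
* `no_rational_torsion_two`: (R) with only the toolkit inputs (K4), (R1), (E0) left.
-/

set_option autoImplicit false
set_option linter.unusedSectionVars false

namespace Fermat.Agent.S13.Local.RatPointTwo

open Fermat.Agent.S13.Local Fermat.Agent.S13.Local.NodalData Fermat.Agent.S13.Local.RatPoint

variable {L : Type*} [Field L] [CharZero L] {A : ValuationSubring L}

theorem valuation_odd (hA : A.LiesOverPrime 2) (n : ℤ) (hn : ¬ (2 : ℤ) ∣ n) :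
    A.valuation (n : L) = 1 :=
  Fermat.Agent.S05.LocalVal.intCast_valuation_eq_one Nat.prime_two hA (by exact_mod_cast hn)

theorem valuation_two_lt_one (hA : A.LiesOverPrime 2) : A.valuation (2 : L) < 1 := by
  have h := Fermat.Agent.S05.LocalVal.q_valuation_lt_one hA
  exact_mod_cast h

theorem valuation_two_ne_zero : A.valuation (2 : L) ≠ 0 := by
  rw [Ne, map_eq_zero]
  exact two_ne_zero

/-- the valuation of a non-zero rational number is an integral power of `v 2` -/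
theorem exists_zpow_two (hA : A.LiesOverPrime 2) {q : ℚ} (hq : q ≠ 0) :
    ∃ k : ℤ, A.valuation (q : L) = A.valuation (2 : L) ^ k :=
  exists_zpow_of_rat A.valuation rfl valuation_two_ne_zero (valuation_odd hA) hq

theorem res2 (hA : A.LiesOverPrime 2) :
    ∀ x : L, IsRat x → A.valuation x ≤ 1 → A.valuation x < 1 ∨ A.valuation (x - 1) < 1 :=
  res2_isRat A.valuation rfl (valuation_two_lt_one hA) (valuation_odd hA)

theorem hval (hA : A.LiesOverPrime 2) {a₄ : L} {m : ℕ}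
    (ha4 : A.valuation a₄ = A.valuation (2 : L) ^ m) {p : ℕ} (hp : p.Prime) (hp2 : p ≠ 2)
    (hpm : ¬ p ∣ m) :
    ∀ x : L, IsRat x → ∀ i : ℕ, 0 < i → i < p → A.valuation x ^ p ≠ A.valuation a₄ ^ (2 * i) :=
  hval_isRat A.valuation rfl valuation_two_ne_zero (valuation_two_lt_one hA) (valuation_odd hA)
    ha4 hp hp2 hpm

/-- **(R)** at a valuation subring over `2`: only (K4), (R1), (E0) of the local toolkit are left
as hypotheses. -/
theorem no_rational_torsion_two (hA : A.LiesOverPrime 2) {G : Type*} [AddCommGroup G]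
    {a₁ a₂ a₄ : L} {D : NodalData L G a₁ a₂ a₄} (H : Hyp A.valuation a₁ a₂ a₄)
    {p : ℕ} (hp : p.Prime) (hp5 : 5 ≤ p) {m : ℕ}
    (ha4 : A.valuation a₄ = A.valuation (2 : L) ^ m) (hpm : ¬ p ∣ m)
    {P : G} (hP : P ≠ 0) (hpP : p • P = 0)
    (hrat : ∀ j, 0 < j → j < p → IsRat (D.X (j • P)) ∧ IsRat (D.Y (j • P)))
    (hK4 : ∀ Q, D.K1 A.valuation Q → Q ≠ 0 → p • Q = 0 → False)
    (hR1 : ∀ Q Q', Q ≠ 0 → Q' ≠ 0 → A.valuation (D.X Q) = 1 → A.valuation (D.X Q') = 1 →
      A.valuation (D.X Q - D.X Q') < 1 → A.valuation (D.Y Q - D.Y Q') < 1 →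
      D.K1 A.valuation (Q - Q'))
    (hE0 : ∀ Q, D.E0 A.valuation Q → ∀ n : ℕ, D.E0 A.valuation (n • Q)) : False :=
  NodalRational.no_rational_torsion H (NodalRules.nodeRules H) IsRat hp hp5 hP hpP hrat
    (res2 hA) (hval hA ha4 hp (by omega) hpm) hK4 hR1 hE0

/-! ### a variant of (R) without the subgroup property of `E0` (duplication formula instead) -/

section dup

variable {K : Type*} [Field K] {G : Type*} [AddCommGroup G] {a₁ a₂ a₄ : K}
  {D : NodalData K G a₁ a₂ a₄}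
  {Γ₀ : Type*} [LinearOrderedCommGroupWithZero Γ₀] {v : Valuation K Γ₀}

theorem valuation_two_le_one' : v (2 : K) ≤ 1 := by
  have h : (2 : K) = 1 + 1 := by norm_num
  rw [h]
  exact (v.map_add 1 1).trans (by simp)

/-- the double of a point of odd prime order with `v X = 1` is again in `E0` -/
theorem one_le_valuation_X_double (H : Hyp v a₁ a₂ a₄) {p : ℕ} (hp : p.Prime) (hp2 : 2 < p)
    {U : G} (hU : U ≠ 0) (hpU : p • U = 0) (hX : v (D.X U) = 1) :
    2 • U ≠ 0 ∧ 1 ≤ v (D.X (2 • U)) := by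
  have h2U : 2 • U ≠ 0 := nsmul_ne_zero_of_prime hp hU hpU (by omega) hp2
  refine ⟨h2U, ?_⟩
  have hT : D.T U ≠ 0 := by
    intro hT
    exact h2U (by rw [two_nsmul]; exact D.two_of_T U hU hT)
  have hdup := D.dup hU hT
  have hY : v (D.Y U) ≤ 1 := NodalRational.v_Y_le_one H hU hX.le
  have hvT : v (D.T U) ≤ 1 := by
    unfold NodalData.T
    refine (v.map_add _ _).trans (max_le ?_ ?_)
    · rw [map_mul]; exact mul_le_one' valuation_two_le_one' hY
    · rw [map_mul]; exact mul_le_one' H.a1 hX.le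
  have hnum : v (D.X U ^ 2 - a₄) = 1 := by
    have h1 : v (D.X U ^ 2) = 1 := by rw [map_pow, hX, one_pow]
    rw [Valuation.map_sub_eq_of_lt_left v (by rw [h1]; exact H.a4), h1]
  have h3 : v (D.X (U + U)) * v (D.T U) ^ 2 = 1 := by
    rw [← map_pow, ← map_mul, hdup, map_pow, hnum, one_pow]
  rw [two_nsmul]
  by_contra hcon
  rw [not_le] at hcon
  have h4 : v (D.X (U + U)) * v (D.T U) ^ 2 < 1 := by
    calc v (D.X (U + U)) * v (D.T U) ^ 2 ≤ v (D.X (U + U)) * 1 :=
          mul_le_mul_right (pow_le_one₀ zero_le hvT) _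
      _ = v (D.X (U + U)) := mul_one _
      _ < 1 := hcon
  rw [h3] at h4
  exact lt_irrefl _ h4

/-- **(R), abstract form without (E0)**: as `NodalRational.no_rational_torsion`, but the
multiples `Q, 2Q, 4Q` are kept in `E0` by the duplication formula. -/
theorem no_rational_torsion_dup (H : Hyp v a₁ a₂ a₄) (R : NodalPhase.NodeRules D v)
    (Rat : K → Prop) {p : ℕ} (hp : p.Prime) (hp5 : 5 ≤ p) {P : G} (hP : P ≠ 0)
    (hpP : p • P = 0)
    (hrat : ∀ j, 0 < j → j < p → Rat (D.X (j • P)) ∧ Rat (D.Y (j • P)))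
    (res2 : ∀ x, Rat x → v x ≤ 1 → v x < 1 ∨ v (x - 1) < 1)
    (hval : ∀ x, Rat x → ∀ i, 0 < i → i < p → v x ^ p ≠ v a₄ ^ (2 * i))
    (hK4 : ∀ Q, D.K1 v Q → Q ≠ 0 → p • Q = 0 → False)
    (hR1 : ∀ Q Q', Q ≠ 0 → Q' ≠ 0 → v (D.X Q) = 1 → v (D.X Q') = 1 →
      v (D.X Q - D.X Q') < 1 → v (D.Y Q - D.Y Q') < 1 → D.K1 v (Q - Q')) : False := by
  have : Fact p.Prime := ⟨hp⟩
  have ho : addOrderOf P = p := addOrderOf_eq_prime hpP hP
  by_cases hall : ∀ j, 0 < j → j < p → v (D.X (j • P)) < 1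
  · obtain ⟨i, hi0, hip, hi⟩ := NodalPhase.phase H R hp (by omega) hP hpP hall
    have h1 := (hrat 1 one_pos (by omega)).1
    rw [one_nsmul] at h1
    exact hval _ h1 i hi0 hip hi
  · simp only [not_forall, not_lt] at hall
    obtain ⟨j, hj0, hjp, hj⟩ := hall
    set Q := j • P with hQdef
    have hQ : Q ≠ 0 := nsmul_ne_zero_of_prime hp hP hpP hj0 hjp
    have hpQ : p • Q = 0 := by rw [hQdef, smul_comm, hpP, smul_zero]
    -- `E0` and `p`-torsion force `v X = 1`
    have hvX : ∀ U : G, U ≠ 0 → p • U = 0 → 1 ≤ v (D.X U) → v (D.X U) = 1 := by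
      intro U hU hpU h1
      refine le_antisymm ?_ h1
      by_contra hcon
      rw [not_le] at hcon
      exact hK4 U (Or.inr hcon) hU hpU
    have hpi : ∀ i : ℕ, p • (i • Q) = 0 := fun i => by rw [smul_comm, hpQ, smul_zero]
    have hX1 : v (D.X (1 • Q)) = 1 := by rw [one_nsmul]; exact hvX Q hQ hpQ hj
    have h1n : 1 • Q ≠ 0 := by rw [one_nsmul]; exact hQ
    obtain ⟨h2n, h2E⟩ := one_le_valuation_X_double H hp (by omega) h1n (hpi 1) hX1
    rw [← mul_nsmul'] at h2n h2E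
    have hX2 : v (D.X (2 • Q)) = 1 := hvX _ h2n (hpi 2) h2E
    obtain ⟨h4n, h4E⟩ := one_le_valuation_X_double H hp (by omega) h2n (hpi 2) hX2
    rw [← mul_nsmul'] at h4n h4E
    norm_num at h4n h4E
    have hX4 : v (D.X (4 • Q)) = 1 := hvX _ h4n (hpi 4) h4E
    -- rationality of the multiples of `Q`
    have hratQ : ∀ i, 0 < i → i < p → Rat (D.X (i • Q)) ∧ Rat (D.Y (i • Q)) := by
      intro i hi0 hip
      have hmod0 : 0 < (i * j) % p := by
        rw [Nat.pos_iff_ne_zero]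
        intro h
        have hdvd : p ∣ i * j := Nat.dvd_of_mod_eq_zero h
        rcases (Nat.Prime.dvd_mul hp).mp hdvd with h' | h'
        · exact absurd (Nat.le_of_dvd hi0 h') (not_le.mpr hip)
        · exact absurd (Nat.le_of_dvd hj0 h') (not_le.mpr hjp)
      have hmodp : (i * j) % p < p := Nat.mod_lt _ hp.pos
      have heq : i • Q = ((i * j) % p) • P := by
        rw [hQdef, ← mul_nsmul', ← ho, mod_addOrderOf_nsmul]
      rw [heq]
      exact hrat _ hmod0 hmodp
    obtain ⟨h1X, h1Y⟩ := hratQ 1 one_pos (by omega)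
    obtain ⟨h2X, h2Y⟩ := hratQ 2 (by omega) (by omega)
    obtain ⟨h4X, h4Y⟩ := hratQ 4 (by omega) (by omega)
    have h3n : 3 • Q ≠ 0 := nsmul_ne_zero_of_prime hp hQ hpQ (by omega) (by omega)
    have hd21 : 2 • Q - 1 • Q ≠ 0 := by
      have : 2 • Q - 1 • Q = 1 • Q := by abel
      rw [this]; exact h1n
    have hd41 : 4 • Q - 1 • Q ≠ 0 := by
      have : 4 • Q - 1 • Q = 3 • Q := by abel
      rw [this]; exact h3n
    have hd42 : 4 • Q - 2 • Q ≠ 0 := by
      have : 4 • Q - 2 • Q = 2 • Q := by abel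
      rw [this]; exact h2n
    have hE1 : D.E0 v (1 • Q) := Or.inr hX1.ge
    have hE2 : D.E0 v (2 • Q) := Or.inr hX2.ge
    have hE4 : D.E0 v (4 • Q) := Or.inr hX4.ge
    by_cases c21 : (v (D.Y (2 • Q)) < 1) ↔ (v (D.Y (1 • Q)) < 1)
    · exact NodalRational.pair_contra H res2 hK4 hR1 h2n h1n (hpi 2) (hpi 1) hE2 hE1
        h2X h2Y h1X h1Y hd21 c21
    by_cases c41 : (v (D.Y (4 • Q)) < 1) ↔ (v (D.Y (1 • Q)) < 1)
    · exact NodalRational.pair_contra H res2 hK4 hR1 h4n h1n (hpi 4) (hpi 1) hE4 hE1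
        h4X h4Y h1X h1Y hd41 c41
    have c42 : (v (D.Y (4 • Q)) < 1) ↔ (v (D.Y (2 • Q)) < 1) := by tauto
    exact NodalRational.pair_contra H res2 hK4 hR1 h4n h2n (hpi 4) (hpi 2) hE4 hE2
      h4X h4Y h2X h2Y hd42 c42

end dup

/-- **(R)** at a valuation subring over `2`, without (E0): only (K4) and (R1) of the local
toolkit are left as hypotheses. -/
theorem no_rational_torsion_two' (hA : A.LiesOverPrime 2) {G : Type*} [AddCommGroup G]
    {a₁ a₂ a₄ : L} {D : NodalData L G a₁ a₂ a₄} (H : Hyp A.valuation a₁ a₂ a₄)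
    {p : ℕ} (hp : p.Prime) (hp5 : 5 ≤ p) {m : ℕ}
    (ha4 : A.valuation a₄ = A.valuation (2 : L) ^ m) (hpm : ¬ p ∣ m)
    {P : G} (hP : P ≠ 0) (hpP : p • P = 0)
    (hrat : ∀ j, 0 < j → j < p → IsRat (D.X (j • P)) ∧ IsRat (D.Y (j • P)))
    (hK4 : ∀ Q, D.K1 A.valuation Q → Q ≠ 0 → p • Q = 0 → False)
    (hR1 : ∀ Q Q', Q ≠ 0 → Q' ≠ 0 → A.valuation (D.X Q) = 1 → A.valuation (D.X Q') = 1 →
      A.valuation (D.X Q - D.X Q') < 1 → A.valuation (D.Y Q - D.Y Q') < 1 →
      D.K1 A.valuation (Q - Q')) : False :=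
  no_rational_torsion_dup H (NodalRules.nodeRules H) IsRat hp hp5 hP hpP hrat
    (res2 hA) (hval hA ha4 hp (by omega) hpm) hK4 hR1

end Fermat.Agent.S13.Local.RatPointTwo
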